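import Fermat.Agent.S22.EichlerPrim
import Fermat.Prelude.Def_ModularForm_HeckeOperatorForms
import Fermat.Prelude.Def_FLTPrelim_Modularity
import Fermat.Prelude.Thm_UpperHalfPlane_qCoeff_heckeT
import Fermat.Prelude.Thm_UpperHalfPlane_qCoeff_heckeU
import Fermat.Prelude.Thm_UpperHalfPlane_eq_of_forall_qCoeff_eq
import Fermat.Prelude.Thm_ModularForm_periodic_heckeT_comp_ofComplex
import Fermat.Prelude.Thm_ModularForm_periodic_heckeU_comp_ofComplex
import Fermat.Prelude.Thm_ModularForm_mdifferentiable_heckeT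
import Fermat.Prelude.Thm_ModularForm_mdifferentiable_heckeU
import Fermat.Prelude.Thm_ModularForm_isBoundedAtImInfty_heckeT
import Fermat.Prelude.Thm_ModularForm_isBoundedAtImInfty_heckeU
import Fermat.Prelude.Thm_ModularFormClass_qCoeff_heckeT
import Fermat.Prelude.Thm_ModularFormClass_qCoeff_heckeU
import Fermat.Prelude.Thm_CongruenceSubgroup_one_mem_strictPeriods_Gamma0

/-!
# The Eichler map (iterated primitive via `q`-series) and its Hecke compatibility

Built on `Fermat.Agent.S22.EichlerPrim.E` with period `h = 1`.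
-/

set_option autoImplicit false

namespace Fermat.Agent.S22

open Complex Filter Topology Function
open UpperHalfPlane hiding I
open scoped Real Manifold
open EichlerPrim ModularFormClass CongruenceSubgroup

noncomputable section

/-- the `n`-th iterated primitive as a function on the upper half plane. -/
def eichlerFun (f : ℍ → ℂ) (n : ℕ) : ℍ → ℂ := fun τ => EichlerPrim.E 1 f n (τ : ℂ)

theorem eichlerFun_apply (f : ℍ → ℂ) (n : ℕ) (τ : ℍ) :
    eichlerFun f n τ = EichlerPrim.E 1 f n (τ : ℂ) := rfl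

section general

variable {f : ℍ → ℂ}

/-- uniqueness of `q`-expansion coefficients, for plain functions. -/
theorem qExpansion_coeff_unique_fun {h : ℝ} {f : ℍ → ℂ} {c : ℕ → ℂ} (hh : 0 < h)
    (hfanalytic : AnalyticAt ℂ (cuspFunction h f) 0)
    (hf : ∀ τ : ℍ, HasSum (fun m ↦ c m • Periodic.qParam h τ ^ m) (f τ)) (m : ℕ) :
    c m = (qExpansion h f).coeff m := by
  have h1 := (hasFPowerSeriesOnBall_cuspFunction hh hfanalytic hf).hasFPowerSeriesAt
  have h2 : HasFPowerSeriesAt (cuspFunction h f)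
      (FormalMultilinearSeries.ofScalars ℂ (fun m => (qExpansion h f).coeff m)) 0 := by
    have e : (fun m => (qExpansion h f).coeff m) =
        fun n => iteratedDeriv n (cuspFunction h f) 0 / n.factorial := by
      funext m
      rw [qExpansion_coeff, div_eq_mul_inv, mul_comm]
    rw [e]
    exact hfanalytic.hasFPowerSeriesAt
  simpa using congr_arg (FormalMultilinearSeries.coeff · m) (h1.eq_formalMultilinearSeries h2)

theorem eichlerFun_periodic (f : ℍ → ℂ) (n : ℕ) :
    Periodic (eichlerFun f n ∘ ofComplex) (1 : ℝ) := by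
  intro z
  by_cases hz : 0 < z.im
  · have hz' : 0 < (z + (1 : ℝ)).im := by simpa using hz
    simp only [comp_apply, eichlerFun, ofComplex_apply_of_im_pos hz,
      ofComplex_apply_of_im_pos hz', UpperHalfPlane.coe_mk]
    exact E_add_period one_pos n z
  · have hz0 : z.im ≤ 0 := not_lt.mp hz
    have hz' : (z + (1 : ℝ)).im ≤ 0 := by simpa using hz0
    simp only [comp_apply, ofComplex_apply_of_im_nonpos hz0, ofComplex_apply_of_im_nonpos hz']

theorem eichlerFun_zero (hf : IsCuspidalPeriodic 1 f) : eichlerFun f 0 = f := by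
  funext τ
  exact E_zero_apply hf τ

theorem eichlerFun_mdiff (hf : IsCuspidalPeriodic 1 f) (n : ℕ) : MDiff (eichlerFun f n) := by
  cases n with
  | zero => rw [eichlerFun_zero hf]; exact hf.hol
  | succ m =>
    rw [UpperHalfPlane.mdifferentiable_iff]
    intro z hz
    have hz' : 0 < z.im := hz
    have hd : DifferentiableAt ℂ (EichlerPrim.E 1 f (m + 1)) z :=
      (hasDerivAt_E hf m hz').differentiableAt
    refine (hd.congr_of_eventuallyEq ?_).differentiableWithinAt
    filter_upwards [isOpen_upperHalfPlaneSet.mem_nhds hz] with w hw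
    have hw' : 0 < w.im := hw
    simp [eichlerFun, ofComplex_apply_of_im_pos hw']

theorem eichlerFun_isBoundedAtImInfty (hf : IsCuspidalPeriodic 1 f) (n : ℕ) :
    IsBoundedAtImInfty (eichlerFun f n) := by
  obtain ⟨K, hK0, hK⟩ := exists_norm_E_le hf n
  rw [UpperHalfPlane.isBoundedAtImInfty_iff]
  refine ⟨K, 1, fun z hz => ?_⟩
  have hz' : 1 ≤ (z : ℂ).im := by rw [UpperHalfPlane.coe_im]; exact hz
  refine (hK (z : ℂ) hz').trans ?_
  have : Real.exp (-2 * π * (z : ℂ).im / 1) ≤ 1 := by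
    rw [Real.exp_le_one_iff]
    have h1 : (0 : ℝ) ≤ (z : ℂ).im := by linarith
    have := Real.pi_pos
    simp only [div_one]
    nlinarith
  calc K * Real.exp (-2 * π * (z : ℂ).im / 1) ≤ K * 1 := by gcongr
    _ = K := mul_one K

theorem eichlerFun_hasSum (hf : IsCuspidalPeriodic 1 f) (n : ℕ) (τ : ℍ) :
    HasSum (fun j : ℕ => (coeffA 1 f j * cInv 1 j ^ n) • Periodic.qParam (1 : ℝ) τ ^ j)
      (eichlerFun f n τ) := by
  have hs := (summable_term hf n τ.im_pos).hasSum
  rw [eichlerFun, EichlerPrim.E]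
  convert hs using 2 with j
  rw [term, smul_eq_mul, Periodic.qParam, ← Complex.exp_nat_mul]
  congr 2
  ring

theorem qCoeff_eichlerFun (hf : IsCuspidalPeriodic 1 f) (n j : ℕ) :
    qCoeff (eichlerFun f n) j = qCoeff f j * cInv 1 j ^ n := by
  have han : AnalyticAt ℂ (cuspFunction 1 (eichlerFun f n)) 0 :=
    analyticAt_cuspFunction_zero one_pos (eichlerFun_periodic f n) (eichlerFun_mdiff hf n)
      (eichlerFun_isBoundedAtImInfty hf n)
  have := qExpansion_coeff_unique_fun one_pos han (eichlerFun_hasSum hf n) j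
  rw [qCoeff, ← this]
  rfl

theorem cInv_one_mul (j p : ℕ) : cInv 1 (j * p) = cInv 1 j * (p : ℂ)⁻¹ := by
  unfold cInv
  push_cast
  rw [← mul_inv]
  congr 1
  ring

end general

section smulAux

variable {G : ℍ → ℂ}

theorem periodic_const_smul (c : ℂ) (hG : Periodic (G ∘ ofComplex) (1 : ℝ)) :
    Periodic ((c • G) ∘ ofComplex) (1 : ℝ) := by
  intro z
  have := hG z
  simp only [comp_apply, Pi.smul_apply] at this ⊢
  rw [this]

theorem mdiff_const_smul (c : ℂ) (hG : MDiff G) : MDiff (c • G) := by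
  rw [UpperHalfPlane.mdifferentiable_iff] at hG ⊢
  have : (c • G) ∘ ofComplex = c • (G ∘ ofComplex) := rfl
  rw [this]
  exact hG.const_smul c

theorem isBoundedAtImInfty_const_smul (c : ℂ) (hG : IsBoundedAtImInfty G) :
    IsBoundedAtImInfty (c • G) := by
  rw [UpperHalfPlane.isBoundedAtImInfty_iff] at hG ⊢
  obtain ⟨M, A, h⟩ := hG
  refine ⟨‖c‖ * M, A, fun z hz => ?_⟩
  simp only [Pi.smul_apply, smul_eq_mul, norm_mul]
  exact mul_le_mul_of_nonneg_left (h z hz) (norm_nonneg c)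

theorem qCoeff_const_smul (c : ℂ) (hper : Periodic (G ∘ ofComplex) (1 : ℝ)) (hhol : MDiff G)
    (hbdd : IsBoundedAtImInfty G) (j : ℕ) : qCoeff (c • G) j = c * qCoeff G j := by
  have han : AnalyticAt ℂ (cuspFunction 1 G) 0 :=
    analyticAt_cuspFunction_zero one_pos hper hhol hbdd
  rw [qCoeff, qCoeff, UpperHalfPlane.qExpansion_smul han c]
  simp

end smulAux

section cuspForms

variable {N : ℕ} {k : ℤ}

theorem one_mem_strictPeriods_Gamma0' (N : ℕ) :
    (1 : ℝ) ∈ (Subgroup.map (Matrix.SpecialLinearGroup.mapGL ℝ) (Gamma0 N)).strictPeriods :=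
  CongruenceSubgroup.one_mem_strictPeriods_Gamma0 N

theorem isCuspidalPeriodic_cuspForm (f : CuspForm (Gamma0 N) k) : IsCuspidalPeriodic 1 ⇑f := by
  have hΓ := one_mem_strictPeriods_Gamma0' N
  have : Fact (IsCusp OnePoint.infty (Subgroup.map (Matrix.SpecialLinearGroup.mapGL ℝ)
      (Gamma0 N))) := ⟨Subgroup.isCusp_of_mem_strictPeriods one_pos hΓ⟩
  exact ⟨one_pos, SlashInvariantFormClass.periodic_comp_ofComplex f hΓ, ModularFormClass.holo f,
    CuspFormClass.zero_at_infty f⟩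

theorem coeffA_add (f g : CuspForm (Gamma0 N) k) (j : ℕ) :
    coeffA 1 ⇑(f + g) j = coeffA 1 ⇑f j + coeffA 1 ⇑g j := by
  simp only [coeffA, FunLike.coe_add]
  rw [ModularForm.qExpansion_add one_pos (one_mem_strictPeriods_Gamma0' N) f g, map_add]

theorem coeffA_smul (c : ℂ) (f : CuspForm (Gamma0 N) k) (j : ℕ) :
    coeffA 1 ⇑(c • f) j = c * coeffA 1 ⇑f j := by
  have h1 : ⇑(c • f) = c • ⇑f := by
    ext z
    simp
  simp only [coeffA, h1]
  rw [ModularForm.qExpansion_smul one_pos (one_mem_strictPeriods_Gamma0' N) c f]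
  simp

/-- the Eichler map `f ↦ (n-fold normalised primitive of f)` as a `ℂ`-linear map. -/
def eichlerMap (N : ℕ) (k : ℤ) (n : ℕ) : CuspForm (Gamma0 N) k →ₗ[ℂ] (ℍ → ℂ) where
  toFun f := eichlerFun ⇑f n
  map_add' f g := by
    funext τ
    simp only [eichlerFun, EichlerPrim.E, Pi.add_apply]
    rw [← (summable_term (isCuspidalPeriodic_cuspForm f) n τ.im_pos).tsum_add
      (summable_term (isCuspidalPeriodic_cuspForm g) n τ.im_pos)]
    congr 1
    funext j
    simp only [term, coeffA_add]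
    ring
  map_smul' c f := by
    funext τ
    simp only [eichlerFun, EichlerPrim.E, Pi.smul_apply, RingHom.id_apply, smul_eq_mul]
    rw [← tsum_mul_left]
    congr 1
    funext j
    simp only [term, coeffA_smul]
    ring

@[simp] theorem eichlerMap_apply (n : ℕ) (f : CuspForm (Gamma0 N) k) :
    eichlerMap N k n f = eichlerFun ⇑f n := rfl

theorem eichlerMap_apply_apply (n : ℕ) (f : CuspForm (Gamma0 N) k) (τ : ℍ) :
    eichlerMap N k n f τ = EichlerPrim.E 1 ⇑f n (τ : ℂ) := rfl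

theorem qCoeff_eichlerMap (n : ℕ) (f : CuspForm (Gamma0 N) k) (j : ℕ) :
    qCoeff (eichlerMap N k n f) j = qCoeff ⇑f j * cInv 1 j ^ n :=
  qCoeff_eichlerFun (isCuspidalPeriodic_cuspForm f) n j

/-- Hecke compatibility of the Eichler map, `T_p` case. -/
theorem eichlerMap_heckeT (m : ℕ) (hk : k = (m : ℤ) + 2) {p : ℕ} (hp : p.Prime) (hpN : ¬ p ∣ N)
    (f : CuspForm (Gamma0 N) k) :
    eichlerMap N k (m + 1) (CuspForm.heckeTLin k hp hpN f) =
      (p : ℂ) ^ (k - 1) • ModularForm.heckeT (2 - k) p (eichlerMap N k (m + 1) f) := by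
  subst hk
  have hp0 : p ≠ 0 := hp.ne_zero
  have hpc : (p : ℂ) ≠ 0 := by exact_mod_cast hp0
  have hΓ := one_mem_strictPeriods_Gamma0' N
  set Tf := CuspForm.heckeTLin ((m : ℤ) + 2) hp hpN f with hTf
  have hcf := isCuspidalPeriodic_cuspForm f
  have hcT := isCuspidalPeriodic_cuspForm Tf
  set G := eichlerFun ⇑f (m + 1) with hG
  have hGper := eichlerFun_periodic ⇑f (m + 1)
  have hGhol := eichlerFun_mdiff hcf (m + 1)
  have hGbdd := eichlerFun_isBoundedAtImInfty hcf (m + 1)
  have hHper := ModularForm.periodic_heckeT_comp_ofComplex hGper (2 - ((m : ℤ) + 2)) p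
  have hHhol := ModularForm.mdifferentiable_heckeT hGhol (2 - ((m : ℤ) + 2)) p
  have hHbdd := ModularForm.isBoundedAtImInfty_heckeT hGbdd (2 - ((m : ℤ) + 2)) p
  simp only [eichlerMap_apply]
  refine UpperHalfPlane.eq_of_forall_qCoeff_eq (eichlerFun_periodic _ _)
    (eichlerFun_mdiff hcT _) (eichlerFun_isBoundedAtImInfty hcT _)
    (periodic_const_smul _ hHper) (mdiff_const_smul _ hHhol)
    (isBoundedAtImInfty_const_smul _ hHbdd) fun j => ?_
  have e1 : (p : ℂ) ^ ((m : ℤ) + 2 - 1) = (p : ℂ) ^ (m + 1) := by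
    rw [show (m : ℤ) + 2 - 1 = ((m + 1 : ℕ) : ℤ) by push_cast; ring, zpow_natCast]
  have e2 : (p : ℂ) ^ (2 - ((m : ℤ) + 2) - 1) = ((p : ℂ) ^ (m + 1))⁻¹ := by
    rw [show 2 - ((m : ℤ) + 2) - 1 = -((m + 1 : ℕ) : ℤ) by push_cast; ring, zpow_neg,
      zpow_natCast]
  rw [qCoeff_eichlerFun hcT, qCoeff_const_smul _ hHper hHhol hHbdd,
    UpperHalfPlane.qCoeff_heckeT hGper hGhol hGbdd _ hp0, hTf, CuspForm.coe_heckeTLin_apply,
    ModularFormClass.qCoeff_heckeT f hΓ hp0, ModularForm.coeffHeckeT_apply,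
    ModularForm.coeffHeckeT_apply, qCoeff_eichlerFun hcf, e1, e2, cInv_one_mul, mul_pow]
  have hP : (p : ℂ) ^ (m + 1) ≠ 0 := pow_ne_zero _ hpc
  by_cases hd : p ∣ j
  · obtain ⟨i, rfl⟩ := hd
    rw [if_pos (dvd_mul_right p i), if_pos (dvd_mul_right p i), Nat.mul_div_cancel_left i hp.pos,
      qCoeff_eichlerFun hcf, mul_comm p i, cInv_one_mul, mul_pow, inv_pow]
    generalize (p : ℂ) ^ (m + 1) = P at hP ⊢
    field_simp
  · rw [if_neg hd, if_neg hd, inv_pow]
    generalize (p : ℂ) ^ (m + 1) = P at hP ⊢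
    field_simp
    ring

/-- Hecke compatibility of the Eichler map, `U_q` case. -/
theorem eichlerMap_heckeU [NeZero N] (m : ℕ) (hk : k = (m : ℤ) + 2) {q : ℕ} (hq : q.Prime)
    (hqN : q ∣ N) (f : CuspForm (Gamma0 N) k) :
    eichlerMap N k (m + 1) (CuspForm.heckeULin k hqN f) =
      (q : ℂ) ^ (k - 1) • ModularForm.heckeU (2 - k) q (eichlerMap N k (m + 1) f) := by
  subst hk
  have hq0 : q ≠ 0 := hq.ne_zero
  have hqc : (q : ℂ) ≠ 0 := by exact_mod_cast hq0
  have hΓ := one_mem_strictPeriods_Gamma0' N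
  set Uf := CuspForm.heckeULin ((m : ℤ) + 2) hqN f with hUf
  have hcf := isCuspidalPeriodic_cuspForm f
  have hcU := isCuspidalPeriodic_cuspForm Uf
  set G := eichlerFun ⇑f (m + 1) with hG
  have hGper := eichlerFun_periodic ⇑f (m + 1)
  have hGhol := eichlerFun_mdiff hcf (m + 1)
  have hGbdd := eichlerFun_isBoundedAtImInfty hcf (m + 1)
  have hHper := ModularForm.periodic_heckeU_comp_ofComplex hGper (2 - ((m : ℤ) + 2)) q
  have hHhol := ModularForm.mdifferentiable_heckeU hGhol (2 - ((m : ℤ) + 2)) q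
  have hHbdd := ModularForm.isBoundedAtImInfty_heckeU hGbdd (2 - ((m : ℤ) + 2)) q
  simp only [eichlerMap_apply]
  refine UpperHalfPlane.eq_of_forall_qCoeff_eq (eichlerFun_periodic _ _)
    (eichlerFun_mdiff hcU _) (eichlerFun_isBoundedAtImInfty hcU _)
    (periodic_const_smul _ hHper) (mdiff_const_smul _ hHhol)
    (isBoundedAtImInfty_const_smul _ hHbdd) fun j => ?_
  have e1 : (q : ℂ) ^ ((m : ℤ) + 2 - 1) = (q : ℂ) ^ (m + 1) := by
    rw [show (m : ℤ) + 2 - 1 = ((m + 1 : ℕ) : ℤ) by push_cast; ring, zpow_natCast]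
  rw [qCoeff_eichlerFun hcU, qCoeff_const_smul _ hHper hHhol hHbdd,
    UpperHalfPlane.qCoeff_heckeU hGper hGhol hGbdd _ hq0, hUf, CuspForm.coe_heckeULin_apply,
    ModularFormClass.qCoeff_heckeU f hΓ hq0, ModularForm.coeffHeckeU_apply,
    ModularForm.coeffHeckeU_apply, qCoeff_eichlerFun hcf, e1, cInv_one_mul, mul_pow, inv_pow]
  have hP : (q : ℂ) ^ (m + 1) ≠ 0 := pow_ne_zero _ hqc
  generalize (q : ℂ) ^ (m + 1) = P at hP ⊢
  field_simp

end cuspForms

end

end Fermat.Agent.S22
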