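import Fermat.Agent.S22.EichlerPhi
import Fermat.Prelude.Def_ModularForm_HeckeOperator

/-!
# The scalar Eichler integral and its period polynomials

`EF h f w τ = Phi h f w τ 1 τ = w! * E h f (w+1) τ`.  From the vector valued statements of
`EichlerPhi` we deduce the transformation behaviour of `EF` under the weight `-w` slash action.
-/

namespace Fermat.Agent.S22.EichlerPrim

open Complex Filter Topology Function
open UpperHalfPlane hiding I
open scoped Real Manifold ModularForm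

variable {h : ℝ} {f : ℍ → ℂ}

/-- Homogeneity of degree `w` in `(X, Y)`. -/
theorem PhiAux_smul (h : ℝ) (f : ℍ → ℂ) :
    ∀ (w s : ℕ) (c X Y z : ℂ),
      PhiAux h f w s (c * X) (c * Y) z = c ^ w * PhiAux h f w s X Y z := by
  intro w
  induction w with
  | zero => intro s c X Y z; simp [PhiAux]
  | succ w ih =>
    intro s c X Y z
    simp only [PhiAux, ih]
    have h1 : c * X - z * (c * Y) = c * (X - z * Y) := by ring
    rw [h1, mul_pow]
    ring

theorem Phi_smul (h : ℝ) (f : ℍ → ℂ) (w : ℕ) (c X Y z : ℂ) :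
    Phi h f w (c * X) (c * Y) z = c ^ w * Phi h f w X Y z :=
  PhiAux_smul h f w 0 c X Y z

/-- On the diagonal only the top primitive survives. -/
theorem PhiAux_diag (h : ℝ) (f : ℍ → ℂ) :
    ∀ (w s : ℕ) (z : ℂ), PhiAux h f w s z 1 z = (w.factorial : ℂ) * E h f (s + w + 1) z := by
  intro w
  induction w with
  | zero => intro s z; simp [PhiAux]
  | succ w ih =>
    intro s z
    simp only [PhiAux, ih, mul_one, sub_self]
    rw [zero_pow (Nat.succ_ne_zero w), zero_mul, zero_add, Nat.factorial_succ]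
    have : s + 1 + w + 1 = s + (w + 1) + 1 := by ring
    rw [this]
    push_cast
    ring

theorem Phi_diag (h : ℝ) (f : ℍ → ℂ) (w : ℕ) (z : ℂ) :
    Phi h f w z 1 z = (w.factorial : ℂ) * E h f (w + 1) z := by
  rw [Phi, PhiAux_diag, zero_add]

/-- Along an affine line in `(X, Y)` the function `PhiAux` is a polynomial of degree `≤ w`. -/
theorem exists_poly_PhiAux (h : ℝ) (f : ℍ → ℂ) (a b c d z : ℂ) :
    ∀ (w s : ℕ), ∃ P : Polynomial ℂ, P.natDegree ≤ w ∧
      ∀ t : ℂ, PhiAux h f w s (a * t + b) (c * t + d) z = P.eval t := by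
  intro w
  induction w with
  | zero =>
    intro s
    exact ⟨Polynomial.C (E h f (s + 1) z), by simp, fun t => by simp [PhiAux]⟩
  | succ w ih =>
    intro s
    obtain ⟨P, hP, hPe⟩ := ih (s + 1)
    let L : Polynomial ℂ := Polynomial.C (a - z * c) * Polynomial.X + Polynomial.C (b - z * d)
    let M : Polynomial ℂ := Polynomial.C c * Polynomial.X + Polynomial.C d
    have hL : L.natDegree ≤ 1 := Polynomial.natDegree_linear_le
    have hM : M.natDegree ≤ 1 := Polynomial.natDegree_linear_le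
    refine ⟨L ^ (w + 1) * Polynomial.C (E h f (s + 1) z) +
      Polynomial.C (((w + 1 : ℕ) : ℂ)) * M * P, ?_, fun t => ?_⟩
    · refine (Polynomial.natDegree_add_le _ _).trans (max_le ?_ ?_)
      · refine (Polynomial.natDegree_mul_le).trans ?_
        rw [Polynomial.natDegree_C, add_zero]
        refine (Polynomial.natDegree_pow_le).trans ?_
        calc (w + 1) * L.natDegree ≤ (w + 1) * 1 := Nat.mul_le_mul_left _ hL
          _ = w + 1 := mul_one _
      · refine (Polynomial.natDegree_mul_le).trans ?_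
        have h1 : (Polynomial.C (((w + 1 : ℕ) : ℂ)) * M).natDegree ≤ 1 :=
          (Polynomial.natDegree_C_mul_le _ _).trans hM
        omega
    · simp only [PhiAux, hPe, Polynomial.eval_add, Polynomial.eval_mul, Polynomial.eval_pow,
        Polynomial.eval_C, Polynomial.eval_X, L, M]
      ring

theorem exists_poly_Phi (h : ℝ) (f : ℍ → ℂ) (w : ℕ) (a b c d z : ℂ) :
    ∃ P : Polynomial ℂ, P.natDegree ≤ w ∧
      ∀ t : ℂ, Phi h f w (a * t + b) (c * t + d) z = P.eval t :=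
  exists_poly_PhiAux h f a b c d z w 0

/-- The scalar Eichler integral `"∫_{i∞}^τ f(u) (τ - u)^w du"`. -/
noncomputable def EF (h : ℝ) (f : ℍ → ℂ) (w : ℕ) (τ : ℍ) : ℂ := Phi h f w τ 1 τ

theorem EF_eq (h : ℝ) (f : ℍ → ℂ) (w : ℕ) (τ : ℍ) :
    EF h f w τ = (w.factorial : ℂ) * E h f (w + 1) τ := Phi_diag h f w τ

variable {h' : ℝ} {f' : ℍ → ℂ}

/-- Value of the weight `-w` slash of `EF` in terms of `Phi`. -/
theorem det_pow_mul_slash_EF (h : ℝ) (f : ℍ → ℂ) (w : ℕ) (g : GL (Fin 2) ℝ)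
    (hg : 0 < g.det.val) (τ : ℍ) :
    ((g.det.val : ℝ) : ℂ) ^ (w + 1) * (EF h f w ∣[-(w : ℤ)] g) τ =
      Phi h f w (g 0 0 * τ + g 0 1 * 1) (g 1 0 * τ + g 1 1 * 1) (num g τ / denom g τ) := by
  have hden : denom g (τ : ℂ) ≠ 0 := denom_ne_zero g τ
  have hcoe : ((g • τ : ℍ) : ℂ) = num g τ / denom g τ := coe_smul_of_det_pos hg τ
  have hdet : ((g.det.val : ℝ) : ℂ) ≠ 0 := by exact_mod_cast hg.ne'
  have h1 : (g 0 0 : ℂ) * τ + g 0 1 * 1 = denom g τ * (num g τ / denom g τ) := by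
    rw [mul_div_cancel₀ _ hden]; simp [num]
  have h2 : (g 1 0 : ℂ) * τ + g 1 1 * 1 = denom g τ * 1 := by simp [denom]
  rw [h1, h2, Phi_smul, ModularForm.slash_apply, UpperHalfPlane.σ, if_pos hg,
    ContinuousAlgEquiv.refl_apply, abs_of_pos hg, EF, hcoe]
  have hk : (-(w : ℤ) - 1) = -((w + 1 : ℕ) : ℤ) := by push_cast; ring
  rw [hk, neg_neg, zpow_neg, zpow_natCast, zpow_natCast]
  field_simp

/-- Transformation law of the scalar Eichler integral: if `f ∣[w+2] g = f'` then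
`det g ^ (w+1) • (EF f ∣[-w] g)` and `EF f'` differ by a polynomial of degree `≤ w`. -/
theorem slash_EF (hf : IsCuspidalPeriodic h f) (hf' : IsCuspidalPeriodic h' f') (w : ℕ)
    (g : GL (Fin 2) ℝ) (hg : 0 < g.det.val) (hslash : f ∣[(w : ℤ) + 2] g = f') :
    ∃ P : Polynomial ℂ, P.natDegree ≤ w ∧ ∀ τ : ℍ,
      ((g.det.val : ℝ) : ℂ) ^ (w + 1) * (EF h f w ∣[-(w : ℤ)] g) τ =
        EF h' f' w τ + P.eval (τ : ℂ) := by
  set τ0 : ℍ := UpperHalfPlane.I with hτ0
  obtain ⟨P1, hP1, hP1e⟩ := exists_poly_Phi h f w (g 0 0) (g 0 1 * 1) (g 1 0) (g 1 1 * 1)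
    (num g τ0 / denom g τ0)
  obtain ⟨P2, hP2, hP2e⟩ := exists_poly_Phi h' f' w 1 0 0 1 (τ0 : ℂ)
  refine ⟨P1 - P2, (Polynomial.natDegree_sub_le _ _).trans (max_le hP1 hP2), fun τ => ?_⟩
  rw [det_pow_mul_slash_EF h f w g hg τ]
  obtain ⟨c, hc⟩ := exists_const_of_slash_eq hf hf' w g hg hslash (τ : ℂ) 1
  have e1 := hc τ
  have e2 := hc τ0
  have e3 := hP1e (τ : ℂ)
  have e4 := hP2e (τ : ℂ)
  simp only [one_mul, add_zero, zero_mul, zero_add] at e4
  rw [Polynomial.eval_sub, ← e3, ← e4, EF]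
  linear_combination e1 - e2

/-- Hecke compatibility of the scalar Eichler integral, general form. -/
theorem sum_slash_EF_upper_triangular (hf : IsCuspidalPeriodic h f)
    (hf' : IsCuspidalPeriodic h' f') (w : ℕ) {ι : Type*} (s : Finset ι) (g : ι → GL (Fin 2) ℝ)
    (hg : ∀ i ∈ s, 0 < (g i).det.val) (hg10 : ∀ i ∈ s, g i 1 0 = 0)
    (hslash : ∑ i ∈ s, f ∣[(w : ℤ) + 2] g i = f') (τ : ℍ) :
    ∑ i ∈ s, (((g i).det.val : ℝ) : ℂ) ^ (w + 1) * (EF h f w ∣[-(w : ℤ)] g i) τ =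
      EF h' f' w τ := by
  rw [EF, ← sum_Phi_upper_triangular hf hf' w s g hg hg10 hslash (τ : ℂ) 1 τ]
  exact Finset.sum_congr rfl fun i hi => det_pow_mul_slash_EF h f w (g i) (hg i hi) τ

open ModularForm in
theorem heckeMatrix_one_zero (p j : ℕ) : (heckeMatrix p j) 1 0 = 0 := by
  rcases eq_or_ne p 0 with rfl | hp
  · simp
  · have := val_heckeMatrix hp j
    simp [this]

open ModularForm in
theorem heckeDiagMatrix_one_zero (p : ℕ) : (heckeDiagMatrix p) 1 0 = 0 := by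
  rcases eq_or_ne p 0 with rfl | hp
  · simp
  · have := val_heckeDiagMatrix hp
    simp [this]

open ModularForm in
/-- `EF (U_p f) = p^(w+1) • U_p (EF f)` (weights `w+2` and `-w`). -/
theorem EF_heckeU (hf : IsCuspidalPeriodic h f) (hf' : IsCuspidalPeriodic h' f') (w : ℕ)
    {p : ℕ} (hp : p ≠ 0) (hslash : heckeU ((w : ℤ) + 2) p f = f') :
    EF h' f' w = ((p : ℂ) ^ (w + 1)) • heckeU (-(w : ℤ)) p (EF h f w) := by
  funext τ
  rw [← sum_slash_EF_upper_triangular hf hf' w (Finset.range p) (fun j => heckeMatrix p j)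
    (fun j _ => det_heckeMatrix_pos p j) (fun j _ => heckeMatrix_one_zero p j) hslash τ]
  simp only [heckeU, Pi.smul_apply, Finset.sum_apply, smul_eq_mul, Finset.mul_sum,
    det_heckeMatrix hp, Complex.ofReal_natCast]

open ModularForm in
/-- `EF (T_p f) = p^(w+1) • T_p (EF f)` (weights `w+2` and `-w`). -/
theorem EF_heckeT (hf : IsCuspidalPeriodic h f) (hf' : IsCuspidalPeriodic h' f') (w : ℕ)
    {p : ℕ} (hp : p ≠ 0) (hslash : heckeT ((w : ℤ) + 2) p f = f') :
    EF h' f' w = ((p : ℂ) ^ (w + 1)) • heckeT (-(w : ℤ)) p (EF h f w) := by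
  funext τ
  have hs : ∑ i ∈ Finset.range (p + 1), f ∣[(w : ℤ) + 2]
      (if i < p then heckeMatrix p i else heckeDiagMatrix p) = f' := by
    rw [Finset.sum_range_succ, if_neg (lt_irrefl p), ← hslash, heckeT, heckeU]
    congr 1
    exact Finset.sum_congr rfl fun i hi => by rw [if_pos (Finset.mem_range.mp hi)]
  rw [← sum_slash_EF_upper_triangular hf hf' w (Finset.range (p + 1))
    (fun i => if i < p then heckeMatrix p i else heckeDiagMatrix p)
    (fun i _ => by
      split_ifs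
      · exact det_heckeMatrix_pos p i
      · exact det_heckeDiagMatrix_pos p)
    (fun i _ => by
      split_ifs
      · exact heckeMatrix_one_zero p i
      · exact heckeDiagMatrix_one_zero p) hs τ]
  rw [Finset.sum_range_succ, if_neg (lt_irrefl p), det_heckeDiagMatrix hp]
  have : ∀ i ∈ Finset.range p,
      ((((if i < p then heckeMatrix p i else heckeDiagMatrix p).det.val : ℝ) : ℂ)) ^ (w + 1) *
        (EF h f w ∣[-(w : ℤ)] (if i < p then heckeMatrix p i else heckeDiagMatrix p)) τ =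
      (p : ℂ) ^ (w + 1) * (EF h f w ∣[-(w : ℤ)] heckeMatrix p i) τ := by
    intro i hi
    rw [if_pos (Finset.mem_range.mp hi), det_heckeMatrix hp, Complex.ofReal_natCast]
  rw [Finset.sum_congr rfl this]
  simp only [heckeT, heckeU, Pi.smul_apply, Pi.add_apply, Finset.sum_apply, smul_eq_mul,
    Finset.mul_sum, Complex.ofReal_natCast, mul_add]

/-! ### The same statements for the top primitive `τ ↦ E h f (w+1) τ` itself -/

/-- The top primitive as a function on `ℍ`. -/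
noncomputable def EI (h : ℝ) (f : ℍ → ℂ) (w : ℕ) : ℍ → ℂ := fun τ => E h f (w + 1) τ

theorem EF_eq_smul_EI (h : ℝ) (f : ℍ → ℂ) (w : ℕ) :
    EF h f w = (w.factorial : ℂ) • EI h f w := by
  funext τ
  rw [EF_eq, Pi.smul_apply, smul_eq_mul]
  rfl

theorem EI_eq_smul_EF (h : ℝ) (f : ℍ → ℂ) (w : ℕ) :
    EI h f w = ((w.factorial : ℂ)⁻¹) • EF h f w := by
  have hw : (w.factorial : ℂ) ≠ 0 := by exact_mod_cast w.factorial_ne_zero
  rw [EF_eq_smul_EI, smul_smul, inv_mul_cancel₀ hw, one_smul]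

theorem smul_slash_pos (k : ℤ) (g : GL (Fin 2) ℝ) (hg : 0 < g.det.val) (c : ℂ) (F : ℍ → ℂ) :
    (c • F) ∣[k] g = c • (F ∣[k] g) := by
  rw [ModularForm.smul_slash, UpperHalfPlane.σ, if_pos hg, ContinuousAlgEquiv.refl_apply]

/-- Transformation law of the top primitive: if `f ∣[w+2] g = f'` then
`det g ^ (w+1) • (E_{w+1} f ∣[-w] g)` and `E_{w+1} f'` differ by a polynomial of degree `≤ w`. -/
theorem slash_EI (hf : IsCuspidalPeriodic h f) (hf' : IsCuspidalPeriodic h' f') (w : ℕ)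
    (g : GL (Fin 2) ℝ) (hg : 0 < g.det.val) (hslash : f ∣[(w : ℤ) + 2] g = f') :
    ∃ P : Polynomial ℂ, P.natDegree ≤ w ∧ ∀ τ : ℍ,
      ((g.det.val : ℝ) : ℂ) ^ (w + 1) * (EI h f w ∣[-(w : ℤ)] g) τ =
        EI h' f' w τ + P.eval (τ : ℂ) := by
  obtain ⟨P, hP, hPe⟩ := slash_EF hf hf' w g hg hslash
  have hw : (w.factorial : ℂ) ≠ 0 := by exact_mod_cast w.factorial_ne_zero
  refine ⟨Polynomial.C ((w.factorial : ℂ)⁻¹) * P,
    (Polynomial.natDegree_C_mul_le _ _).trans hP, fun τ => ?_⟩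
  have e := hPe τ
  rw [EF_eq_smul_EI, EF_eq_smul_EI, smul_slash_pos _ g hg, Pi.smul_apply, Pi.smul_apply,
    smul_eq_mul, smul_eq_mul] at e
  rw [Polynomial.eval_mul, Polynomial.eval_C]
  field_simp
  linear_combination e

open ModularForm in
/-- `E_{w+1} (U_p f) = p^(w+1) • U_p (E_{w+1} f)` (weights `w+2` and `-w`). -/
theorem EI_heckeU (hf : IsCuspidalPeriodic h f) (hf' : IsCuspidalPeriodic h' f') (w : ℕ)
    {p : ℕ} (hp : p ≠ 0) (hslash : heckeU ((w : ℤ) + 2) p f = f') :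
    EI h' f' w = ((p : ℂ) ^ (w + 1)) • heckeU (-(w : ℤ)) p (EI h f w) := by
  rw [EI_eq_smul_EF, EF_heckeU hf hf' w hp hslash, EF_eq_smul_EI, heckeU_smul, smul_smul,
    smul_smul]
  have hw : (w.factorial : ℂ) ≠ 0 := by exact_mod_cast w.factorial_ne_zero
  congr 1
  field_simp

open ModularForm in
/-- `E_{w+1} (T_p f) = p^(w+1) • T_p (E_{w+1} f)` (weights `w+2` and `-w`). -/
theorem EI_heckeT (hf : IsCuspidalPeriodic h f) (hf' : IsCuspidalPeriodic h' f') (w : ℕ)
    {p : ℕ} (hp : p ≠ 0) (hslash : heckeT ((w : ℤ) + 2) p f = f') :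
    EI h' f' w = ((p : ℂ) ^ (w + 1)) • heckeT (-(w : ℤ)) p (EI h f w) := by
  rw [EI_eq_smul_EF, EF_heckeT hf hf' w hp hslash, EF_eq_smul_EI, heckeT_smul, smul_smul,
    smul_smul]
  have hw : (w.factorial : ℂ) ≠ 0 := by exact_mod_cast w.factorial_ne_zero
  congr 1
  field_simp

end Fermat.Agent.S22.EichlerPrim
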