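import Mathlib.NumberTheory.ModularForms.QExpansion
import Mathlib.Analysis.Calculus.SmoothSeries

/-!
# Iterated primitives of a cuspidal periodic function, via its q-series

For `f : ℍ → ℂ` holomorphic, `h`-periodic and vanishing at `i∞` we define functions
`E h f m : ℂ → ℂ` (`m : ℕ`) such that on the upper half plane
* `E h f 0 = f`,
* `E h f (m+1)` has derivative `E h f m`,
* `E h f m` decays exponentially as `Im z → ∞`, uniformly in `Re z`.
-/

namespace Fermat.Agent.S22.EichlerPrim

open Complex Filter Topology Function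
open UpperHalfPlane hiding I
open scoped Real Manifold

/-- Bundle of hypotheses: `f` is holomorphic on `ℍ`, `h`-periodic, zero at `i∞`. -/
structure IsCuspidalPeriodic (h : ℝ) (f : ℍ → ℂ) : Prop where
  pos : 0 < h
  per : Periodic (f ∘ ofComplex) h
  hol : MDiff f
  zero : IsZeroAtImInfty f

/-- The q-expansion coefficients. -/
noncomputable def coeffA (h : ℝ) (f : ℍ → ℂ) (n : ℕ) : ℂ := (qExpansion h f).coeff n

/-- The inverse of `2πi n / h` (zero for `n = 0`). -/
noncomputable def cInv (h : ℝ) (n : ℕ) : ℂ := (2 * π * I * n / h)⁻¹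

/-- The `n`-th term of the `m`-th iterated primitive. -/
noncomputable def term (h : ℝ) (f : ℍ → ℂ) (m n : ℕ) (z : ℂ) : ℂ :=
  coeffA h f n * cInv h n ^ m * cexp (2 * π * I * n * z / h)

/-- The `m`-th iterated primitive of `f`, as a function on `ℂ` (meaningful for `0 < im z`). -/
noncomputable def E (h : ℝ) (f : ℍ → ℂ) (m : ℕ) (z : ℂ) : ℂ := ∑' n, term h f m n z

variable {h : ℝ} {f : ℍ → ℂ}

theorem coeffA_zero (hf : IsCuspidalPeriodic h f) : coeffA h f 0 = 0 := by
  have hbdd := hf.zero.isBoundedAtImInfty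
  rw [coeffA, qExpansion_coeff_zero hf.pos
    (analyticAt_cuspFunction_zero hf.pos hf.per hf.hol hbdd) hf.per]
  exact hf.zero.valueAtInfty_eq_zero

theorem summable_norm_coeffA (hf : IsCuspidalPeriodic h f) {r : ℝ} (hr0 : 0 ≤ r) (hr1 : r < 1) :
    Summable fun n => ‖coeffA h f n‖ * r ^ n := by
  have hq : ‖(r : ℂ)‖ < 1 := by
    rw [Complex.norm_real, Real.norm_eq_abs, abs_of_nonneg hr0]; exact hr1
  have hs := (hasSum_qExpansion_of_norm_lt hf.pos hf.per hf.hol
    hf.zero.isBoundedAtImInfty hq).summable.norm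
  refine hs.congr fun n => ?_
  rw [smul_eq_mul, norm_mul, norm_pow, Complex.norm_real, Real.norm_eq_abs, abs_of_nonneg hr0,
    coeffA]

/-- Bound for `cInv`. -/
noncomputable def cBound (h : ℝ) : ℝ := max 1 (h / (2 * π))

theorem one_le_cBound (h : ℝ) : 1 ≤ cBound h := le_max_left _ _

theorem norm_cInv_le (hh : 0 < h) (n : ℕ) : ‖cInv h n‖ ≤ cBound h := by
  rcases Nat.eq_zero_or_pos n with rfl | hn
  · simp [cInv, cBound]
  · have hn' : (1 : ℝ) ≤ n := by exact_mod_cast hn
    have hpi : 0 < 2 * π := by positivity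
    rw [cInv, norm_inv, norm_div, norm_mul, norm_mul, norm_mul]
    simp only [Complex.norm_ofNat, Complex.norm_real, Real.norm_eq_abs, abs_of_pos Real.pi_pos,
      Complex.norm_I, mul_one, Complex.norm_natCast, abs_of_pos hh, inv_div]
    refine le_trans ?_ (le_max_right _ _)
    rw [div_le_div_iff₀ (by positivity) hpi]
    exact mul_le_mul_of_nonneg_left (le_mul_of_one_le_right hpi.le hn') hh.le

theorem cInv_mul (hh : 0 < h) {n : ℕ} (hn : n ≠ 0) : cInv h n * (2 * π * I * n / h) = 1 := by
  rw [cInv]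
  refine inv_mul_cancel₀ ?_
  have : (h : ℂ) ≠ 0 := by exact_mod_cast hh.ne'
  have hn' : (n : ℂ) ≠ 0 := by exact_mod_cast hn
  have hpi : (π : ℂ) ≠ 0 := by exact_mod_cast Real.pi_ne_zero
  simp [this, hn', hpi, Complex.I_ne_zero]

theorem norm_cexp_term (hh : 0 < h) (n : ℕ) (z : ℂ) :
    ‖cexp (2 * π * I * n * z / h)‖ = Real.exp (-2 * π * z.im / h) ^ n := by
  rw [Complex.norm_exp, ← Real.exp_nat_mul]
  congr 1
  have : (2 * π * I * n * z / h : ℂ) = ((2 * π * n / h : ℝ) : ℂ) * (I * z) := by
    push_cast; ring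
  rw [this, Complex.re_ofReal_mul]
  simp only [Complex.mul_re, Complex.I_re, zero_mul, Complex.I_im, one_mul, zero_sub]
  field_simp

theorem norm_term_le (hf : IsCuspidalPeriodic h f) (m n : ℕ) (z : ℂ) :
    ‖term h f m n z‖ ≤ cBound h ^ m * (‖coeffA h f n‖ * Real.exp (-2 * π * z.im / h) ^ n) := by
  rw [term, norm_mul, norm_mul, norm_pow, norm_cexp_term hf.pos]
  have h1 : ‖cInv h n‖ ^ m ≤ cBound h ^ m :=
    pow_le_pow_left₀ (norm_nonneg _) (norm_cInv_le hf.pos n) m
  have h2 : 0 ≤ Real.exp (-2 * π * z.im / h) ^ n := by positivity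
  calc ‖coeffA h f n‖ * ‖cInv h n‖ ^ m * Real.exp (-2 * π * z.im / h) ^ n
      ≤ ‖coeffA h f n‖ * cBound h ^ m * Real.exp (-2 * π * z.im / h) ^ n := by gcongr
    _ = _ := by ring

theorem exp_lt_one (hh : 0 < h) {y : ℝ} (hy : 0 < y) : Real.exp (-2 * π * y / h) < 1 := by
  rw [Real.exp_lt_one_iff]
  have : 0 < 2 * π * y / h := by positivity
  have h2 : -2 * π * y / h = -(2 * π * y / h) := by ring
  rw [h2]; linarith

theorem summable_term (hf : IsCuspidalPeriodic h f) (m : ℕ) {z : ℂ} (hz : 0 < z.im) :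
    Summable fun n => term h f m n z := by
  refine Summable.of_norm_bounded (g := fun n => cBound h ^ m *
    (‖coeffA h f n‖ * Real.exp (-2 * π * z.im / h) ^ n)) ?_ (fun n => norm_term_le hf m n z)
  exact (summable_norm_coeffA hf (Real.exp_pos _).le (exp_lt_one hf.pos hz)).mul_left _

theorem hasDerivAt_term (hf : IsCuspidalPeriodic h f) (m n : ℕ) (z : ℂ) :
    HasDerivAt (term h f (m + 1) n) (term h f m n z) z := by
  rcases Nat.eq_zero_or_pos n with rfl | hn
  · have h0 : term h f (m + 1) 0 = fun _ => 0 := by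
      funext w; simp [term, coeffA_zero hf]
    have h1 : term h f m 0 z = 0 := by simp [term, coeffA_zero hf]
    rw [h0, h1]
    exact hasDerivAt_const z 0
  · have hlin : HasDerivAt (fun w : ℂ => 2 * π * I * n * w / h) (2 * π * I * n / h) z := by
      have := ((hasDerivAt_id z).const_mul (2 * π * I * n : ℂ)).div_const (h : ℂ)
      simpa using this
    have hexp := hlin.cexp
    have := hexp.const_mul (coeffA h f n * cInv h n ^ (m + 1))
    refine this.congr_deriv ?_
    rw [term, pow_succ]
    have hc := cInv_mul hf.pos hn.ne'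
    calc coeffA h f n * (cInv h n ^ m * cInv h n) *
          (cexp (2 * π * I * n * z / h) * (2 * π * I * n / h))
        = coeffA h f n * cInv h n ^ m * cexp (2 * π * I * n * z / h) *
          (cInv h n * (2 * π * I * n / h)) := by ring
      _ = _ := by rw [hc, mul_one]

/-- `E h f (m+1)` is a primitive of `E h f m` on the upper half plane. -/
theorem hasDerivAt_E (hf : IsCuspidalPeriodic h f) (m : ℕ) {z : ℂ} (hz : 0 < z.im) :
    HasDerivAt (E h f (m + 1)) (E h f m z) z := by
  set δ := z.im / 2 with hδ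
  have hδpos : 0 < δ := by positivity
  set t : Set ℂ := {w | δ < w.im} with ht
  have htopen : IsOpen t := isOpen_lt continuous_const Complex.continuous_im
  have htconv : Convex ℝ t := by
    intro x hx y hy a b ha hb hab
    simp only [ht, Set.mem_ofPred_eq, Complex.add_im, Complex.smul_im, smul_eq_mul] at hx hy ⊢
    calc δ = a * δ + b * δ := by rw [← add_mul, hab, one_mul]
      _ < a * x.im + b * y.im := by
        rcases ha.eq_or_lt with rfl | ha'
        · have hb1 : b = 1 := by linarith
          subst hb1; simpa using hy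
        · have h1 : a * δ < a * x.im := mul_lt_mul_of_pos_left hx ha'
          have h2 : b * δ ≤ b * y.im := mul_le_mul_of_nonneg_left hy.le hb
          linarith
  have hzt : z ∈ t := by simp only [ht, Set.mem_ofPred_eq, hδ]; linarith
  have hu : Summable fun n => cBound h ^ m *
      (‖coeffA h f n‖ * Real.exp (-2 * π * δ / h) ^ n) :=
    (summable_norm_coeffA hf (Real.exp_pos _).le (exp_lt_one hf.pos hδpos)).mul_left _
  refine hasDerivAt_tsum_of_isPreconnected (g := fun n w => term h f (m + 1) n w)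
    (g' := fun n w => term h f m n w) hu htopen htconv.isPreconnected
    (fun n w _ => hasDerivAt_term hf m n w) (fun n w hw => ?_) hzt
    (summable_term hf (m + 1) hz) hzt
  refine (norm_term_le hf m n w).trans ?_
  have hw' : δ < w.im := hw
  have hexp : Real.exp (-2 * π * w.im / h) ≤ Real.exp (-2 * π * δ / h) := by
    rw [Real.exp_le_exp]
    have hpi : 0 < 2 * π / h := by have := hf.pos; positivity
    have e1 : -2 * π * w.im / h = -(2 * π / h) * w.im := by ring
    have e2 : -2 * π * δ / h = -(2 * π / h) * δ := by ring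
    rw [e1, e2]; nlinarith
  have : Real.exp (-2 * π * w.im / h) ^ n ≤ Real.exp (-2 * π * δ / h) ^ n :=
    pow_le_pow_left₀ (Real.exp_pos _).le hexp n
  have hc : 0 ≤ cBound h ^ m := by have := one_le_cBound h; positivity
  gcongr

/-- `E h f 0` agrees with `f` on the upper half plane. -/
theorem E_zero_apply (hf : IsCuspidalPeriodic h f) (τ : ℍ) : E h f 0 (τ : ℂ) = f τ := by
  have hs := hasSum_qExpansion hf.pos hf.per hf.hol hf.zero.isBoundedAtImInfty τ
  rw [E]
  refine HasSum.tsum_eq ?_
  convert hs using 2 with n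
  rw [term, pow_zero, mul_one, coeffA, smul_eq_mul, Periodic.qParam, ← Complex.exp_nat_mul]
  congr 2
  ring

/-- Periodicity of `E h f m`. -/
theorem E_add_period (hh : 0 < h) (m : ℕ) (z : ℂ) : E h f m (z + h) = E h f m z := by
  rw [E, E]
  congr 1
  funext n
  rw [term, term]
  congr 1
  have hne : (h : ℂ) ≠ 0 := by exact_mod_cast hh.ne'
  have : 2 * π * I * n * (z + h) / h = 2 * π * I * n * z / h + n * (2 * π * I) := by
    field_simp
  rw [this, Complex.exp_add, Complex.exp_nat_mul, Complex.exp_two_pi_mul_I, one_pow, mul_one]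

/-- Exponential decay of `E h f m`, uniformly in the real part. -/
theorem exists_norm_E_le (hf : IsCuspidalPeriodic h f) (m : ℕ) :
    ∃ K : ℝ, 0 ≤ K ∧ ∀ z : ℂ, 1 ≤ z.im → ‖E h f m z‖ ≤ K * Real.exp (-2 * π * z.im / h) := by
  have hh := hf.pos
  set r₁ := Real.exp (-2 * π * 1 / h) with hr₁
  have hr₁lt : r₁ < 1 := exp_lt_one hh one_pos
  have hr₁pos : 0 < r₁ := Real.exp_pos _
  have hsum : Summable fun n => cBound h ^ m * (‖coeffA h f (n + 1)‖ * r₁ ^ n) := by
    have h0 := summable_norm_coeffA hf hr₁pos.le hr₁lt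
    have h1 := (summable_nat_add_iff 1).mpr h0
    have h2 : Summable fun n => r₁⁻¹ * (‖coeffA h f (n + 1)‖ * r₁ ^ (n + 1)) := h1.mul_left _
    refine (h2.mul_left (cBound h ^ m)).congr fun n => ?_
    rw [pow_succ]; field_simp
  refine ⟨∑' n, cBound h ^ m * (‖coeffA h f (n + 1)‖ * r₁ ^ n),
    tsum_nonneg fun n => ?_, fun z hz => ?_⟩
  · have := one_le_cBound h; positivity
  have hzpos : 0 < z.im := by linarith
  set r := Real.exp (-2 * π * z.im / h) with hr
  have hrpos : 0 < r := Real.exp_pos _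
  have hrle : r ≤ r₁ := by
    rw [hr, hr₁, Real.exp_le_exp]
    have hpi : 0 < 2 * π / h := by positivity
    have e1 : -2 * π * z.im / h = -(2 * π / h) * z.im := by ring
    have e2 : -2 * π * 1 / h = -(2 * π / h) * 1 := by ring
    rw [e1, e2]; nlinarith
  -- split off the `n = 0` term, which vanishes
  have hterm0 : term h f m 0 z = 0 := by simp [term, coeffA_zero hf]
  have hsummable := summable_term hf m hzpos
  have hE : E h f m z = ∑' n, term h f m (n + 1) z := by
    rw [E, hsummable.tsum_eq_zero_add, hterm0, zero_add]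
  have hs1 : Summable fun n => term h f m (n + 1) z := (summable_nat_add_iff 1).mpr hsummable
  have hbound : ∀ n, ‖term h f m (n + 1) z‖ ≤
      (cBound h ^ m * (‖coeffA h f (n + 1)‖ * r₁ ^ n)) * r := by
    intro n
    refine (norm_term_le hf m (n + 1) z).trans ?_
    have : r ^ (n + 1) ≤ r₁ ^ n * r := by
      rw [pow_succ]
      have := pow_le_pow_left₀ hrpos.le hrle n
      gcongr
    have hc : 0 ≤ cBound h ^ m := by have := one_le_cBound h; positivity
    calc cBound h ^ m * (‖coeffA h f (n + 1)‖ * r ^ (n + 1))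
        ≤ cBound h ^ m * (‖coeffA h f (n + 1)‖ * (r₁ ^ n * r)) := by gcongr
      _ = _ := by ring
  rw [hE]
  calc ‖∑' n, term h f m (n + 1) z‖ ≤ ∑' n, ‖term h f m (n + 1) z‖ :=
        norm_tsum_le_tsum_norm hs1.norm
    _ ≤ ∑' n, (cBound h ^ m * (‖coeffA h f (n + 1)‖ * r₁ ^ n)) * r :=
        hs1.norm.tsum_le_tsum hbound (hsum.mul_right r)
    _ = _ := tsum_mul_right

end Fermat.Agent.S22.EichlerPrim
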