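import Mathlib

set_option autoImplicit false
open UpperHalfPlane

namespace Fermat.Agent.S22

theorem isPreconnected_upperHalfPlaneSet : IsPreconnected upperHalfPlaneSet :=
  (convex_halfSpace_im_gt 0).isPreconnected

/-- P4 : vanishing iterated derivative gives a polynomial. -/
theorem exists_poly_of_iteratedDerivWithin_eq_zero (n : ℕ) {H : ℂ → ℂ}
    (hH : DifferentiableOn ℂ H upperHalfPlaneSet)
    (h0 : ∀ z ∈ upperHalfPlaneSet, iteratedDerivWithin n H upperHalfPlaneSet z = 0) :
    ∃ c : Fin n → ℂ, ∀ z ∈ upperHalfPlaneSet, H z = ∑ j, c j * z ^ (j : ℕ) := by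
  induction n generalizing H with
  | zero =>
    refine ⟨fun _ => 0, fun z hz => ?_⟩
    simpa using h0 z hz
  | succ n ih =>
    have hopen := isOpen_upperHalfPlaneSet
    -- the derivative is holomorphic and its `n`-th derivative vanishes
    have hH' : DifferentiableOn ℂ (derivWithin H upperHalfPlaneSet) upperHalfPlaneSet := by
      refine (hH.deriv hopen).congr fun z hz => ?_
      exact derivWithin_of_isOpen hopen hz
    have h0' : ∀ z ∈ upperHalfPlaneSet,
        iteratedDerivWithin n (derivWithin H upperHalfPlaneSet) upperHalfPlaneSet z = 0 := by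
      intro z hz
      rw [← iteratedDerivWithin_succ']
      exact h0 z hz
    obtain ⟨c, hc⟩ := ih hH' h0'
    -- primitive of the polynomial
    let Q : ℂ → ℂ := fun z => ∑ j : Fin n, c j / ((j : ℕ) + 1) * z ^ ((j : ℕ) + 1)
    have hQd : ∀ z : ℂ, HasDerivAt Q (∑ j : Fin n, c j * z ^ (j : ℕ)) z := by
      intro z
      have h1 : ∀ j : Fin n, HasDerivAt (fun z : ℂ => c j / ((j : ℕ) + 1) * z ^ ((j : ℕ) + 1))
          (c j * z ^ (j : ℕ)) z := by
        intro j
        have h2 := ((hasDerivAt_pow ((j : ℕ) + 1) z).const_mul (c j / ((j : ℕ) + 1)))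
        have hne : ((j : ℕ) : ℂ) + 1 ≠ 0 := Nat.cast_add_one_ne_zero (j : ℕ)
        have h3 : c j * z ^ (j : ℕ) =
            c j / ((j : ℕ) + 1) * ((((j : ℕ) + 1 : ℕ) : ℂ) * z ^ ((j : ℕ) + 1 - 1)) := by
          rw [Nat.add_sub_cancel]
          push_cast
          field_simp
        rw [h3]
        exact h2
      have := HasDerivAt.fun_sum (u := Finset.univ) (fun j _ => h1 j)
      simpa [Q] using this
    have hQdiff : DifferentiableOn ℂ Q upperHalfPlaneSet :=
      fun z _ => (hQd z).differentiableAt.differentiableWithinAt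
    have hderiv : upperHalfPlaneSet.EqOn (deriv H) (deriv Q) := by
      intro z hz
      rw [(hQd z).deriv, ← derivWithin_of_isOpen hopen hz]
      exact hc z hz
    obtain ⟨a, ha⟩ := hopen.exists_eq_add_of_deriv_eq isPreconnected_upperHalfPlaneSet hH hQdiff
      hderiv
    refine ⟨Fin.cons a (fun j => c j / ((j : ℕ) + 1)), fun z hz => ?_⟩
    rw [ha hz, Fin.sum_univ_succ]
    simp only [Fin.cons_zero, Fin.val_zero, pow_zero, mul_one, Fin.cons_succ, Fin.val_succ, Q]
    ring

end Fermat.Agent.S22
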