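-- S22 helper (helper2): the separation step for the period lattice.
-- SEP1: two holomorphic functions on the upper half plane with equal m-th derivative and a common
--   real period differ by a constant.
-- Bol in slash form: the (n+1)-st derivative intertwines the weight -n and weight n+2 slash actions.
-- SEP2: an invariant (weight -n) holomorphic primitive of a cusp form of weight n+2 that vanishes
--   at the cusp at infinity forces the cusp form to vanish.
import Fermat.Agent.S22.Bol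
import Fermat.Agent.S22.PolyOfDerivZero
import Fermat.Prelude.Thm_ModularForm_sturm_bound_Gamma0

set_option autoImplicit false
open UpperHalfPlane
open scoped MatrixGroups ModularForm Pointwise Manifold

namespace Fermat.Agent.S22

/-- A function on the upper half plane that is given by a polynomial and is `h`-periodic
(`h ≠ 0` real) is constant. -/
theorem sep_const_of_periodic_poly {n : ℕ} (c : Fin n → ℂ) {H : ℂ → ℂ}
    (hH : ∀ z ∈ upperHalfPlaneSet, H z = ∑ j, c j * z ^ (j : ℕ))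
    {h : ℝ} (hh : h ≠ 0) (hper : ∀ z ∈ upperHalfPlaneSet, H (z + h) = H z) :
    ∀ z ∈ upperHalfPlaneSet, H z = H Complex.I := by
  classical
  set P : Polynomial ℂ := ∑ j : Fin n, Polynomial.C (c j) * Polynomial.X ^ (j : ℕ) with hP
  have hPeval : ∀ z ∈ upperHalfPlaneSet, H z = P.eval z := by
    intro z hz
    rw [hH z hz, hP, Polynomial.eval_finsetSum]
    simp
  have hmem : ∀ (z : ℂ), z ∈ upperHalfPlaneSet → ∀ m : ℕ, z + (m : ℂ) * h ∈ upperHalfPlaneSet := by
    intro z hz m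
    show 0 < (z + (m : ℂ) * h).im
    have : (z + (m : ℂ) * h).im = z.im := by simp
    rw [this]; exact hz
  have hperN : ∀ (z : ℂ), z ∈ upperHalfPlaneSet → ∀ m : ℕ, H (z + (m : ℂ) * h) = H z := by
    intro z hz m
    induction m with
    | zero => simp
    | succ m ih =>
      have := hper (z + (m : ℂ) * h) (hmem z hz m)
      rw [ih] at this
      rw [← this]
      congr 1
      push_cast
      ring
  -- for each z₀ in the upper half plane, `P - C (P.eval z₀)` has infinitely many roots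
  have hconst : ∀ z ∈ upperHalfPlaneSet, P = Polynomial.C (P.eval z) := by
    intro z hz
    have hroots : Set.Infinite {w : ℂ | (P - Polynomial.C (P.eval z)).IsRoot w} := by
      have hinj : Function.Injective (fun m : ℕ ↦ z + (m : ℂ) * h) := by
        intro a b hab
        have hh' : (h : ℂ) ≠ 0 := by exact_mod_cast hh
        have : (a : ℂ) * h = (b : ℂ) * h := add_left_cancel hab
        exact_mod_cast mul_right_cancel₀ hh' this
      refine Set.infinite_of_injective_forall_mem hinj (fun m ↦ ?_)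
      show (P - Polynomial.C (P.eval z)).IsRoot (z + (m : ℂ) * h)
      rw [Polynomial.IsRoot, Polynomial.eval_sub, Polynomial.eval_C,
        ← hPeval _ (hmem z hz m), ← hPeval z hz, hperN z hz m, sub_self]
    have := Polynomial.eq_zero_of_infinite_isRoot _ hroots
    exact sub_eq_zero.mp this
  intro z hz
  have hI : Complex.I ∈ upperHalfPlaneSet := by simp [upperHalfPlaneSet]
  rw [hPeval z hz, hPeval _ hI, hconst z hz]
  simp

/-- SEP1: if `G` and `E` are holomorphic on the upper half plane, have the same `m`-th iterated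
derivative there, and are both `h`-periodic (`h ≠ 0`), then they differ by a constant. -/
theorem sep_eq_add_const_of_iteratedDerivWithin_eq (m : ℕ) {G E : ℂ → ℂ}
    (hG : DifferentiableOn ℂ G upperHalfPlaneSet) (hE : DifferentiableOn ℂ E upperHalfPlaneSet)
    (hd : ∀ z ∈ upperHalfPlaneSet,
      iteratedDerivWithin m G upperHalfPlaneSet z = iteratedDerivWithin m E upperHalfPlaneSet z)
    {h : ℝ} (hh : h ≠ 0) (hGper : ∀ z ∈ upperHalfPlaneSet, G (z + h) = G z)
    (hEper : ∀ z ∈ upperHalfPlaneSet, E (z + h) = E z) :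
    ∃ c : ℂ, ∀ z ∈ upperHalfPlaneSet, G z = E z + c := by
  have hU := isOpen_upperHalfPlaneSet
  have hsub : DifferentiableOn ℂ (G - E) upperHalfPlaneSet := hG.sub hE
  have h0 : ∀ z ∈ upperHalfPlaneSet, iteratedDerivWithin m (G - E) upperHalfPlaneSet z = 0 := by
    intro z hz
    rw [iteratedDerivWithin_sub hz hU.uniqueDiffOn (hG.contDiffOn hU z hz)
      (hE.contDiffOn hU z hz), hd z hz, sub_self]
  obtain ⟨c, hc⟩ := exists_poly_of_iteratedDerivWithin_eq_zero m hsub h0
  have hmem : ∀ z ∈ upperHalfPlaneSet, z + (h : ℂ) ∈ upperHalfPlaneSet := by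
    intro z hz
    show 0 < (z + (h : ℂ)).im
    simpa using hz
  have hper : ∀ z ∈ upperHalfPlaneSet, (G - E) (z + h) = (G - E) z := by
    intro z hz
    simp only [Pi.sub_apply, hGper z hz, hEper z hz]
  have hconst := sep_const_of_periodic_poly c hc hh hper
  refine ⟨(G - E) Complex.I, fun z hz ↦ ?_⟩
  have := hconst z hz
  simp only [Pi.sub_apply] at this ⊢
  linear_combination this

/-- Explicit formula: for `σ ∈ SL(2,ℤ)` and `z` in the upper half plane, the weight `-n` slash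
of `F` composed with `ofComplex` is `(cz+d)^n F((az+b)/(cz+d))`. -/
theorem sep_slash_neg_comp_ofComplex (F : ℍ → ℂ) (n : ℕ) (σ : SL(2, ℤ)) {z : ℂ}
    (hz : z ∈ upperHalfPlaneSet) :
    ((F ∣[-(n : ℤ)] σ) ∘ ofComplex) z =
      ((((σ 1 0 : ℤ) : ℝ) : ℂ) * z + (((σ 1 1 : ℤ) : ℝ) : ℂ)) ^ n *
        (F ∘ ofComplex) (((((σ 0 0 : ℤ) : ℝ) : ℂ) * z + (((σ 0 1 : ℤ) : ℝ) : ℂ)) /
          ((((σ 1 0 : ℤ) : ℝ) : ℂ) * z + (((σ 1 1 : ℤ) : ℝ) : ℂ))) := by
  have hz' : 0 < z.im := hz
  have hsmul : ((σ • (⟨z, hz'⟩ : ℍ) : ℍ) : ℂ) =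
      ((((σ 0 0 : ℤ) : ℝ) : ℂ) * z + (((σ 0 1 : ℤ) : ℝ) : ℂ)) /
          ((((σ 1 0 : ℤ) : ℝ) : ℂ) * z + (((σ 1 1 : ℤ) : ℝ) : ℂ)) := by
    rw [coe_specialLinearGroup_apply]
    simp
  simp only [Function.comp_apply, ofComplex_apply_of_im_pos hz', ModularForm.SL_slash_apply]
  rw [← hsmul, ofComplex_apply, neg_neg, zpow_natCast, mul_comm]
  congr 1

theorem sep_det_cast (σ : SL(2, ℤ)) :
    (((σ 0 0 : ℤ) : ℝ)) * ((σ 1 1 : ℤ) : ℝ) - ((σ 0 1 : ℤ) : ℝ) * ((σ 1 0 : ℤ) : ℝ) = 1 := by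
  have h := σ.det_coe
  rw [Matrix.det_fin_two] at h
  have := congrArg (Int.cast : ℤ → ℝ) h
  push_cast at this
  linarith

/-- **Bol's identity in slash form**: the `(n+1)`-st derivative intertwines the weight `-n` and
the weight `n+2` slash actions of `SL(2,ℤ)`. -/
theorem sep_iteratedDerivWithin_slash (F : ℍ → ℂ)
    (hF : DifferentiableOn ℂ (F ∘ ofComplex) upperHalfPlaneSet) (n : ℕ) (σ : SL(2, ℤ)) (τ : ℍ) :
    iteratedDerivWithin (n + 1) ((F ∣[-(n : ℤ)] σ) ∘ ofComplex) upperHalfPlaneSet τ =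
      ((fun τ' : ℍ ↦ iteratedDerivWithin (n + 1) (F ∘ ofComplex) upperHalfPlaneSet τ')
        ∣[(n : ℤ) + 2] σ) τ := by
  have hτ : (τ : ℂ) ∈ upperHalfPlaneSet := τ.im_pos
  have hdet := sep_det_cast σ
  have hcongr := iteratedDerivWithin_congr (n := n + 1) (s := upperHalfPlaneSet)
    (fun z hz ↦ sep_slash_neg_comp_ofComplex F n σ hz) hτ
  rw [hcongr]
  have hbol := bol_identity ((σ 0 0 : ℤ) : ℝ) ((σ 0 1 : ℤ) : ℝ) ((σ 1 0 : ℤ) : ℝ)
    ((σ 1 1 : ℤ) : ℝ) (by rw [hdet]; exact one_pos) n hF hτ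
  rw [hbol]
  have hdetC : ((((σ 0 0 : ℤ) : ℝ) : ℂ)) * (((σ 1 1 : ℤ) : ℝ) : ℂ) -
      (((σ 0 1 : ℤ) : ℝ) : ℂ) * (((σ 1 0 : ℤ) : ℝ) : ℂ) = 1 := by
    exact_mod_cast hdet
  rw [hdetC, one_pow, one_mul, ModularForm.SL_slash_apply]
  have hsmul : ((σ • τ : ℍ) : ℂ) =
      ((((σ 0 0 : ℤ) : ℝ) : ℂ) * τ + (((σ 0 1 : ℤ) : ℝ) : ℂ)) /
          ((((σ 1 0 : ℤ) : ℝ) : ℂ) * τ + (((σ 1 1 : ℤ) : ℝ) : ℂ)) := by
    rw [coe_specialLinearGroup_apply]
    simp
  rw [← hsmul, mul_comm]
  congr 1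

/-- SEP2 (separation): a holomorphic `F` on the upper half plane which is invariant of weight
`-n` under `Γ₀(N)`, vanishes at `i∞`, and whose `(n+1)`-st derivative is a nonzero multiple of a
cusp form `f` of weight `n+2`, forces `f = 0` — provided the translates `f ∣[n+2] σ` admit
periodic bounded `(n+1)`-fold primitives. -/
theorem sep_eq_zero_of_invariant_primitive {N : ℕ} [NeZero N] (n : ℕ)
    (f : CuspForm (CongruenceSubgroup.Gamma0 N) ((n : ℤ) + 2)) (F : ℍ → ℂ)
    (hFhol : DifferentiableOn ℂ (F ∘ ofComplex) upperHalfPlaneSet)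
    {c : ℂ} (hc : c ≠ 0)
    (hFderiv : ∀ τ : ℍ,
      iteratedDerivWithin (n + 1) (F ∘ ofComplex) upperHalfPlaneSet τ = c * f τ)
    (hFinv : ∀ γ ∈ CongruenceSubgroup.Gamma0 N, F ∣[-(n : ℤ)] γ = F)
    (hFzero : IsZeroAtImInfty F)
    (hprim : ∀ σ : SL(2, ℤ), ∃ (h : ℝ) (E : ℂ → ℂ), 0 < h ∧
        h ∈ (ConjAct.toConjAct (Matrix.SpecialLinearGroup.mapGL ℝ σ)⁻¹ •
          (CongruenceSubgroup.Gamma0 N : Subgroup (GL (Fin 2) ℝ))).strictPeriods ∧
        DifferentiableOn ℂ E upperHalfPlaneSet ∧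
        (∀ z ∈ upperHalfPlaneSet, E (z + h) = E z) ∧
        (∀ τ : ℍ, iteratedDerivWithin (n + 1) E upperHalfPlaneSet τ = (⇑f ∣[(n : ℤ) + 2] σ) τ) ∧
        IsBoundedAtImInfty (fun τ : ℍ ↦ E τ)) :
    f = 0 := by
  classical
  -- the slash invariant form attached to `F`
  let Fsif : SlashInvariantForm (CongruenceSubgroup.Gamma0 N : Subgroup (GL (Fin 2) ℝ))
      (-(n : ℤ)) :=
    { toFun := F
      slash_action_eq' := by
        rintro _ ⟨γ, hγ, rfl⟩
        exact hFinv γ hγ }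
  have hFmd : MDiff F := UpperHalfPlane.mdifferentiable_iff.mpr hFhol
  -- boundedness of every translate at `i∞`
  have hbdd : ∀ σ : SL(2, ℤ), IsBoundedAtImInfty (F ∣[-(n : ℤ)] σ) := by
    intro σ
    obtain ⟨h, E, hh, hper, hEhol, hEper, hEderiv, hEbdd⟩ := hprim σ
    set G : ℂ → ℂ := (F ∣[-(n : ℤ)] σ) ∘ ofComplex with hG
    have hGhol : DifferentiableOn ℂ G upperHalfPlaneSet := by
      have h1 : MDiff (F ∣[-(n : ℤ)] σ) := hFmd.slash _ _
      exact UpperHalfPlane.mdifferentiable_iff.mp h1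
    have hGper : ∀ z ∈ upperHalfPlaneSet, G (z + h) = G z := by
      intro z _
      have := SlashInvariantFormClass.periodic_comp_ofComplex
        (SlashInvariantForm.translate Fsif (Matrix.SpecialLinearGroup.mapGL ℝ σ)) hper z
      exact this
    have hcE : DifferentiableOn ℂ (fun z ↦ c * E z) upperHalfPlaneSet := hEhol.const_mul c
    have hd : ∀ z ∈ upperHalfPlaneSet,
        iteratedDerivWithin (n + 1) G upperHalfPlaneSet z =
          iteratedDerivWithin (n + 1) (fun z ↦ c * E z) upperHalfPlaneSet z := by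
      intro z hz
      have h1 := sep_iteratedDerivWithin_slash F hFhol n σ ⟨z, hz⟩
      have h2 := hEderiv ⟨z, hz⟩
      rw [h1]
      rw [iteratedDerivWithin_const_mul hz isOpen_upperHalfPlaneSet.uniqueDiffOn c
        (hEhol.contDiffOn isOpen_upperHalfPlaneSet z hz), h2]
      simp only [ModularForm.SL_slash_apply, hFderiv]
      ring
    obtain ⟨c', hc'⟩ := sep_eq_add_const_of_iteratedDerivWithin_eq (n + 1) hGhol hcE hd hh.ne'
      hGper (fun z hz ↦ by simp only [hEper z hz])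
    -- G = c E + c' is bounded
    have hEq : (F ∣[-(n : ℤ)] σ) = fun τ : ℍ ↦ c * E τ + c' := by
      funext τ
      have := hc' τ τ.im_pos
      simpa [hG] using this
    rw [hEq]
    exact (hEbdd.const_mul_left c).add (Filter.const_boundedAtFilter _ c')
  -- the modular form of weight `-n` attached to `F`
  let Fmf : ModularForm (CongruenceSubgroup.Gamma0 N : Subgroup (GL (Fin 2) ℝ)) (-(n : ℤ)) :=
    { toSlashInvariantForm := Fsif
      holo' := hFmd
      bdd_at_cusps' := by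
        intro c hc
        rw [Subgroup.IsArithmetic.isCusp_iff_isCusp_SL2Z] at hc
        rw [OnePoint.isBoundedAt_iff_forall_SL2Z hc]
        intro σ _
        exact hbdd σ }
  have hFmf0 : Fmf = 0 := by
    apply ModularForm.sturm_bound_Gamma0 N
    intro j hj
    have h0 : (-(n : ℤ) * ((CongruenceSubgroup.Gamma0 N).index : ℤ)).toNat / 12 = 0 := by
      have : (-(n : ℤ) * ((CongruenceSubgroup.Gamma0 N).index : ℤ)) ≤ 0 := by
        have h1 : (0 : ℤ) ≤ (n : ℤ) := Int.natCast_nonneg n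
        have h2 : (0 : ℤ) ≤ ((CongruenceSubgroup.Gamma0 N).index : ℤ) := Int.natCast_nonneg _
        nlinarith
      rw [Int.toNat_of_nonpos this]
    rw [h0] at hj
    obtain rfl : j = 0 := by omega
    show (PowerSeries.coeff 0) (qExpansion 1 F) = 0
    simp [qExpansion_coeff, hFzero.cuspFunction_apply_zero one_pos]
  have hF0 : ∀ τ : ℍ, F τ = 0 := fun τ ↦ by
    have h := congrArg (fun g : ModularForm _ _ ↦ g τ) hFmf0
    have h' : Fmf τ = 0 := by simpa using h
    exact h'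
  -- hence `f = 0`
  ext τ
  have h1 := hFderiv τ
  have h2 : F ∘ ofComplex = fun _ ↦ (0 : ℂ) := by
    funext z
    simp [hF0]
  rw [h2] at h1
  have h3 : iteratedDerivWithin (n + 1) (fun _ : ℂ ↦ (0 : ℂ)) upperHalfPlaneSet τ = 0 := by
    simp
  rw [h3] at h1
  have := mul_eq_zero.mp h1.symm
  simpa [hc] using this

end Fermat.Agent.S22
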