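-- S22 helper (helper2): the separation step, with the primitives supplied by the q-series
-- Eichler primitives `EichlerPrim.E` (helper16).
import Fermat.Agent.S22.Separation
import Fermat.Agent.S22.EichlerPrim
import Fermat.Agent.S22.PeriodPoly
import Fermat.Prelude.Thm_Subgroup_IsArithmetic_exists_nat_mem_strictPeriods_conj
import Fermat.Prelude.Thm_CongruenceSubgroup_one_mem_strictPeriods_Gamma0

set_option autoImplicit false
open UpperHalfPlane
open scoped MatrixGroups ModularForm Pointwise Manifold Real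

namespace Fermat.Agent.S22

open EichlerPrim

/-- Iterated derivatives of the Eichler primitives: `D^j E_m = E_{m-j}`. -/
theorem sepE_iteratedDerivWithin_E {h : ℝ} {f : ℍ → ℂ} (hf : IsCuspidalPeriodic h f) (m : ℕ) :
    ∀ j : ℕ, j ≤ m → ∀ z ∈ upperHalfPlaneSet,
      iteratedDerivWithin j (E h f m) upperHalfPlaneSet z = E h f (m - j) z := by
  intro j
  induction j with
  | zero => intro _ z _; simp
  | succ j ih =>
    intro hj z hz
    have hU := isOpen_upperHalfPlaneSet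
    rw [iteratedDerivWithin_succ]
    have hcongr : derivWithin (iteratedDerivWithin j (E h f m) upperHalfPlaneSet)
        upperHalfPlaneSet z = derivWithin (E h f (m - j)) upperHalfPlaneSet z :=
      derivWithin_congr (fun w hw ↦ ih (by omega) w hw) (ih (by omega) z hz)
    rw [hcongr, derivWithin_of_isOpen hU hz]
    have e : m - j = (m - (j + 1)) + 1 := by omega
    rw [e]
    exact (hasDerivAt_E hf (m - (j + 1)) hz).deriv

theorem sepE_differentiableOn_E {h : ℝ} {f : ℍ → ℂ} (hf : IsCuspidalPeriodic h f) (m : ℕ) :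
    DifferentiableOn ℂ (E h f (m + 1)) upperHalfPlaneSet := fun _ hz ↦
  (hasDerivAt_E hf m hz).differentiableAt.differentiableWithinAt

theorem sepE_isZeroAtImInfty_E {h : ℝ} {f : ℍ → ℂ} (hf : IsCuspidalPeriodic h f) (m : ℕ) :
    IsZeroAtImInfty (fun τ : ℍ ↦ E h f m τ) := by
  obtain ⟨K, hK0, hK⟩ := exists_norm_E_le hf m
  rw [UpperHalfPlane.isZeroAtImInfty_iff]
  intro ε hε
  -- choose A with K * exp(-2π A / h) ≤ ε
  have hh := hf.pos
  have hlim : Filter.Tendsto (fun y : ℝ ↦ K * Real.exp (-2 * π * y / h)) Filter.atTop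
      (nhds (K * 0)) := by
    refine Filter.Tendsto.const_mul K ?_
    have h1 : Filter.Tendsto (fun y : ℝ ↦ (2 * π / h) * y) Filter.atTop Filter.atTop :=
      Filter.Tendsto.const_mul_atTop (by positivity) Filter.tendsto_id
    have h2 := Real.tendsto_exp_neg_atTop_nhds_zero.comp h1
    refine h2.congr fun y ↦ ?_
    simp only [Function.comp_apply]
    congr 1
    ring
  rw [mul_zero] at hlim
  obtain ⟨A, hA⟩ := (Filter.eventually_atTop.mp (hlim.eventually (Iio_mem_nhds hε)))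
  refine ⟨max A 1, fun τ hτ ↦ ?_⟩
  have h1 : (1 : ℝ) ≤ (τ : ℂ).im := le_trans (le_max_right _ _) hτ
  have h2 : A ≤ (τ : ℂ).im := le_trans (le_max_left _ _) hτ
  exact (hK τ h1).trans (le_of_lt (hA _ h2))

/-- A cusp form for `Γ₀(N)` is cuspidal-periodic with period `1`. -/
theorem sepE_isCuspidalPeriodic {N : ℕ} [NeZero N] {k : ℤ}
    (f : CuspForm (CongruenceSubgroup.Gamma0 N) k) : IsCuspidalPeriodic 1 ⇑f := by
  have hΓ := CongruenceSubgroup.one_mem_strictPeriods_Gamma0 N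
  have : Fact (IsCusp OnePoint.infty
      (CongruenceSubgroup.Gamma0 N : Subgroup (GL (Fin 2) ℝ))) :=
    ⟨Subgroup.isCusp_of_mem_strictPeriods one_pos hΓ⟩
  exact ⟨one_pos, SlashInvariantFormClass.periodic_comp_ofComplex f hΓ, CuspFormClass.holo f,
    CuspFormClass.zero_at_infty f⟩

/-- The `SL(2,ℤ)`-translates of a cusp form for `Γ₀(N)` are cuspidal-periodic, with a period in
the strict periods of the conjugate group. -/
theorem sepE_exists_isCuspidalPeriodic_translate {N : ℕ} [NeZero N] {k : ℤ}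
    (f : CuspForm (CongruenceSubgroup.Gamma0 N) k) (σ : SL(2, ℤ)) :
    ∃ h : ℝ, h ∈ (ConjAct.toConjAct (Matrix.SpecialLinearGroup.mapGL ℝ σ)⁻¹ •
        (CongruenceSubgroup.Gamma0 N : Subgroup (GL (Fin 2) ℝ))).strictPeriods ∧
      IsCuspidalPeriodic h (⇑f ∣[k] σ) := by
  obtain ⟨M, hM0, hM⟩ := Subgroup.IsArithmetic.exists_nat_mem_strictPeriods_conj
    (CongruenceSubgroup.Gamma0 N : Subgroup (GL (Fin 2) ℝ))
  have hmem := hM σ⁻¹
  rw [map_inv] at hmem
  have hMpos : (0 : ℝ) < M := by exact_mod_cast hM0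
  refine ⟨M, hmem, ?_⟩
  set g := CuspForm.translate f (Matrix.SpecialLinearGroup.mapGL ℝ σ) with hg
  have : Fact (IsCusp OnePoint.infty
      (ConjAct.toConjAct (Matrix.SpecialLinearGroup.mapGL ℝ σ)⁻¹ •
        (CongruenceSubgroup.Gamma0 N : Subgroup (GL (Fin 2) ℝ)))) :=
    ⟨Subgroup.isCusp_of_mem_strictPeriods hMpos hmem⟩
  exact ⟨hMpos, SlashInvariantFormClass.periodic_comp_ofComplex g hmem, CuspFormClass.holo g,
    CuspFormClass.zero_at_infty g⟩

/-- **Separation, final form**: if the `(n+1)`-st Eichler primitive of a cusp form `f` of weight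
`n+2` on `Γ₀(N)` is invariant of weight `-n` under `Γ₀(N)`, then `f = 0`. -/
theorem sepE_eq_zero_of_invariant {N : ℕ} [NeZero N] (n : ℕ)
    (f : CuspForm (CongruenceSubgroup.Gamma0 N) ((n : ℤ) + 2))
    (hinv : ∀ γ ∈ CongruenceSubgroup.Gamma0 N,
      (fun τ : ℍ ↦ E 1 ⇑f (n + 1) τ) ∣[-(n : ℤ)] γ = fun τ : ℍ ↦ E 1 ⇑f (n + 1) τ) :
    f = 0 := by
  have hf := sepE_isCuspidalPeriodic f
  set F : ℍ → ℂ := fun τ : ℍ ↦ E 1 ⇑f (n + 1) τ with hF
  have hEq : ∀ z ∈ upperHalfPlaneSet, (F ∘ ofComplex) z = E 1 ⇑f (n + 1) z := by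
    intro z hz
    have hz' : 0 < z.im := hz
    simp [hF, Function.comp_apply, ofComplex_apply_of_im_pos hz']
  have hFhol : DifferentiableOn ℂ (F ∘ ofComplex) upperHalfPlaneSet :=
    (sepE_differentiableOn_E hf n).congr hEq
  refine sep_eq_zero_of_invariant_primitive n f F hFhol one_ne_zero ?_ hinv
    (sepE_isZeroAtImInfty_E hf (n + 1)) ?_
  · intro τ
    rw [iteratedDerivWithin_congr hEq τ.im_pos,
      sepE_iteratedDerivWithin_E hf (n + 1) (n + 1) le_rfl τ τ.im_pos, Nat.sub_self,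
      E_zero_apply hf, one_mul]
  · intro σ
    obtain ⟨h, hmem, hg⟩ := sepE_exists_isCuspidalPeriodic_translate f σ
    refine ⟨h, E h (⇑f ∣[(n : ℤ) + 2] σ) (n + 1), hg.pos, hmem, sepE_differentiableOn_E hg n,
      fun z _ ↦ E_add_period hg.pos (n + 1) z, fun τ ↦ ?_,
      (sepE_isZeroAtImInfty_E hg (n + 1)).isBoundedAtImInfty⟩
    rw [sepE_iteratedDerivWithin_E hg (n + 1) (n + 1) le_rfl τ τ.im_pos, Nat.sub_self,
      E_zero_apply hg]

/-- Separation in the shape of the assembly interface: general weight `k = m + 2`, slash weight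
`2 - k`. -/
theorem sepE_eq_zero_of_invariant_weight {N : ℕ} [NeZero N] (k : ℤ) (m : ℕ) (hm : k = m + 2)
    (f : CuspForm (CongruenceSubgroup.Gamma0 N) k)
    (hinv : ∀ γ ∈ CongruenceSubgroup.Gamma0 N,
      (fun τ : ℍ ↦ E 1 ⇑f (m + 1) τ) ∣[2 - k] γ = fun τ : ℍ ↦ E 1 ⇑f (m + 1) τ) :
    f = 0 := by
  subst hm
  have e : (2 : ℤ) - ((m : ℤ) + 2) = -(m : ℤ) := by ring
  refine sepE_eq_zero_of_invariant m f fun γ hγ ↦ ?_
  have := hinv γ hγ
  rwa [e] at this

/-- The same, stated with the top Eichler integral `EI 1 f m`. -/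
theorem sepE_eq_zero_of_invariant_EI {N : ℕ} [NeZero N] (k : ℤ) (m : ℕ) (hm : k = m + 2)
    (f : CuspForm (CongruenceSubgroup.Gamma0 N) k)
    (hinv : ∀ γ ∈ CongruenceSubgroup.Gamma0 N, EI 1 ⇑f m ∣[2 - k] γ = EI 1 ⇑f m) :
    f = 0 :=
  sepE_eq_zero_of_invariant_weight k m hm f hinv

end Fermat.Agent.S22
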