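import Fermat.Agent.S22.H22EichlerMap
import Fermat.Agent.S22.PeriodPoly
import Fermat.Agent.S22.SeparationE

/-!
# Period polynomials of the Eichler map along `Γ₀(N)` (the `hpoly` input of the assembly)
-/

set_option autoImplicit false

namespace Fermat.Agent.S22

open Complex Filter Topology Function
open UpperHalfPlane hiding I
open scoped Real Manifold MatrixGroups ModularForm
open EichlerPrim ModularFormClass CongruenceSubgroup

noncomputable section

variable {N : ℕ} {k : ℤ}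

theorem eichlerFun_succ_eq_EI (f : ℍ → ℂ) (m : ℕ) : eichlerFun f (m + 1) = EI 1 f m := rfl

/-- the slash-defect of the Eichler map along `Γ₀(N)` is a polynomial of degree `≤ m`. -/
theorem eichlerMap_hpoly (m : ℕ) (hk : k = (m : ℤ) + 2) (f : CuspForm (Gamma0 N) k)
    (g : SL(2, ℤ)) (hg : g ∈ Gamma0 N) :
    ∃ P : Polynomial ℂ, P.natDegree ≤ m ∧ ∀ z : ℍ,
      (eichlerMap N k (m + 1) f ∣[2 - k] g) z - eichlerMap N k (m + 1) f z = P.eval (z : ℂ) := by
  subst hk
  have hcf := isCuspidalPeriodic_cuspForm f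
  have hdet : (Matrix.SpecialLinearGroup.mapGL ℝ g : GL (Fin 2) ℝ).det.val = 1 := by
    simp
  have hslash : (⇑f) ∣[(m : ℤ) + 2] (Matrix.SpecialLinearGroup.mapGL ℝ g : GL (Fin 2) ℝ) = ⇑f :=
    SlashInvariantFormClass.slash_action_eq f _ (Subgroup.mem_map_of_mem _ hg)
  obtain ⟨P, hP, hPe⟩ := slash_EI hcf hcf m (Matrix.SpecialLinearGroup.mapGL ℝ g)
    (by rw [hdet]; exact one_pos) hslash
  refine ⟨P, hP, fun z => ?_⟩
  have e := hPe z
  rw [hdet, Complex.ofReal_one, one_pow, one_mul] at e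
  have hw : (2 : ℤ) - ((m : ℤ) + 2) = -(m : ℤ) := by ring
  rw [eichlerMap_apply, eichlerFun_succ_eq_EI, hw]
  rw [show (EI 1 (⇑f) m ∣[-(m : ℤ)] g) = (EI 1 (⇑f) m ∣[-(m : ℤ)]
    (Matrix.SpecialLinearGroup.mapGL ℝ g : GL (Fin 2) ℝ)) from rfl, e]
  ring

/-- separation for the Eichler map (wrapper around `sepE_eq_zero_of_invariant_weight`). -/
theorem eichlerMap_hsep [NeZero N] (m : ℕ) (hk : k = (m : ℤ) + 2) (f : CuspForm (Gamma0 N) k)
    (hinv : ∀ g : SL(2, ℤ), g ∈ Gamma0 N →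
      eichlerMap N k (m + 1) f ∣[2 - k] g = eichlerMap N k (m + 1) f) : f = 0 :=
  sepE_eq_zero_of_invariant_weight k m hk f hinv

end

end Fermat.Agent.S22
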