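import Mathlib

set_option autoImplicit false

open Polynomial

namespace Fermat.Agent.S22

/-- The integer polynomial `(aX+b)^j (cX+d)^(m-j)`. -/
noncomputable def basisPolyZ (m : ℕ) (a b c d : ℤ) (j : ℕ) : Polynomial ℤ :=
  (C a * X + C b) ^ j * (C c * X + C d) ^ (m - j)

/-- The weight `-m` substitution action of the integer matrix `[a b; c d]` on complex polynomials
of degree at most `m`:  `P ↦ (cX+d)^m P((aX+b)/(cX+d))`, defined through coefficients. -/
noncomputable def polyAct (m : ℕ) (a b c d : ℤ) (P : Polynomial ℂ) : Polynomial ℂ :=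
  ∑ j ∈ Finset.range (m + 1),
    C (P.coeff j) * (basisPolyZ m a b c d j).map (Int.castRingHom ℂ)

theorem polyAct_add (m : ℕ) (a b c d : ℤ) (P Q : Polynomial ℂ) :
    polyAct m a b c d (P + Q) = polyAct m a b c d P + polyAct m a b c d Q := by
  simp only [polyAct, coeff_add, C_add, add_mul, Finset.sum_add_distrib]

theorem polyAct_smul (m : ℕ) (a b c d : ℤ) (t : ℂ) (P : Polynomial ℂ) :
    polyAct m a b c d (t • P) = t • polyAct m a b c d P := by
  simp only [polyAct, coeff_smul, smul_eq_mul, C_mul, Finset.smul_sum, mul_assoc]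
  refine Finset.sum_congr rfl fun j _ => ?_
  rw [smul_eq_C_mul]

/-- `polyAct` as a linear map. -/
noncomputable def polyActₗ (m : ℕ) (a b c d : ℤ) : Polynomial ℂ →ₗ[ℂ] Polynomial ℂ where
  toFun := polyAct m a b c d
  map_add' := polyAct_add m a b c d
  map_smul' := polyAct_smul m a b c d

@[simp] theorem polyActₗ_apply (m : ℕ) (a b c d : ℤ) (P : Polynomial ℂ) :
    polyActₗ m a b c d P = polyAct m a b c d P := rfl

/-- Coefficients of `polyAct` are integer combinations of the coefficients of `P`. -/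
theorem coeff_polyAct (m : ℕ) (a b c d : ℤ) (P : Polynomial ℂ) (i : ℕ) :
    (polyAct m a b c d P).coeff i =
      ∑ j ∈ Finset.range (m + 1), ((basisPolyZ m a b c d j).coeff i) • P.coeff j := by
  simp only [polyAct, finsetSum_coeff, coeff_C_mul, coeff_map, eq_intCast, zsmul_eq_mul]
  refine Finset.sum_congr rfl fun j _ => ?_
  ring

/-- Evaluation of `polyAct`. -/
theorem eval_polyAct (m : ℕ) (a b c d : ℤ) (P : Polynomial ℂ) (z : ℂ) :
    (polyAct m a b c d P).eval z =
      ∑ j ∈ Finset.range (m + 1),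
        P.coeff j * (((a : ℂ) * z + b) ^ j * ((c : ℂ) * z + d) ^ (m - j)) := by
  simp only [polyAct, basisPolyZ, eval_finsetSum, eval_mul, eval_C, eval_map, eval₂_mul,
    eval₂_pow, eval₂_add, eval₂_C, eval₂_X]
  simp only [eq_intCast]

/-- Evaluation of `polyAct` on a polynomial of degree at most `m`, away from the pole. -/
theorem eval_polyAct_of_natDegree_le (m : ℕ) (a b c d : ℤ) {P : Polynomial ℂ}
    (hP : P.natDegree ≤ m) (z : ℂ) (hz : (c : ℂ) * z + d ≠ 0) :
    (polyAct m a b c d P).eval z =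
      ((c : ℂ) * z + d) ^ m * P.eval (((a : ℂ) * z + b) / ((c : ℂ) * z + d)) := by
  rw [eval_polyAct, eval_eq_sum_range' (Nat.lt_succ_of_le hP), Finset.mul_sum]
  refine Finset.sum_congr rfl fun j hj => ?_
  have hj' : j ≤ m := Nat.lt_succ_iff.mp (Finset.mem_range.mp hj)
  rw [div_pow]
  have : ((c : ℂ) * z + d) ^ m = ((c : ℂ) * z + d) ^ j * ((c : ℂ) * z + d) ^ (m - j) := by
    rw [← pow_add, Nat.add_sub_cancel' hj']
  rw [this, div_eq_mul_inv]
  have hne : ((c : ℂ) * z + d) ^ j ≠ 0 := pow_ne_zero _ hz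
  have h1 : ((c : ℂ) * z + d) ^ j * (((c : ℂ) * z + d) ^ j)⁻¹ = 1 := mul_inv_cancel₀ hne
  linear_combination (-(P.coeff j * ((a : ℂ) * z + b) ^ j * ((c : ℂ) * z + d) ^ (m - j))) * h1

/-- The upper triangular special case `c = 0`, `d ≠ 0`. -/
theorem eval_polyAct_upper (m : ℕ) (a b d : ℤ) (hd : d ≠ 0) {P : Polynomial ℂ}
    (hP : P.natDegree ≤ m) (z : ℂ) :
    (polyAct m a b 0 d P).eval z = (d : ℂ) ^ m * P.eval (((a : ℂ) * z + b) / d) := by
  have h := eval_polyAct_of_natDegree_le m a b 0 d hP z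
    (by simpa using (Int.cast_ne_zero.mpr hd : (d : ℂ) ≠ 0))
  simpa using h

end Fermat.Agent.S22
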