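/-
S22, piece HSU (helper15): Hecke stability of the period lattice under `U_q`, `q ∣ N`.

For `g ∈ Γ₀(N)` and `q ∣ N` the prelude gives `α_x * g = g'_x * α_{π x}` with `g'_x ∈ Γ₀(N)`,
`α_x = heckeMatrix q x`, `π` a permutation of `ZMod q`.  Hence, for every `F : ℍ → ℂ` and weight `κ`,

  `(U_q F) ∣[κ] g - U_q F = ∑ x, (F ∣[κ] g'_x - F) ∣[κ] α_{π x}`.

If the defects `F ∣[-m] g'_x - F` are polynomials `P_x` of degree `≤ m`, the defect of
`q^(m+1) • U_q F` along `g` is the polynomial `∑ x, polyAct m 1 (π x).val 0 q (P_x)`, an *integral*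
substitution of the `P_x`.  The data `g'`, `π` only depend on `g`, not on `F`.
-/
import Mathlib
import Fermat.Prelude.Def_CuspForm_HeckeAlgebra
import Fermat.Prelude.Sol.S_ModularForm_heckeT_slash_eq_self_of_mem_Gamma0
import Fermat.Agent.S22.PolyAct

set_option autoImplicit false

open UpperHalfPlane Polynomial Matrix.SpecialLinearGroup CongruenceSubgroup
open scoped MatrixGroups ModularForm

namespace Fermat.Agent.S22

open P2MW.S_ModularForm_heckeT_slash_eq_self_of_mem_Gamma0.ModularForm.HeckeSlashInvariance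

/-- Coset combinatorics for `U_q` (`q ∣ N`): for `g ∈ Γ₀(N)` there are `g'_x ∈ Γ₀(N)` and a
permutation `π` of `ZMod q` with `α_x * g = g'_x * α_{π x}`. -/
theorem heckeU_coset_data {q N : ℕ} [NeZero q] (hqN : q ∣ N) (g : SL(2, ℤ))
    (hg : g ∈ Gamma0 N) :
    ∃ (g' : ZMod q → SL(2, ℤ)) (π : Equiv.Perm (ZMod q)), (∀ x, g' x ∈ Gamma0 N) ∧
      ∀ x : ZMod q, ModularForm.heckeMatrix q x.val * mapGL ℝ g =
        mapGL ℝ (g' x) * ModularForm.heckeMatrix q (π x).val := by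
  have hcN : (N : ℤ) ∣ g 1 0 :=
    (ZMod.intCast_zmod_eq_zero_iff_dvd _ _).mp (Gamma0_mem.mp hg)
  have hc : (q : ℤ) ∣ g 1 0 := (Int.natCast_dvd_natCast.mpr hqN).trans hcN
  choose g' hg'1 hg'2 using fun x : ZMod q => heckeMatrix_mul_of_dvd g hc x
  refine ⟨g', affinePerm g ((ZMod.intCast_zmod_eq_zero_iff_dvd _ _).mpr hc), fun x => ?_, hg'2⟩
  rw [Gamma0_mem, hg'1]
  push_cast
  rw [Gamma0_mem.mp hg, mul_zero]

/-- The defect of `U_q F` along `g` is the sum of the `α_{π x}`-translates of the defects of `F`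
along the `g'_x`. -/
theorem heckeU_slash_sub_eq_sum (κ : ℤ) {q : ℕ} [NeZero q] (F : ℍ → ℂ) (g : SL(2, ℤ))
    (g' : ZMod q → SL(2, ℤ)) (π : Equiv.Perm (ZMod q))
    (h : ∀ x : ZMod q, ModularForm.heckeMatrix q x.val * mapGL ℝ g =
        mapGL ℝ (g' x) * ModularForm.heckeMatrix q (π x).val) :
    ModularForm.heckeU κ q F ∣[κ] g - ModularForm.heckeU κ q F =
      ∑ x : ZMod q, (F ∣[κ] g' x - F) ∣[κ] ModularForm.heckeMatrix q (π x).val := by
  have h1 : ModularForm.heckeU κ q F ∣[κ] g =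
      ∑ x : ZMod q, (F ∣[κ] g' x) ∣[κ] ModularForm.heckeMatrix q (π x).val := by
    change ModularForm.heckeU κ q F ∣[κ] (mapGL ℝ g) = _
    rw [heckeU_eq_sum_zmod κ F, SlashAction.sum_slash]
    refine Finset.sum_congr rfl fun x _ => ?_
    rw [← SlashAction.slash_mul, h x, SlashAction.slash_mul]
    rfl
  have h2 : ModularForm.heckeU κ q F =
      ∑ x : ZMod q, F ∣[κ] ModularForm.heckeMatrix q (π x).val := by
    rw [heckeU_eq_sum_zmod κ F]
    exact (Equiv.sum_comp π (fun x => F ∣[κ] ModularForm.heckeMatrix q x.val)).symm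
  rw [h1]
  conv_lhs => rw [h2]
  rw [← Finset.sum_sub_distrib]
  refine Finset.sum_congr rfl fun x _ => ?_
  rw [sub_eq_add_neg, sub_eq_add_neg, SlashAction.add_slash, SlashAction.neg_slash]

/-- The `heckeMatrix` translate of a polynomial function (weight `-m`), rescaled by `q^(m+1)`, is
the integral substitution `polyAct m 1 j 0 q`. -/
theorem slash_heckeMatrix_poly (m : ℕ) {q : ℕ} (hq : q ≠ 0) (j : ℕ) (G : ℍ → ℂ) (P : ℂ[X])
    (hP : P.natDegree ≤ m) (hG : ∀ z : ℍ, G z = P.eval (z : ℂ)) (z : ℍ) :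
    (q : ℂ) ^ (m + 1) * (G ∣[-(m : ℤ)] ModularForm.heckeMatrix q j) z =
      (polyAct m 1 j 0 q P).eval (z : ℂ) := by
  have hq' : (q : ℂ) ≠ 0 := by exact_mod_cast hq
  have hqz : (q : ℤ) ≠ 0 := by exact_mod_cast hq
  rw [ModularForm.slash_heckeMatrix_apply _ hq, hG, ModularForm.coe_heckeMatrix_smul hq,
    eval_polyAct_upper m 1 j q hqz hP]
  push_cast
  rw [one_mul, pow_succ]
  field_simp

/-- Function level: if the weight `-m` defects of `F` along the `g'_x` are the polynomials `P_x`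
(degree `≤ m`), the defect of `q^(m+1) • U_q F` along `g` is `∑ x, polyAct m 1 (π x) 0 q (P_x)`. -/
theorem heckeU_defect_eval (m : ℕ) {q : ℕ} [NeZero q] (F : ℍ → ℂ) (g : SL(2, ℤ))
    (g' : ZMod q → SL(2, ℤ)) (π : Equiv.Perm (ZMod q))
    (h : ∀ x : ZMod q, ModularForm.heckeMatrix q x.val * mapGL ℝ g =
        mapGL ℝ (g' x) * ModularForm.heckeMatrix q (π x).val)
    (P : ZMod q → ℂ[X]) (hP : ∀ x, (P x).natDegree ≤ m)
    (hPe : ∀ x (z : ℍ), (F ∣[-(m : ℤ)] g' x) z - F z = (P x).eval (z : ℂ)) (z : ℍ) :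
    (q : ℂ) ^ (m + 1) * ((ModularForm.heckeU (-(m : ℤ)) q F ∣[-(m : ℤ)] g) z -
        ModularForm.heckeU (-(m : ℤ)) q F z) =
      (∑ x : ZMod q, polyAct m 1 (π x).val 0 q (P x)).eval (z : ℂ) := by
  have h1 := congrFun (heckeU_slash_sub_eq_sum (-(m : ℤ)) F g g' π h) z
  rw [Pi.sub_apply] at h1
  rw [h1, Finset.sum_apply, Finset.mul_sum, eval_finsetSum]
  refine Finset.sum_congr rfl fun x _ => ?_
  exact slash_heckeMatrix_poly m (NeZero.ne q) (π x).val _ (P x) (hP x)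
    (fun w => by rw [Pi.sub_apply]; exact hPe x w) z

/-- **Hecke stability of period polynomials under `U_q`**, in the shape of the ASM interface:
`E` is the Eichler map, `hU` its compatibility with `U_q`.  The coset data `g'`, `π` only depend
on `g`.  For any polynomials `P_x` of degree `≤ m` representing the defects of `E f` along `g'_x`,
the defect of `E (U_q f)` along `g` is represented by `∑ x, polyAct m 1 (π x).val 0 q (P_x)`. -/
theorem eichler_heckeU_period {N : ℕ} [NeZero N] (k : ℤ) (m : ℕ) (hm : k = (m : ℤ) + 2)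
    (E : CuspForm (Gamma0 N) k →ₗ[ℂ] (ℍ → ℂ)) {q : ℕ} [NeZero q] (hqN : q ∣ N)
    (hU : ∀ f : CuspForm (Gamma0 N) k, E (CuspForm.heckeULin k hqN f) =
      ((q : ℂ) ^ (k - 1)) • ModularForm.heckeU (2 - k) q (E f))
    (g : SL(2, ℤ)) (hg : g ∈ Gamma0 N) :
    ∃ (g' : ZMod q → SL(2, ℤ)) (π : Equiv.Perm (ZMod q)), (∀ x, g' x ∈ Gamma0 N) ∧
      ∀ (f : CuspForm (Gamma0 N) k) (P : ZMod q → ℂ[X]), (∀ x, (P x).natDegree ≤ m) →
        (∀ x (z : ℍ), (E f ∣[2 - k] g' x) z - E f z = (P x).eval (z : ℂ)) →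
        ∀ z : ℍ, (E (CuspForm.heckeULin k hqN f) ∣[2 - k] g) z -
            E (CuspForm.heckeULin k hqN f) z =
          (∑ x : ZMod q, polyAct m 1 (π x).val 0 q (P x)).eval (z : ℂ) := by
  obtain ⟨g', π, hg', h⟩ := heckeU_coset_data hqN g hg
  refine ⟨g', π, hg', fun f P hP hPe z => ?_⟩
  have hk2 : 2 - k = -(m : ℤ) := by rw [hm]; ring
  have hk1 : k - 1 = ((m + 1 : ℕ) : ℤ) := by rw [hm]; push_cast; ring
  rw [hk2] at hPe ⊢
  rw [hU f, hk2, hk1, zpow_natCast, ModularForm.SL_smul_slash, Pi.smul_apply, Pi.smul_apply,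
    smul_eq_mul, smul_eq_mul, ← mul_sub]
  exact heckeU_defect_eval m (E f) g g' π h P hP hPe z

end Fermat.Agent.S22
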