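/-
S22, piece HST (helper15): Hecke stability of the period lattice under `T_p`, `p ∤ N`.

For `g ∈ Γ₀(N)` and a prime `p ∤ N` the prelude gives `α_x * g = g'_x * α_{π x}` with
`g'_x ∈ Γ₀(N)`, `α_x = heckeRep p x` (`x : OnePoint (ZMod p)`), `π` a permutation.  Hence, for every
`F : ℍ → ℂ` and weight `κ`,

  `(T_p F) ∣[κ] g - T_p F = ∑ x, (F ∣[κ] g'_x - F) ∣[κ] α_{π x}`.

If the defects `F ∣[-m] g'_x - F` are polynomials `P_x` of degree `≤ m`, the defect of
`p^(m+1) • T_p F` along `g` is the polynomial `∑ x, polyActRep m p (π x) (P_x)`, an *integral*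
substitution of the `P_x` (`polyActRep m p ∞ = polyAct m p 0 0 1`,
`polyActRep m p j = polyAct m 1 j 0 p`).  The data `g'`, `π` only depend on `g`, not on `F`.
-/
import Mathlib
import Fermat.Prelude.Def_CuspForm_HeckeAlgebra
import Fermat.Prelude.Sol.S_ModularForm_heckeT_slash_eq_self_of_mem_Gamma0
import Fermat.Agent.S22.PolyAct
import Fermat.Agent.S22.HeckeStableU

set_option autoImplicit false

open UpperHalfPlane Polynomial Matrix.SpecialLinearGroup CongruenceSubgroup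
open scoped MatrixGroups ModularForm OnePoint

namespace Fermat.Agent.S22

open P2MW.S_ModularForm_heckeT_slash_eq_self_of_mem_Gamma0.ModularForm.HeckeSlashInvariance

/-- Upper left entry of the integral matrix `heckeRep p x`. -/
def heckeRepA (p : ℕ) (x : OnePoint (ZMod p)) : ℤ := x.elim (p : ℤ) (fun _ => 1)

/-- Upper right entry of the integral matrix `heckeRep p x`. -/
def heckeRepB (p : ℕ) (x : OnePoint (ZMod p)) : ℤ := x.elim 0 (fun j => (j.val : ℤ))

/-- Lower right entry of the integral matrix `heckeRep p x`. -/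
def heckeRepD (p : ℕ) (x : OnePoint (ZMod p)) : ℤ := x.elim 1 (fun _ => (p : ℤ))

/-- The integral substitution action of `heckeRep p x` on polynomials of degree `≤ m`. -/
noncomputable def polyActRep (m p : ℕ) (x : OnePoint (ZMod p)) (P : ℂ[X]) : ℂ[X] :=
  polyAct m (heckeRepA p x) (heckeRepB p x) 0 (heckeRepD p x) P

theorem polyActRep_infty (m p : ℕ) (P : ℂ[X]) :
    polyActRep m p ∞ P = polyAct m p 0 0 1 P := rfl

theorem polyActRep_coe (m p : ℕ) (j : ZMod p) (P : ℂ[X]) :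
    polyActRep m p (j : OnePoint (ZMod p)) P = polyAct m 1 j.val 0 p P := rfl

/-- Coset combinatorics for `T_p` (`p ∤ N` prime): for `g ∈ Γ₀(N)` there are `g'_x ∈ Γ₀(N)` and
a permutation `π` of `OnePoint (ZMod p)` with `α_x * g = g'_x * α_{π x}`. -/
theorem heckeT_coset_data {p N : ℕ} (hp : p.Prime) (hpN : ¬ p ∣ N) (g : SL(2, ℤ))
    (hg : g ∈ Gamma0 N) :
    ∃ (g' : OnePoint (ZMod p) → SL(2, ℤ)) (π : Equiv.Perm (OnePoint (ZMod p))),
      (∀ x, g' x ∈ Gamma0 N) ∧
      ∀ x : OnePoint (ZMod p), heckeRep p x * mapGL ℝ g = mapGL ℝ (g' x) * heckeRep p (π x) := by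
  have : Fact p.Prime := ⟨hp⟩
  have hcN : (N : ℤ) ∣ g 1 0 :=
    (ZMod.intCast_zmod_eq_zero_iff_dvd _ _).mp (Gamma0_mem.mp hg)
  choose g' hg'1 hg'2 using fun x : OnePoint (ZMod p) => heckeRep_mul hpN g hcN x
  refine ⟨g', MulAction.toPerm (redMatrix p g), fun x => ?_, hg'2⟩
  exact Gamma0_mem.mpr ((ZMod.intCast_zmod_eq_zero_iff_dvd _ _).mpr (hg'1 x))

/-- The defect of `T_p F` along `g` is the sum of the `α_{π x}`-translates of the defects of `F`
along the `g'_x`. -/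
theorem heckeT_slash_sub_eq_sum (κ : ℤ) {p : ℕ} [NeZero p] (F : ℍ → ℂ) (g : SL(2, ℤ))
    (g' : OnePoint (ZMod p) → SL(2, ℤ)) (π : Equiv.Perm (OnePoint (ZMod p)))
    (h : ∀ x : OnePoint (ZMod p),
      heckeRep p x * mapGL ℝ g = mapGL ℝ (g' x) * heckeRep p (π x)) :
    ModularForm.heckeT κ p F ∣[κ] g - ModularForm.heckeT κ p F =
      ∑ x : OnePoint (ZMod p), (F ∣[κ] g' x - F) ∣[κ] heckeRep p (π x) := by
  have h1 : ModularForm.heckeT κ p F ∣[κ] g =
      ∑ x : OnePoint (ZMod p), (F ∣[κ] g' x) ∣[κ] heckeRep p (π x) := by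
    change ModularForm.heckeT κ p F ∣[κ] (mapGL ℝ g) = _
    rw [heckeT_eq_sum_onePoint κ F, SlashAction.sum_slash]
    refine Finset.sum_congr rfl fun x _ => ?_
    rw [← SlashAction.slash_mul, h x, SlashAction.slash_mul]
    rfl
  have h2 : ModularForm.heckeT κ p F =
      ∑ x : OnePoint (ZMod p), F ∣[κ] heckeRep p (π x) := by
    rw [heckeT_eq_sum_onePoint κ F]
    exact (Equiv.sum_comp π (fun x => F ∣[κ] heckeRep p x)).symm
  rw [h1]
  conv_lhs => rw [h2]
  rw [← Finset.sum_sub_distrib]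
  refine Finset.sum_congr rfl fun x _ => ?_
  rw [sub_eq_add_neg, sub_eq_add_neg, SlashAction.add_slash, SlashAction.neg_slash]

/-- The `heckeDiagMatrix` translate of a polynomial function (weight `-m`), rescaled by `p^(m+1)`,
is the integral substitution `polyAct m p 0 0 1`. -/
theorem slash_heckeDiagMatrix_poly (m : ℕ) {p : ℕ} (hp : p ≠ 0) (G : ℍ → ℂ) (P : ℂ[X])
    (hP : P.natDegree ≤ m) (hG : ∀ z : ℍ, G z = P.eval (z : ℂ)) (z : ℍ) :
    (p : ℂ) ^ (m + 1) * (G ∣[-(m : ℤ)] ModularForm.heckeDiagMatrix p) z =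
      (polyAct m p 0 0 1 P).eval (z : ℂ) := by
  have hp' : (p : ℂ) ≠ 0 := by exact_mod_cast hp
  rw [ModularForm.slash_heckeDiagMatrix_apply _ hp, hG, ModularForm.coe_heckeDiagMatrix_smul hp,
    eval_polyAct_upper m p 0 1 one_ne_zero hP]
  have hz : (-(m : ℤ) - 1) = -((m + 1 : ℕ) : ℤ) := by push_cast; ring
  rw [hz, zpow_neg, zpow_natCast, ← mul_assoc, mul_inv_cancel₀ (pow_ne_zero _ hp')]
  push_cast
  simp

/-- The `heckeRep` translate of a polynomial function (weight `-m`), rescaled by `p^(m+1)`, is the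
integral substitution `polyActRep m p x`. -/
theorem slash_heckeRep_poly (m : ℕ) {p : ℕ} (hp : p ≠ 0) (x : OnePoint (ZMod p)) (G : ℍ → ℂ)
    (P : ℂ[X]) (hP : P.natDegree ≤ m) (hG : ∀ z : ℍ, G z = P.eval (z : ℂ)) (z : ℍ) :
    (p : ℂ) ^ (m + 1) * (G ∣[-(m : ℤ)] heckeRep p x) z = (polyActRep m p x P).eval (z : ℂ) := by
  induction x using OnePoint.rec with
  | infty => exact slash_heckeDiagMatrix_poly m hp G P hP hG z
  | coe j => exact slash_heckeMatrix_poly m hp j.val G P hP hG z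

/-- Function level: if the weight `-m` defects of `F` along the `g'_x` are the polynomials `P_x`
(degree `≤ m`), the defect of `p^(m+1) • T_p F` along `g` is `∑ x, polyActRep m p (π x) (P_x)`. -/
theorem heckeT_defect_eval (m : ℕ) {p : ℕ} [NeZero p] (F : ℍ → ℂ) (g : SL(2, ℤ))
    (g' : OnePoint (ZMod p) → SL(2, ℤ)) (π : Equiv.Perm (OnePoint (ZMod p)))
    (h : ∀ x : OnePoint (ZMod p),
      heckeRep p x * mapGL ℝ g = mapGL ℝ (g' x) * heckeRep p (π x))
    (P : OnePoint (ZMod p) → ℂ[X]) (hP : ∀ x, (P x).natDegree ≤ m)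
    (hPe : ∀ x (z : ℍ), (F ∣[-(m : ℤ)] g' x) z - F z = (P x).eval (z : ℂ)) (z : ℍ) :
    (p : ℂ) ^ (m + 1) * ((ModularForm.heckeT (-(m : ℤ)) p F ∣[-(m : ℤ)] g) z -
        ModularForm.heckeT (-(m : ℤ)) p F z) =
      (∑ x : OnePoint (ZMod p), polyActRep m p (π x) (P x)).eval (z : ℂ) := by
  have h1 := congrFun (heckeT_slash_sub_eq_sum (-(m : ℤ)) F g g' π h) z
  rw [Pi.sub_apply] at h1
  rw [h1, Finset.sum_apply, Finset.mul_sum, eval_finsetSum]
  refine Finset.sum_congr rfl fun x _ => ?_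
  exact slash_heckeRep_poly m (NeZero.ne p) (π x) _ (P x) (hP x)
    (fun w => by rw [Pi.sub_apply]; exact hPe x w) z

/-- **Hecke stability of period polynomials under `T_p`**, in the shape of the ASM interface:
`E` is the Eichler map, `hT` its compatibility with `T_p`.  The coset data `g'`, `π` only depend
on `g`.  For any polynomials `P_x` of degree `≤ m` representing the defects of `E f` along `g'_x`,
the defect of `E (T_p f)` along `g` is represented by `∑ x, polyActRep m p (π x) (P_x)`. -/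
theorem eichler_heckeT_period {N : ℕ} [NeZero N] (k : ℤ) (m : ℕ) (hm : k = (m : ℤ) + 2)
    (E : CuspForm (Gamma0 N) k →ₗ[ℂ] (ℍ → ℂ)) {p : ℕ} [NeZero p] (hp : p.Prime) (hpN : ¬ p ∣ N)
    (hT : ∀ f : CuspForm (Gamma0 N) k, E (CuspForm.heckeTLin k hp hpN f) =
      ((p : ℂ) ^ (k - 1)) • ModularForm.heckeT (2 - k) p (E f))
    (g : SL(2, ℤ)) (hg : g ∈ Gamma0 N) :
    ∃ (g' : OnePoint (ZMod p) → SL(2, ℤ)) (π : Equiv.Perm (OnePoint (ZMod p))),
      (∀ x, g' x ∈ Gamma0 N) ∧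
      ∀ (f : CuspForm (Gamma0 N) k) (P : OnePoint (ZMod p) → ℂ[X]),
        (∀ x, (P x).natDegree ≤ m) →
        (∀ x (z : ℍ), (E f ∣[2 - k] g' x) z - E f z = (P x).eval (z : ℂ)) →
        ∀ z : ℍ, (E (CuspForm.heckeTLin k hp hpN f) ∣[2 - k] g) z -
            E (CuspForm.heckeTLin k hp hpN f) z =
          (∑ x : OnePoint (ZMod p), polyActRep m p (π x) (P x)).eval (z : ℂ) := by
  obtain ⟨g', π, hg', h⟩ := heckeT_coset_data hp hpN g hg
  refine ⟨g', π, hg', fun f P hP hPe z => ?_⟩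
  have hk2 : 2 - k = -(m : ℤ) := by rw [hm]; ring
  have hk1 : k - 1 = ((m + 1 : ℕ) : ℤ) := by rw [hm]; push_cast; ring
  rw [hk2] at hPe ⊢
  rw [hT f, hk2, hk1, zpow_natCast, ModularForm.SL_smul_slash, Pi.smul_apply, Pi.smul_apply,
    smul_eq_mul, smul_eq_mul, ← mul_sub]
  exact heckeT_defect_eval m (E f) g g' π h P hP hPe z

end Fermat.Agent.S22
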