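/-
S22, piece G1: `Γ₀(N)` is a finitely generated group (Schreier's lemma, `SL(2, ℤ) = ⟨S, T⟩`,
and finiteness of the index of `Γ₀(N)`).
-/
import Mathlib

set_option autoImplicit false

open scoped MatrixGroups

namespace Fermat.Agent.S22

/-- `SL(2, ℤ)` is finitely generated (by `S` and `T`). -/
theorem sl2z_groupFG : Group.FG SL(2, ℤ) := by
  rw [Group.fg_iff]
  exact ⟨{ModularGroup.S, ModularGroup.T}, SpecialLinearGroup.SL2Z_generators, by simp⟩

/-- Every finite index subgroup of `SL(2, ℤ)` is finitely generated as a group. -/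
theorem groupFG_of_finiteIndex (Γ : Subgroup SL(2, ℤ)) [Γ.FiniteIndex] : Group.FG Γ := by
  have := sl2z_groupFG
  exact Subgroup.fg_of_index_ne_zero Γ

/-- Every finite index subgroup of `SL(2, ℤ)` is finitely generated as a subgroup. -/
theorem subgroupFG_of_finiteIndex (Γ : Subgroup SL(2, ℤ)) [Γ.FiniteIndex] : Γ.FG :=
  (Group.fg_iff_subgroup_fg Γ).mp (groupFG_of_finiteIndex Γ)

/-- `Γ₀(N)` is a finitely generated group. -/
theorem gamma0_groupFG (N : ℕ) [NeZero N] : Group.FG (CongruenceSubgroup.Gamma0 N) :=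
  groupFG_of_finiteIndex _

/-- `Γ₀(N)` is a finitely generated subgroup of `SL(2, ℤ)`. -/
theorem gamma0_fg (N : ℕ) [NeZero N] : (CongruenceSubgroup.Gamma0 N).FG :=
  subgroupFG_of_finiteIndex _

/-- A finite set of generators of `Γ₀(N)` inside `SL(2, ℤ)`. -/
theorem exists_finset_closure_eq_gamma0 (N : ℕ) [NeZero N] :
    ∃ S : Finset SL(2, ℤ), Subgroup.closure (S : Set SL(2, ℤ)) = CongruenceSubgroup.Gamma0 N :=
  (gamma0_fg N)

end Fermat.Agent.S22
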