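/-
S22, piece G2: an abstract finiteness lemma for "coefficient lattices" of 1-cocycles.

If `Γ` is generated by a finite set `S`, `r : G → P` satisfies the cocycle identity
`r (g * h) = act h (r g) + r h`, and `C : P → Submodule ℤ Q` is a "coefficient span" which is
subadditive, even, finitely generated and does not grow under the action, then the lattice
`⨆ g ∈ Γ, C (r g)` is already spanned by the `C (r s)`, `s ∈ S`, hence finitely generated.
-/
import Mathlib

set_option autoImplicit false

namespace Fermat.Agent.S22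

section CocycleFG

variable {G : Type*} [Group G] {P Q : Type*} [AddCommGroup P] [AddCommGroup Q]

/-- Coefficient spans of a cocycle along a subgroup are controlled by a generating set. -/
theorem cocycle_coeffSpan_le_of_closure (act : G → P → P) (r : G → P)
    (C : P → Submodule ℤ Q) (S : Set G)
    (hmul : ∀ g h, r (g * h) = act h (r g) + r h) (h1 : r 1 = 0)
    (hCadd : ∀ p q, C (p + q) ≤ C p ⊔ C q) (hCneg : ∀ p, C (-p) ≤ C p) (hC0 : C 0 = ⊥)
    (hCact : ∀ h p, C (act h p) ≤ C p) {g : G} (hg : g ∈ Subgroup.closure S) :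
    C (r g) ≤ ⨆ s ∈ S, C (r s) := by
  induction hg using Subgroup.closure_induction with
  | mem x hx => exact le_iSup₂_of_le x hx le_rfl
  | one => rw [h1, hC0]; exact bot_le
  | mul x y _ _ hx hy =>
    rw [hmul]
    exact (hCadd _ _).trans (sup_le ((hCact _ _).trans hx) hy)
  | inv x _ hx =>
    have h : r x⁻¹ = - act x⁻¹ (r x) := by
      have := hmul x x⁻¹
      rw [mul_inv_cancel, h1] at this
      exact eq_neg_of_add_eq_zero_right this.symm
    rw [h]
    exact (hCneg _).trans ((hCact _ _).trans hx)

/-- The coefficient lattice of a cocycle on a finitely generated subgroup is finitely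
generated. -/
theorem cocycle_coeffSpan_fg (act : G → P → P) (r : G → P)
    (C : P → Submodule ℤ Q) (Γ : Subgroup G) (hΓ : Γ.FG)
    (hmul : ∀ g h, r (g * h) = act h (r g) + r h) (h1 : r 1 = 0)
    (hCadd : ∀ p q, C (p + q) ≤ C p ⊔ C q) (hCneg : ∀ p, C (-p) ≤ C p) (hC0 : C 0 = ⊥)
    (hCact : ∀ h p, C (act h p) ≤ C p) (hCfg : ∀ p, (C p).FG) :
    (⨆ g ∈ Γ, C (r g)).FG := by
  classical
  obtain ⟨S, hS⟩ := hΓ
  have heq : (⨆ g ∈ Γ, C (r g)) = ⨆ s ∈ S, C (r s) := by
    apply le_antisymm
    · refine iSup₂_le fun g hg => ?_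
      have hg' : g ∈ Subgroup.closure (S : Set G) := by rw [hS]; exact hg
      exact cocycle_coeffSpan_le_of_closure act r C (S : Set G) hmul h1 hCadd hCneg hC0 hCact hg'
    · refine iSup₂_le fun s hs => ?_
      have hs' : s ∈ Γ := by rw [← hS]; exact Subgroup.subset_closure hs
      exact le_iSup₂_of_le s hs' le_rfl
  rw [heq]
  exact Submodule.fg_biSup S _ fun s _ => hCfg (r s)

end CocycleFG

end Fermat.Agent.S22
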