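import Mathlib

set_option autoImplicit false

namespace Fermat.Agent.S22

section DualLattice

variable {V : Type*} [AddCommGroup V] [Module ℂ V]

/-- Elements of the adjoined algebra preserve the dual lattice (by precomposition). -/
theorem comp_mem_of_mem_adjoin
    (gens : Set (Module.End ℂ V)) (Λ : Submodule ℤ (Module.Dual ℂ V))
    (hstab : ∀ T ∈ gens, ∀ l ∈ Λ, l ∘ₗ T ∈ Λ)
    {T : Module.End ℂ V} (hT : T ∈ Algebra.adjoin ℤ gens) :
    ∀ l ∈ Λ, l ∘ₗ T ∈ Λ := by
  induction hT using Algebra.adjoin_induction with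
  | mem x hx => exact hstab x hx
  | algebraMap r =>
    intro l hl
    have : l ∘ₗ (algebraMap ℤ (Module.End ℂ V) r) = r • l := by
      ext v
      simp
    rw [this]
    exact Λ.smul_mem r hl
  | add x y _ _ hx hy =>
    intro l hl
    rw [LinearMap.comp_add]
    exact Λ.add_mem (hx l hl) (hy l hl)
  | mul x y _ _ hx hy =>
    intro l hl
    have : l ∘ₗ (x * y) = (l ∘ₗ x) ∘ₗ y := rfl
    rw [this]
    exact hy _ (hx l hl)

/-- P1 : algebraic reduction. -/
theorem finite_adjoin_of_dual_lattice
    (gens : Set (Module.End ℂ V)) (Λ : Submodule ℤ (Module.Dual ℂ V)) (hfg : Λ.FG)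
    (hstab : ∀ T ∈ gens, ∀ l ∈ Λ, l ∘ₗ T ∈ Λ)
    (hsep : ∀ v : V, (∀ l ∈ Λ, l v = 0) → v = 0) :
    Module.Finite ℤ (Algebra.adjoin ℤ gens) := by
  classical
  have hΛfin : Module.Finite ℤ Λ := Module.Finite.iff_fg.mpr hfg
  have : IsAddTorsionFree (Module.Dual ℂ V) := .of_isTorsionFree ℂ _
  have hΛfree : Module.Free ℤ Λ := Module.free_of_finite_type_torsion_free'
  -- the ℤ-linear map `T ↦ (l ↦ l ∘ T)` into `End_ℤ Λ`
  let Φ : (Algebra.adjoin ℤ gens) →ₗ[ℤ] (Λ →ₗ[ℤ] Λ) :=
    { toFun := fun T =>
        { toFun := fun l => ⟨(l : Module.Dual ℂ V) ∘ₗ (T : Module.End ℂ V),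
            comp_mem_of_mem_adjoin gens Λ hstab T.2 l l.2⟩
          map_add' := fun l l' => by
            apply Subtype.ext
            simp [LinearMap.add_comp]
          map_smul' := fun n l => by
            apply Subtype.ext
            simp [LinearMap.smul_comp] }
      map_add' := fun T T' => by
        apply LinearMap.ext
        intro l
        apply Subtype.ext
        simp [LinearMap.comp_add]
      map_smul' := fun n T => by
        apply LinearMap.ext
        intro l
        apply Subtype.ext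
        simp only [SetLike.val_smul, RingHom.id_apply, LinearMap.coe_mk, AddHom.coe_mk,
          LinearMap.smul_apply]
        rw [LinearMap.comp_smul] }
  have hΦ : Function.Injective Φ := by
    rw [injective_iff_map_eq_zero]
    intro T hT
    apply Subtype.ext
    apply LinearMap.ext
    intro v
    apply hsep
    intro l hl
    have h1 := congrArg (fun f : Λ →ₗ[ℤ] Λ => ((f ⟨l, hl⟩ : Λ) : Module.Dual ℂ V) v) hT
    simpa [Φ] using h1
  exact Module.Finite.of_injective Φ hΦ

end DualLattice

end Fermat.Agent.S22
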