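import Mathlib
import Fermat.Prelude.Def_CuspForm_HeckeAlgebra
import Fermat.Prelude.Thm_ModularForm_sturm_bound_Gamma0
import Fermat.Prelude.Thm_CongruenceSubgroup_one_mem_strictPeriods_Gamma0

set_option autoImplicit false
open CuspForm UpperHalfPlane

namespace Fermat.Agent.S22

/-- Cusp forms of weight `≤ 0` on `Γ₀(N)` vanish (prelude Sturm bound). -/
theorem cuspForm_eq_zero_of_nonpos (N : ℕ) [NeZero N] {k : ℤ} (hk : k ≤ 0)
    (f : CuspForm (CongruenceSubgroup.Gamma0 N) k) : f = 0 := by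
  have hF : (CuspForm.toModularFormₗ f : ModularForm (CongruenceSubgroup.Gamma0 N) k) = 0 := by
    apply ModularForm.sturm_bound_Gamma0 N
    intro n hn
    have h0 : (k * ((CongruenceSubgroup.Gamma0 N).index : ℤ)).toNat / 12 = 0 := by
      have : k * ((CongruenceSubgroup.Gamma0 N).index : ℤ) ≤ 0 :=
        mul_nonpos_of_nonpos_of_nonneg hk (Int.natCast_nonneg _)
      rw [Int.toNat_of_nonpos this]
    rw [h0] at hn
    obtain rfl : n = 0 := by omega
    exact CuspFormClass.qExpansion_coeff_zero f one_pos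
      (CongruenceSubgroup.one_mem_strictPeriods_Gamma0 N)
  exact CuspForm.toModularFormₗ_injective (by simpa using hF)

/-- Cusp forms of odd weight on `Γ₀(N)` vanish (`-1 ∈ Γ₀(N)`). -/
theorem cuspForm_eq_zero_of_odd (N : ℕ) {k : ℤ} (hk : Odd k)
    (f : CuspForm (CongruenceSubgroup.Gamma0 N) k) : f = 0 := by
  have hneg : (-1 : Matrix.GeneralLinearGroup (Fin 2) ℝ) ∈
      ((CongruenceSubgroup.Gamma0 N : Subgroup (Matrix.SpecialLinearGroup (Fin 2) ℤ)) :
        Subgroup (Matrix.GeneralLinearGroup (Fin 2) ℝ)) := by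
    refine ⟨-1, ?_, ?_⟩
    · simp [CongruenceSubgroup.Gamma0_mem]
    · ext i j
      simp
  have hF : (CuspForm.toModularFormₗ f : ModularForm (CongruenceSubgroup.Gamma0 N) k) = 0 :=
    ModularForm.eq_zero_of_neg_one_mem hneg hk _
  exact CuspForm.toModularFormₗ_injective (by simpa using hF)

/-- If the space of cusp forms is zero, the Hecke algebra is trivially finite. -/
theorem moduleFinite_heckeAlgebra_of_forall_eq_zero (N : ℕ) [NeZero N] (k : ℤ) (S : Set ℕ)
    (h : ∀ f : CuspForm (CongruenceSubgroup.Gamma0 N) k, f = 0) :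
    Module.Finite ℤ (CuspForm.heckeAlgebra N k S) := by
  have : Subsingleton (CuspForm (CongruenceSubgroup.Gamma0 N) k) :=
    ⟨fun a b => (h a).trans (h b).symm⟩
  have : Subsingleton (CuspForm.heckeAlgebra N k S) :=
    ⟨fun a b => Subtype.ext (LinearMap.ext fun x => Subsingleton.elim _ _)⟩
  exact Module.Finite.of_surjective (0 : ℤ →ₗ[ℤ] CuspForm.heckeAlgebra N k S)
    fun y => ⟨0, Subsingleton.elim _ _⟩

/-- It suffices to treat the full Hecke algebra `S = ∅`. -/
theorem moduleFinite_heckeAlgebra_of_empty (N : ℕ) [NeZero N] (k : ℤ)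
    (h : Module.Finite ℤ (CuspForm.heckeAlgebra N k ∅)) (S : Set ℕ) :
    Module.Finite ℤ (CuspForm.heckeAlgebra N k S) := by
  have hle : CuspForm.heckeAlgebra N k S ≤ CuspForm.heckeAlgebra N k ∅ :=
    CuspForm.heckeAlgebra_mono (Set.empty_subset S)
  have := h
  have : IsNoetherian ℤ (CuspForm.heckeAlgebra N k ∅) := isNoetherian_of_isNoetherianRing_of_finite ℤ _
  exact Module.Finite.of_injective (Subalgebra.inclusion hle).toLinearMap
    (Subalgebra.inclusion_injective hle)

/-- The trivial weights: `k ≤ 0` or `k` odd. -/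
theorem moduleFinite_heckeAlgebra_of_nonpos_or_odd (N : ℕ) [NeZero N] (k : ℤ) (S : Set ℕ)
    (hk : k ≤ 0 ∨ Odd k) : Module.Finite ℤ (CuspForm.heckeAlgebra N k S) := by
  apply moduleFinite_heckeAlgebra_of_forall_eq_zero
  rcases hk with hk | hk
  · exact cuspForm_eq_zero_of_nonpos N hk
  · exact cuspForm_eq_zero_of_odd N hk

end Fermat.Agent.S22
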