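import Mathlib
import Fermat.Prelude.Def_CuspForm_HeckeAlgebra
import Fermat.Prelude.Sol.S_ModularForm_heckeT_slash_eq_self_of_mem_Gamma0
import Fermat.Agent.S22.DualLattice
import Fermat.Agent.S22.CocycleFG
import Fermat.Agent.S22.Gamma0FG
import Fermat.Agent.S22.TrivialCases
import Fermat.Agent.S22.PolyAct

set_option autoImplicit false

open UpperHalfPlane Polynomial
open scoped MatrixGroups ModularForm

namespace Fermat.Agent.S22

/-- Two complex polynomials agreeing on the upper half plane are equal. -/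
theorem poly_eq_of_eval_eq_on_upperHalfPlane (P Q : ℂ[X])
    (h : ∀ z : ℍ, P.eval (z : ℂ) = Q.eval (z : ℂ)) : P = Q := by
  apply Polynomial.eq_of_infinite_eval_eq
  have hinj : Function.Injective (fun n : ℕ => ((n : ℂ) + Complex.I)) := by
    intro a b hab
    have := congrArg Complex.re hab
    simpa using this
  refine Set.infinite_of_injective_forall_mem hinj fun n => ?_
  have him : 0 < ((n : ℂ) + Complex.I).im := by simp
  exact h ⟨_, him⟩

section Period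

variable {N : ℕ} {k : ℤ} {m : ℕ}
  (E : CuspForm (CongruenceSubgroup.Gamma0 N) k →ₗ[ℂ] (ℍ → ℂ))
  (hpoly : ∀ f, ∀ g : SL(2, ℤ), g ∈ CongruenceSubgroup.Gamma0 N →
    ∃ P : ℂ[X], P.natDegree ≤ m ∧ ∀ z : ℍ, (E f ∣[2 - k] g) z - E f z = P.eval (z : ℂ))

/-- The period polynomial of `f` along `g ∈ Γ₀(N)`. -/
noncomputable def periodPoly (g : CongruenceSubgroup.Gamma0 N)
    (f : CuspForm (CongruenceSubgroup.Gamma0 N) k) : ℂ[X] :=
  Classical.choose (hpoly f g.1 g.2)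

theorem periodPoly_natDegree_le (g : CongruenceSubgroup.Gamma0 N)
    (f : CuspForm (CongruenceSubgroup.Gamma0 N) k) :
    (periodPoly E hpoly g f).natDegree ≤ m :=
  (Classical.choose_spec (hpoly f g.1 g.2)).1

theorem periodPoly_eval (g : CongruenceSubgroup.Gamma0 N)
    (f : CuspForm (CongruenceSubgroup.Gamma0 N) k) (z : ℍ) :
    (periodPoly E hpoly g f).eval (z : ℂ) = (E f ∣[2 - k] (g : SL(2, ℤ))) z - E f z :=
  ((Classical.choose_spec (hpoly f g.1 g.2)).2 z).symm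

theorem periodPoly_add (g : CongruenceSubgroup.Gamma0 N)
    (f f' : CuspForm (CongruenceSubgroup.Gamma0 N) k) :
    periodPoly E hpoly g (f + f') = periodPoly E hpoly g f + periodPoly E hpoly g f' := by
  apply poly_eq_of_eval_eq_on_upperHalfPlane
  intro z
  rw [eval_add, periodPoly_eval, periodPoly_eval, periodPoly_eval, map_add,
    SlashAction.add_slash]
  simp only [Pi.add_apply]
  ring

theorem periodPoly_smul (g : CongruenceSubgroup.Gamma0 N) (c : ℂ)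
    (f : CuspForm (CongruenceSubgroup.Gamma0 N) k) :
    periodPoly E hpoly g (c • f) = c • periodPoly E hpoly g f := by
  apply poly_eq_of_eval_eq_on_upperHalfPlane
  intro z
  rw [eval_smul, periodPoly_eval, periodPoly_eval, map_smul, ModularForm.SL_smul_slash]
  simp only [Pi.smul_apply, smul_eq_mul]
  ring

/-- The period polynomial as a linear map in `f`. -/
noncomputable def periodPolyₗ (g : CongruenceSubgroup.Gamma0 N) :
    CuspForm (CongruenceSubgroup.Gamma0 N) k →ₗ[ℂ] ℂ[X] where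
  toFun := periodPoly E hpoly g
  map_add' := periodPoly_add E hpoly g
  map_smul' := periodPoly_smul E hpoly g

@[simp] theorem periodPolyₗ_apply (g : CongruenceSubgroup.Gamma0 N)
    (f : CuspForm (CongruenceSubgroup.Gamma0 N) k) :
    periodPolyₗ E hpoly g f = periodPoly E hpoly g f := rfl

theorem periodPoly_one (f : CuspForm (CongruenceSubgroup.Gamma0 N) k) :
    periodPoly E hpoly 1 f = 0 := by
  apply poly_eq_of_eval_eq_on_upperHalfPlane
  intro z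
  rw [periodPoly_eval, eval_zero]
  simp

theorem periodPoly_mul (hm : k = (m : ℤ) + 2) (g h : CongruenceSubgroup.Gamma0 N)
    (f : CuspForm (CongruenceSubgroup.Gamma0 N) k) :
    periodPoly E hpoly (g * h) f =
      polyAct m ((h : SL(2, ℤ)) 0 0) ((h : SL(2, ℤ)) 0 1) ((h : SL(2, ℤ)) 1 0)
        ((h : SL(2, ℤ)) 1 1) (periodPoly E hpoly g f) + periodPoly E hpoly h f := by
  apply poly_eq_of_eval_eq_on_upperHalfPlane
  intro z
  have hden : ((((h : SL(2, ℤ)) 1 0 : ℤ) : ℂ) * (z : ℂ) + (((h : SL(2, ℤ)) 1 1 : ℤ) : ℂ)) ≠ 0 := by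
    rw [← ModularGroup.denom_apply]
    exact denom_ne_zero _ z
  rw [eval_add, eval_polyAct_of_natDegree_le m _ _ _ _ (periodPoly_natDegree_le E hpoly g f) _ hden,
    periodPoly_eval, periodPoly_eval]
  have hgh : ((g * h : CongruenceSubgroup.Gamma0 N) : SL(2, ℤ)) = (g : SL(2, ℤ)) * h := rfl
  rw [hgh, SlashAction.slash_mul, ModularForm.SL_slash_apply (E f ∣[2 - k] (g : SL(2, ℤ))) h z,
    ModularForm.SL_slash_apply (E f) (h : SL(2, ℤ)) z]
  have hz : ((((h : SL(2, ℤ)) • z : ℍ)) : ℂ) =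
      ((((h : SL(2, ℤ)) 0 0 : ℤ) : ℂ) * (z : ℂ) + (((h : SL(2, ℤ)) 0 1 : ℤ) : ℂ)) /
        ((((h : SL(2, ℤ)) 1 0 : ℤ) : ℂ) * (z : ℂ) + (((h : SL(2, ℤ)) 1 1 : ℤ) : ℂ)) := by
    rw [coe_specialLinearGroup_apply]
    simp
  rw [← hz, periodPoly_eval, ModularGroup.denom_apply]
  have hexp : -(2 - k) = (m : ℤ) := by omega
  rw [hexp, zpow_natCast]
  ring

theorem sub_slash_GL (κ : ℤ) (A : GL (Fin 2) ℝ) (F G : ℍ → ℂ) :
    (F - G) ∣[κ] A = F ∣[κ] A - G ∣[κ] A := by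
  rw [sub_eq_add_neg, SlashAction.add_slash, SlashAction.neg_slash, ← sub_eq_add_neg]

/-- The function on the upper half plane attached to a polynomial. -/
noncomputable def polyFun (P : ℂ[X]) : ℍ → ℂ := fun z => P.eval (z : ℂ)

theorem slash_sub_eq_polyFun (g : CongruenceSubgroup.Gamma0 N)
    (f : CuspForm (CongruenceSubgroup.Gamma0 N) k) :
    E f ∣[2 - k] (g : SL(2, ℤ)) - E f = polyFun (periodPoly E hpoly g f) := by
  funext z
  simp only [polyFun, Pi.sub_apply, periodPoly_eval]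

/-- Abstract Hecke relation for period polynomials: if `E (T f)` is `c` times a finite sum of
slashes of `E f` by matrices `M x` which are permuted (up to `Γ₀(N)`) by right multiplication
with `g`, and `c` times slashing a polynomial by `M y` is the integral substitution action
`polyAct m (a y) (b y) 0 (d y)`, then the period polynomial of `T f` along `g` is a sum of
integral transforms of period polynomials of `f`. -/
theorem periodPoly_hecke_aux {ι : Type*} [Fintype ι]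
    (M : ι → GL (Fin 2) ℝ) (a b d : ι → ℤ) (c : ℂ)
    (hM : ∀ (y : ι) (P : ℂ[X]), P.natDegree ≤ m → ∀ τ : ℍ,
      c * (polyFun P ∣[2 - k] M y) τ = (polyAct m (a y) (b y) 0 (d y) P).eval (τ : ℂ))
    (T : CuspForm (CongruenceSubgroup.Gamma0 N) k → CuspForm (CongruenceSubgroup.Gamma0 N) k)
    (hT : ∀ f, E (T f) = c • ∑ x, E f ∣[2 - k] M x)
    (g : CongruenceSubgroup.Gamma0 N) (σ : Equiv.Perm ι) (g' : ι → CongruenceSubgroup.Gamma0 N)
    (hg : ∀ x, M x * Matrix.SpecialLinearGroup.mapGL ℝ (g : SL(2, ℤ)) =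
      Matrix.SpecialLinearGroup.mapGL ℝ (g' x : SL(2, ℤ)) * M (σ x))
    (f : CuspForm (CongruenceSubgroup.Gamma0 N) k) :
    periodPoly E hpoly g (T f) =
      ∑ x, polyAct m (a (σ x)) (b (σ x)) 0 (d (σ x)) (periodPoly E hpoly (g' x) f) := by
  apply poly_eq_of_eval_eq_on_upperHalfPlane
  intro z
  rw [periodPoly_eval, hT, ModularForm.SL_smul_slash, eval_finsetSum]
  have h1 : (∑ x, E f ∣[2 - k] M x) ∣[2 - k] (g : SL(2, ℤ)) =
      ∑ x, (E f ∣[2 - k] (g' x : SL(2, ℤ))) ∣[2 - k] M (σ x) := by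
    have : (∑ x, E f ∣[2 - k] M x) ∣[2 - k] (g : SL(2, ℤ)) =
        (∑ x, E f ∣[2 - k] M x) ∣[2 - k] (Matrix.SpecialLinearGroup.mapGL ℝ (g : SL(2, ℤ))) := rfl
    rw [this, SlashAction.sum_slash]
    refine Finset.sum_congr rfl fun x _ => ?_
    rw [← SlashAction.slash_mul, hg x, SlashAction.slash_mul]
    rfl
  have h2 : (∑ x, E f ∣[2 - k] M x) = ∑ x, E f ∣[2 - k] M (σ x) :=
    (Equiv.sum_comp σ (fun x => E f ∣[2 - k] M x)).symm
  have h3 : (∑ x, (E f ∣[2 - k] (g' x : SL(2, ℤ))) ∣[2 - k] M (σ x)) -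
      ∑ x, E f ∣[2 - k] M (σ x) =
      ∑ x, polyFun (periodPoly E hpoly (g' x) f) ∣[2 - k] M (σ x) := by
    rw [← Finset.sum_sub_distrib]
    refine Finset.sum_congr rfl fun x _ => ?_
    rw [← slash_sub_eq_polyFun E hpoly (g' x) f, sub_slash_GL]
  have h4 : (c • (∑ x, E f ∣[2 - k] M x) ∣[2 - k] (g : SL(2, ℤ))) z -
      (c • ∑ x, E f ∣[2 - k] M x) z =
      c * ((∑ x, (E f ∣[2 - k] (g' x : SL(2, ℤ))) ∣[2 - k] M (σ x)) -
        ∑ x, E f ∣[2 - k] M (σ x)) z := by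
    rw [h1]
    conv_lhs => rw [h2]
    simp only [Pi.smul_apply, Pi.sub_apply, smul_eq_mul]
    ring
  rw [h4, h3, Finset.sum_apply, Finset.mul_sum]
  refine Finset.sum_congr rfl fun x _ => ?_
  exact hM (σ x) _ (periodPoly_natDegree_le E hpoly (g' x) f) z

end Period

section Lattice

variable {V : Type*} [AddCommGroup V] [Module ℂ V]

/-- The `ℤ`-span of the coefficient functionals `v ↦ (ρ v).coeff j`, `j ≤ m`, of a
polynomial-valued linear map. -/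
noncomputable def coeffSpan (m : ℕ) (ρ : V →ₗ[ℂ] ℂ[X]) : Submodule ℤ (Module.Dual ℂ V) :=
  Submodule.span ℤ (Set.range fun j : Fin (m + 1) => (Polynomial.lcoeff ℂ (j : ℕ)) ∘ₗ ρ)

theorem lcoeff_comp_mem_coeffSpan (m : ℕ) (ρ : V →ₗ[ℂ] ℂ[X]) {j : ℕ} (hj : j ≤ m) :
    (Polynomial.lcoeff ℂ j) ∘ₗ ρ ∈ coeffSpan m ρ :=
  Submodule.subset_span ⟨⟨j, Nat.lt_succ_of_le hj⟩, rfl⟩

theorem coeffSpan_add_le (m : ℕ) (ρ ρ' : V →ₗ[ℂ] ℂ[X]) :
    coeffSpan m (ρ + ρ') ≤ coeffSpan m ρ ⊔ coeffSpan m ρ' := by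
  refine Submodule.span_le.mpr ?_
  rintro _ ⟨j, rfl⟩
  simp only [LinearMap.comp_add]
  exact Submodule.add_mem_sup (Submodule.subset_span ⟨j, rfl⟩) (Submodule.subset_span ⟨j, rfl⟩)

theorem coeffSpan_neg_le (m : ℕ) (ρ : V →ₗ[ℂ] ℂ[X]) : coeffSpan m (-ρ) ≤ coeffSpan m ρ := by
  refine Submodule.span_le.mpr ?_
  rintro _ ⟨j, rfl⟩
  simp only [LinearMap.comp_neg]
  exact neg_mem (Submodule.subset_span ⟨j, rfl⟩)

theorem coeffSpan_zero (m : ℕ) : coeffSpan m (0 : V →ₗ[ℂ] ℂ[X]) = ⊥ := by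
  rw [eq_bot_iff]
  refine Submodule.span_le.mpr ?_
  rintro _ ⟨j, rfl⟩
  simp

theorem coeffSpan_fg (m : ℕ) (ρ : V →ₗ[ℂ] ℂ[X]) : (coeffSpan m ρ).FG :=
  Submodule.fg_span (Set.finite_range _)

theorem lcoeff_comp_polyActₗ (m : ℕ) (a b c d : ℤ) (ρ : V →ₗ[ℂ] ℂ[X]) (i : ℕ) :
    (Polynomial.lcoeff ℂ i) ∘ₗ (polyActₗ m a b c d ∘ₗ ρ) =
      ∑ j ∈ Finset.range (m + 1),
        ((basisPolyZ m a b c d j).coeff i) • ((Polynomial.lcoeff ℂ j) ∘ₗ ρ) := by
  ext v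
  simp [coeff_polyAct]

theorem lcoeff_comp_polyActₗ_mem (m : ℕ) (a b c d : ℤ) (ρ : V →ₗ[ℂ] ℂ[X]) (i : ℕ) :
    (Polynomial.lcoeff ℂ i) ∘ₗ (polyActₗ m a b c d ∘ₗ ρ) ∈ coeffSpan m ρ := by
  rw [lcoeff_comp_polyActₗ]
  refine Submodule.sum_mem _ fun j hj => ?_
  exact Submodule.smul_mem _ _
    (lcoeff_comp_mem_coeffSpan m ρ (Nat.lt_succ_iff.mp (Finset.mem_range.mp hj)))

theorem coeffSpan_polyAct_le (m : ℕ) (a b c d : ℤ) (ρ : V →ₗ[ℂ] ℂ[X]) :
    coeffSpan m (polyActₗ m a b c d ∘ₗ ρ) ≤ coeffSpan m ρ := by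
  refine Submodule.span_le.mpr ?_
  rintro _ ⟨i, rfl⟩
  exact lcoeff_comp_polyActₗ_mem m a b c d ρ i

end Lattice

section PeriodLattice

variable {N : ℕ} {k : ℤ} {m : ℕ}
  (E : CuspForm (CongruenceSubgroup.Gamma0 N) k →ₗ[ℂ] (ℍ → ℂ))
  (hpoly : ∀ f, ∀ g : SL(2, ℤ), g ∈ CongruenceSubgroup.Gamma0 N →
    ∃ P : ℂ[X], P.natDegree ≤ m ∧ ∀ z : ℍ, (E f ∣[2 - k] g) z - E f z = P.eval (z : ℂ))

/-- The lattice of coefficient functionals of all period polynomials. -/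
noncomputable def periodLattice :
    Submodule ℤ (Module.Dual ℂ (CuspForm (CongruenceSubgroup.Gamma0 N) k)) :=
  ⨆ g ∈ (⊤ : Subgroup (CongruenceSubgroup.Gamma0 N)), coeffSpan m (periodPolyₗ E hpoly g)

theorem coeffSpan_le_periodLattice (g : CongruenceSubgroup.Gamma0 N) :
    coeffSpan m (periodPolyₗ E hpoly g) ≤ periodLattice E hpoly :=
  le_iSup₂_of_le g (Subgroup.mem_top g) le_rfl

theorem periodLattice_fg [NeZero N] (hm : k = (m : ℤ) + 2) : (periodLattice E hpoly).FG := by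
  refine cocycle_coeffSpan_fg
    (act := fun (h : CongruenceSubgroup.Gamma0 N)
      (ρ : CuspForm (CongruenceSubgroup.Gamma0 N) k →ₗ[ℂ] ℂ[X]) =>
      polyActₗ m ((h : SL(2, ℤ)) 0 0) ((h : SL(2, ℤ)) 0 1) ((h : SL(2, ℤ)) 1 0)
        ((h : SL(2, ℤ)) 1 1) ∘ₗ ρ)
    (r := periodPolyₗ E hpoly) (C := coeffSpan m) ⊤
    (Group.fg_def.mp (gamma0_groupFG N)) ?_ ?_ (coeffSpan_add_le m) (coeffSpan_neg_le m)
    (coeffSpan_zero m) (fun h ρ => coeffSpan_polyAct_le m _ _ _ _ ρ) (coeffSpan_fg m)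
  · intro g h
    ext f : 1
    simp only [periodPolyₗ_apply, LinearMap.add_apply, LinearMap.comp_apply, polyActₗ_apply]
    exact periodPoly_mul E hpoly hm g h f
  · ext f : 1
    simp only [periodPolyₗ_apply, LinearMap.zero_apply]
    exact periodPoly_one E hpoly f

theorem eq_zero_of_forall_mem_periodLattice
    (hsep : ∀ f : CuspForm (CongruenceSubgroup.Gamma0 N) k,
      (∀ g : SL(2, ℤ), g ∈ CongruenceSubgroup.Gamma0 N → E f ∣[2 - k] g = E f) → f = 0)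
    (f : CuspForm (CongruenceSubgroup.Gamma0 N) k)
    (h : ∀ l ∈ periodLattice E hpoly, l f = 0) : f = 0 := by
  apply hsep
  intro g hg
  have hP : periodPoly E hpoly ⟨g, hg⟩ f = 0 := by
    ext j
    rw [coeff_zero]
    by_cases hj : j ≤ m
    · have := h _ (coeffSpan_le_periodLattice E hpoly ⟨g, hg⟩
        (lcoeff_comp_mem_coeffSpan m (periodPolyₗ E hpoly ⟨g, hg⟩) hj))
      simpa using this
    · exact coeff_eq_zero_of_natDegree_lt
        (lt_of_le_of_lt (periodPoly_natDegree_le E hpoly ⟨g, hg⟩ f) (not_le.mp hj))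
  funext z
  have := periodPoly_eval E hpoly ⟨g, hg⟩ f z
  rw [hP, eval_zero] at this
  exact sub_eq_zero.mp this.symm

/-- Hecke stability of the period lattice, abstract form. -/
theorem comp_mem_periodLattice_of_hecke {ι : Type*} [Fintype ι]
    (M : ι → GL (Fin 2) ℝ) (a b d : ι → ℤ) (c : ℂ)
    (hM : ∀ (y : ι) (P : ℂ[X]), P.natDegree ≤ m → ∀ τ : ℍ,
      c * (polyFun P ∣[2 - k] M y) τ = (polyAct m (a y) (b y) 0 (d y) P).eval (τ : ℂ))
    (T : CuspForm (CongruenceSubgroup.Gamma0 N) k →ₗ[ℂ] CuspForm (CongruenceSubgroup.Gamma0 N) k)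
    (hT : ∀ f, E (T f) = c • ∑ x, E f ∣[2 - k] M x)
    (hperm : ∀ g : CongruenceSubgroup.Gamma0 N, ∃ (σ : Equiv.Perm ι)
      (g' : ι → CongruenceSubgroup.Gamma0 N),
      ∀ x, M x * Matrix.SpecialLinearGroup.mapGL ℝ (g : SL(2, ℤ)) =
        Matrix.SpecialLinearGroup.mapGL ℝ (g' x : SL(2, ℤ)) * M (σ x)) :
    ∀ l ∈ periodLattice E hpoly, l ∘ₗ T ∈ periodLattice E hpoly := by
  have key : periodLattice E hpoly ≤ (periodLattice E hpoly).comap
      ((LinearMap.lcomp ℂ ℂ T).restrictScalars ℤ) := by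
    refine iSup₂_le fun g _ => Submodule.span_le.mpr ?_
    rintro _ ⟨j, rfl⟩
    obtain ⟨σ, g', hg⟩ := hperm g
    have hcomp : ((Polynomial.lcoeff ℂ (j : ℕ)) ∘ₗ periodPolyₗ E hpoly g) ∘ₗ T =
        ∑ x, (Polynomial.lcoeff ℂ (j : ℕ)) ∘ₗ
          (polyActₗ m (a (σ x)) (b (σ x)) 0 (d (σ x)) ∘ₗ periodPolyₗ E hpoly (g' x)) := by
      ext f : 1
      simp only [LinearMap.comp_apply, periodPolyₗ_apply, LinearMap.sum_apply, polyActₗ_apply]
      rw [periodPoly_hecke_aux E hpoly M a b d c hM T hT g σ g' hg f, map_sum]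
    show ((Polynomial.lcoeff ℂ (j : ℕ)) ∘ₗ periodPolyₗ E hpoly g) ∘ₗ T ∈ periodLattice E hpoly
    rw [hcomp]
    refine Submodule.sum_mem _ fun x _ => ?_
    exact coeffSpan_le_periodLattice E hpoly (g' x) (lcoeff_comp_polyActₗ_mem m _ _ _ _ _ _)
  exact fun l hl => key hl

end PeriodLattice

section HeckeMatrices

variable {k : ℤ} {m : ℕ}

theorem mul_slash_heckeMatrix_polyFun (hm : k = (m : ℤ) + 2) {p : ℕ} (hp : p ≠ 0) (j : ℕ)
    (P : ℂ[X]) (hP : P.natDegree ≤ m) (τ : ℍ) :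
    (p : ℂ) ^ (k - 1) * (polyFun P ∣[2 - k] ModularForm.heckeMatrix p j) τ =
      (polyAct m 1 (j : ℤ) 0 (p : ℤ) P).eval (τ : ℂ) := by
  have hp' : (p : ℂ) ≠ 0 := by exact_mod_cast hp
  rw [ModularForm.slash_heckeMatrix_apply _ hp, eval_polyAct_upper m 1 (j : ℤ) (p : ℤ)
    (by exact_mod_cast hp) hP]
  simp only [polyFun, ModularForm.coe_heckeMatrix_smul hp]
  have hk : k - 1 = ((m + 1 : ℕ) : ℤ) := by rw [hm]; push_cast; ring
  rw [hk, zpow_natCast, pow_succ]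
  push_cast
  rw [one_mul]
  field_simp

theorem mul_slash_heckeDiagMatrix_polyFun {p : ℕ} (hp : p ≠ 0)
    (P : ℂ[X]) (hP : P.natDegree ≤ m) (τ : ℍ) :
    (p : ℂ) ^ (k - 1) * (polyFun P ∣[2 - k] ModularForm.heckeDiagMatrix p) τ =
      (polyAct m (p : ℤ) 0 0 1 P).eval (τ : ℂ) := by
  have hp' : (p : ℂ) ≠ 0 := by exact_mod_cast hp
  rw [ModularForm.slash_heckeDiagMatrix_apply _ hp, eval_polyAct_upper m (p : ℤ) 0 1
    one_ne_zero hP]
  simp only [polyFun, ModularForm.coe_heckeDiagMatrix_smul hp]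
  rw [← mul_assoc, ← zpow_add₀ hp']
  have hk : k - 1 + (2 - k - 1) = 0 := by ring
  rw [hk, zpow_zero]
  push_cast
  simp

end HeckeMatrices

section Final

open P2MW.S_ModularForm_heckeT_slash_eq_self_of_mem_Gamma0.ModularForm.HeckeSlashInvariance

variable {N : ℕ} [NeZero N] {k : ℤ} {m : ℕ}
  (E : CuspForm (CongruenceSubgroup.Gamma0 N) k →ₗ[ℂ] (ℍ → ℂ))
  (hpoly : ∀ f, ∀ g : SL(2, ℤ), g ∈ CongruenceSubgroup.Gamma0 N →
    ∃ P : ℂ[X], P.natDegree ≤ m ∧ ∀ z : ℍ, (E f ∣[2 - k] g) z - E f z = P.eval (z : ℂ))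

omit [NeZero N] in
theorem comp_heckeTLin_mem_periodLattice (hm : k = (m : ℤ) + 2) {p : ℕ} (hp : p.Prime)
    (hpN : ¬ p ∣ N)
    (hT : ∀ f : CuspForm (CongruenceSubgroup.Gamma0 N) k,
      E (CuspForm.heckeTLin k hp hpN f) =
        ((p : ℂ) ^ (k - 1)) • ModularForm.heckeT (2 - k) p (E f)) :
    ∀ l ∈ periodLattice E hpoly, l ∘ₗ CuspForm.heckeTLin k hp hpN ∈ periodLattice E hpoly := by
  have : Fact p.Prime := ⟨hp⟩
  have : NeZero p := ⟨hp.ne_zero⟩
  refine comp_mem_periodLattice_of_hecke E hpoly (ι := OnePoint (ZMod p)) (heckeRep p)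
    (fun y => y.elim (p : ℤ) (fun _ => 1)) (fun y => y.elim 0 (fun j => (j.val : ℤ)))
    (fun y => y.elim 1 (fun _ => (p : ℤ))) ((p : ℂ) ^ (k - 1)) ?_ _ ?_ ?_
  · intro y P hP τ
    induction y using OnePoint.rec with
    | infty => exact mul_slash_heckeDiagMatrix_polyFun hp.ne_zero P hP τ
    | coe j => exact mul_slash_heckeMatrix_polyFun hm hp.ne_zero j.val P hP τ
  · intro f
    rw [hT f, heckeT_eq_sum_onePoint]
  · intro g
    have hcN : (N : ℤ) ∣ (g : SL(2, ℤ)) 1 0 :=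
      (ZMod.intCast_zmod_eq_zero_iff_dvd _ _).mp (CongruenceSubgroup.Gamma0_mem.mp g.2)
    choose g' hg'N hg' using heckeRep_mul hpN (g : SL(2, ℤ)) hcN
    exact ⟨MulAction.toPerm (redMatrix p (g : SL(2, ℤ))),
      fun x => ⟨g' x, CongruenceSubgroup.Gamma0_mem.mpr
        ((ZMod.intCast_zmod_eq_zero_iff_dvd _ _).mpr (hg'N x))⟩, fun x => hg' x⟩

theorem comp_heckeULin_mem_periodLattice (hm : k = (m : ℤ) + 2) {q : ℕ} (hq : q.Prime)
    (hqN : q ∣ N)
    (hU : ∀ f : CuspForm (CongruenceSubgroup.Gamma0 N) k,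
      E (CuspForm.heckeULin k hqN f) =
        ((q : ℂ) ^ (k - 1)) • ModularForm.heckeU (2 - k) q (E f)) :
    ∀ l ∈ periodLattice E hpoly, l ∘ₗ CuspForm.heckeULin k hqN ∈ periodLattice E hpoly := by
  have : NeZero q := ⟨hq.ne_zero⟩
  refine comp_mem_periodLattice_of_hecke E hpoly (ι := ZMod q)
    (fun x => ModularForm.heckeMatrix q x.val)
    (fun _ => 1) (fun x => (x.val : ℤ)) (fun _ => (q : ℤ)) ((q : ℂ) ^ (k - 1)) ?_ _ ?_ ?_
  · intro y P hP τ
    exact mul_slash_heckeMatrix_polyFun hm hq.ne_zero y.val P hP τ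
  · intro f
    rw [hU f, heckeU_eq_sum_zmod]
  · intro g
    have hcN : (N : ℤ) ∣ (g : SL(2, ℤ)) 1 0 :=
      (ZMod.intCast_zmod_eq_zero_iff_dvd _ _).mp (CongruenceSubgroup.Gamma0_mem.mp g.2)
    have hc : (q : ℤ) ∣ (g : SL(2, ℤ)) 1 0 := (Int.natCast_dvd_natCast.mpr hqN).trans hcN
    choose g' hg'10 hg' using heckeMatrix_mul_of_dvd (g : SL(2, ℤ)) hc
    refine ⟨affinePerm (g : SL(2, ℤ)) ((ZMod.intCast_zmod_eq_zero_iff_dvd _ _).mpr hc),
      fun x => ⟨g' x, ?_⟩, fun x => hg' x⟩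
    rw [CongruenceSubgroup.Gamma0_mem, hg'10 x]
    push_cast
    rw [CongruenceSubgroup.Gamma0_mem.mp g.2, mul_zero]

end Final

/-- ASSEMBLY.
Given a linear "Eichler integral" `E` on weight `k = m + 2` cusp forms of level `Γ₀(N)` whose
slash-defects along `Γ₀(N)` are polynomials of degree `≤ m`, which intertwines the Hecke
operators up to the scalar `p^(k-1)`, and which separates cusp forms, the Hecke algebra is a
finite `ℤ`-module. -/
theorem moduleFinite_heckeAlgebra_of_eichlerMap (N : ℕ) [NeZero N] (k : ℤ) (m : ℕ)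
    (hm : k = (m : ℤ) + 2) (S : Set ℕ)
    (E : CuspForm (CongruenceSubgroup.Gamma0 N) k →ₗ[ℂ] (ℍ → ℂ))
    (hpoly : ∀ f, ∀ g : SL(2, ℤ), g ∈ CongruenceSubgroup.Gamma0 N →
      ∃ P : ℂ[X], P.natDegree ≤ m ∧ ∀ z : ℍ, (E f ∣[2 - k] g) z - E f z = P.eval (z : ℂ))
    (hT : ∀ (p : ℕ) (hp : p.Prime) (hpN : ¬ p ∣ N) (f : CuspForm (CongruenceSubgroup.Gamma0 N) k),
      E (CuspForm.heckeTLin k hp hpN f) = ((p : ℂ) ^ (k - 1)) • ModularForm.heckeT (2 - k) p (E f))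
    (hU : ∀ (q : ℕ) (_hq : q.Prime) (hqN : q ∣ N) (f : CuspForm (CongruenceSubgroup.Gamma0 N) k),
      E (CuspForm.heckeULin k hqN f) = ((q : ℂ) ^ (k - 1)) • ModularForm.heckeU (2 - k) q (E f))
    (hsep : ∀ f : CuspForm (CongruenceSubgroup.Gamma0 N) k,
      (∀ g : SL(2, ℤ), g ∈ CongruenceSubgroup.Gamma0 N → E f ∣[2 - k] g = E f) → f = 0) :
    Module.Finite ℤ (CuspForm.heckeAlgebra N k S) := by
  apply moduleFinite_heckeAlgebra_of_empty
  refine finite_adjoin_of_dual_lattice (CuspForm.heckeGenerators N k ∅) (periodLattice E hpoly)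
    (periodLattice_fg E hpoly hm) ?_ (eq_zero_of_forall_mem_periodLattice E hpoly hsep)
  rintro T (⟨ℓ, hℓ, hℓN, -, rfl⟩ | ⟨q, hqN, hq, -, rfl⟩)
  · exact comp_heckeTLin_mem_periodLattice E hpoly hm hℓ hℓN (hT ℓ hℓ hℓN)
  · exact comp_heckeULin_mem_periodLattice E hpoly hm hq hqN (hU q hq hqN)

end Fermat.Agent.S22
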