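-- S22 helper (helper2): Bol's identity for the upper half plane.
import Mathlib

set_option autoImplicit false
open UpperHalfPlane

namespace Fermat.Agent.S22

/-- Iterated derivatives of a function holomorphic on an open set are holomorphic there. -/
theorem bol_differentiableOn_iteratedDeriv {U : Set ℂ} (hU : IsOpen U) {G : ℂ → ℂ}
    (hG : DifferentiableOn ℂ G U) (m : ℕ) : DifferentiableOn ℂ (iteratedDeriv m G) U := by
  induction m with
  | zero => simpa [iteratedDeriv_zero] using hG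
  | succ m ih =>
    have : iteratedDeriv (m + 1) G = deriv (iteratedDeriv m G) := by
      funext x; rw [iteratedDeriv_succ]
    rw [this]
    exact ih.deriv hU

/-- `iteratedDeriv (m+1) G z` is the derivative of `iteratedDeriv m G` at `z`. -/
theorem bol_hasDerivAt_iteratedDeriv {U : Set ℂ} (hU : IsOpen U) {G : ℂ → ℂ}
    (hG : DifferentiableOn ℂ G U) (m : ℕ) {z : ℂ} (hz : z ∈ U) :
    HasDerivAt (iteratedDeriv m G) (iteratedDeriv (m + 1) G z) z := by
  have h := ((bol_differentiableOn_iteratedDeriv hU hG m).differentiableAt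
    (hU.mem_nhds hz)).hasDerivAt
  rwa [← iteratedDeriv_succ] at h

/-- Leibniz rule for the product of a linear function and a holomorphic function. -/
theorem bol_iteratedDeriv_linear_mul {U : Set ℂ} (hU : IsOpen U) {G : ℂ → ℂ}
    (hG : DifferentiableOn ℂ G U) (c d : ℂ) (m : ℕ) :
    ∀ z ∈ U, iteratedDeriv (m + 1) (fun w ↦ (c * w + d) * G w) z =
      (c * z + d) * iteratedDeriv (m + 1) G z + ((m : ℂ) + 1) * c * iteratedDeriv m G z := by
  induction m with
  | zero =>
    intro z hz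
    have hGz : DifferentiableAt ℂ G z := hG.differentiableAt (hU.mem_nhds hz)
    have h1 : HasDerivAt (fun w : ℂ ↦ c * w + d) c z := by
      simpa using ((hasDerivAt_id z).const_mul c).add_const d
    have h2 : HasDerivAt (fun w ↦ (c * w + d) * G w) (c * G z + (c * z + d) * deriv G z) z :=
      h1.mul hGz.hasDerivAt
    rw [iteratedDeriv_one, iteratedDeriv_one, iteratedDeriv_zero, h2.deriv]
    push_cast
    ring
  | succ m ih =>
    intro z hz
    have hev : (iteratedDeriv (m + 1) (fun w ↦ (c * w + d) * G w)) =ᶠ[nhds z]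
        (fun w ↦ (c * w + d) * iteratedDeriv (m + 1) G w +
          ((m : ℂ) + 1) * c * iteratedDeriv m G w) := by
      filter_upwards [hU.mem_nhds hz] with w hw using ih w hw
    rw [iteratedDeriv_succ, hev.deriv_eq]
    have h1 : HasDerivAt (fun w : ℂ ↦ c * w + d) c z := by
      simpa using ((hasDerivAt_id z).const_mul c).add_const d
    have hA' := bol_hasDerivAt_iteratedDeriv hU hG (m + 1) hz
    have hB' := bol_hasDerivAt_iteratedDeriv hU hG m hz
    have h2 : HasDerivAt (fun w ↦ (c * w + d) * iteratedDeriv (m + 1) G w +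
          ((m : ℂ) + 1) * c * iteratedDeriv m G w)
        (c * iteratedDeriv (m + 1) G z + (c * z + d) * iteratedDeriv (m + 1 + 1) G z +
          ((m : ℂ) + 1) * c * iteratedDeriv (m + 1) G z) z :=
      (h1.mul hA').add (hB'.const_mul (((m : ℂ) + 1) * c))
    rw [h2.deriv]
    push_cast
    ring

theorem bol_denom_ne_zero (a b c d : ℝ) (hdet : 0 < a * d - b * c) {z : ℂ}
    (hz : z ∈ upperHalfPlaneSet) : (c : ℂ) * z + d ≠ 0 := by
  have hz' : 0 < z.im := hz
  intro h
  have him := congrArg Complex.im h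
  have hre := congrArg Complex.re h
  simp at him hre
  rcases him with hc | hzim
  · subst hc
    simp at hre
    subst hre
    simp at hdet
  · exact hz'.ne' hzim

theorem bol_mobius_mem (a b c d : ℝ) (hdet : 0 < a * d - b * c) {z : ℂ}
    (hz : z ∈ upperHalfPlaneSet) :
    ((a : ℂ) * z + b) / ((c : ℂ) * z + d) ∈ upperHalfPlaneSet := by
  have hz' : 0 < z.im := hz
  have hne := bol_denom_ne_zero a b c d hdet hz
  show 0 < (((a : ℂ) * z + b) / ((c : ℂ) * z + d)).im
  rw [Complex.div_im]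
  have hns : 0 < Complex.normSq ((c : ℂ) * z + d) := Complex.normSq_pos.mpr hne
  have : ((a : ℂ) * z + b).im * ((c : ℂ) * z + d).re / Complex.normSq ((c : ℂ) * z + d) -
      ((a : ℂ) * z + b).re * ((c : ℂ) * z + d).im / Complex.normSq ((c : ℂ) * z + d) =
      (a * d - b * c) * z.im / Complex.normSq ((c : ℂ) * z + d) := by
    simp
    ring
  rw [this]
  positivity

theorem bol_hasDerivAt_mobius (a b c d : ℝ) (hdet : 0 < a * d - b * c) {z : ℂ}
    (hz : z ∈ upperHalfPlaneSet) :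
    HasDerivAt (fun w : ℂ ↦ ((a : ℂ) * w + b) / ((c : ℂ) * w + d))
      (((a : ℂ) * d - b * c) / ((c : ℂ) * z + d) ^ 2) z := by
  have hne := bol_denom_ne_zero a b c d hdet hz
  have h1 : HasDerivAt (fun w : ℂ ↦ (a : ℂ) * w + b) a z := by
    simpa using ((hasDerivAt_id z).const_mul (a : ℂ)).add_const (b : ℂ)
  have h2 : HasDerivAt (fun w : ℂ ↦ (c : ℂ) * w + d) c z := by
    simpa using ((hasDerivAt_id z).const_mul (c : ℂ)).add_const (d : ℂ)
  have h3 : HasDerivAt (fun w : ℂ ↦ ((a : ℂ) * w + b) / ((c : ℂ) * w + d))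
      (((a : ℂ) * ((c : ℂ) * z + d) - ((a : ℂ) * z + b) * c) / ((c : ℂ) * z + d) ^ 2) z :=
    h1.div h2 hne
  have e : ((a : ℂ) * d - b * c) / ((c : ℂ) * z + d) ^ 2 =
      ((a : ℂ) * ((c : ℂ) * z + d) - ((a : ℂ) * z + b) * c) / ((c : ℂ) * z + d) ^ 2 := by
    ring
  rw [e]
  exact h3

/-- The function `w ↦ (c w + d)^n F(γ w)` is holomorphic on the upper half plane. -/
theorem bol_differentiableOn_aux (a b c d : ℝ) (hdet : 0 < a * d - b * c) (n : ℕ) {F : ℂ → ℂ}
    (hF : DifferentiableOn ℂ F upperHalfPlaneSet) :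
    DifferentiableOn ℂ
      (fun w : ℂ ↦ ((c : ℂ) * w + d) ^ n * F (((a : ℂ) * w + b) / ((c : ℂ) * w + d)))
      upperHalfPlaneSet := by
  intro z hz
  have hγ := bol_hasDerivAt_mobius a b c d hdet hz
  have hFz : DifferentiableAt ℂ F (((a : ℂ) * z + b) / ((c : ℂ) * z + d)) :=
    hF.differentiableAt (isOpen_upperHalfPlaneSet.mem_nhds (bol_mobius_mem a b c d hdet hz))
  have h1 : DifferentiableAt ℂ (fun w : ℂ ↦ F (((a : ℂ) * w + b) / ((c : ℂ) * w + d))) z :=
    DifferentiableAt.comp z hFz hγ.differentiableAt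
  have h2 : DifferentiableAt ℂ (fun w : ℂ ↦ ((c : ℂ) * w + d) ^ n) z := by fun_prop
  exact (h2.mul h1).differentiableWithinAt

/-- Bol's identity in terms of `iteratedDeriv`. -/
theorem bol_identity_aux (a b c d : ℝ) (hdet : 0 < a * d - b * c) {F : ℂ → ℂ}
    (hF : DifferentiableOn ℂ F upperHalfPlaneSet) (n : ℕ) :
    ∀ z ∈ upperHalfPlaneSet,
    iteratedDeriv (n + 1)
        (fun w : ℂ ↦ ((c : ℂ) * w + d) ^ n * F (((a : ℂ) * w + b) / ((c : ℂ) * w + d))) z
      = ((a : ℂ) * d - b * c) ^ (n + 1) * (((c : ℂ) * z + d) ^ (n + 2))⁻¹ *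
          iteratedDeriv (n + 1) F (((a : ℂ) * z + b) / ((c : ℂ) * z + d)) := by
  have hU := isOpen_upperHalfPlaneSet
  induction n with
  | zero =>
    intro z hz
    have hγ := bol_hasDerivAt_mobius a b c d hdet hz
    have hmem := bol_mobius_mem a b c d hdet hz
    have hFz : HasDerivAt F (deriv F (((a : ℂ) * z + b) / ((c : ℂ) * z + d)))
        (((a : ℂ) * z + b) / ((c : ℂ) * z + d)) :=
      (hF.differentiableAt (hU.mem_nhds hmem)).hasDerivAt
    have h1 : HasDerivAt (fun w : ℂ ↦ F (((a : ℂ) * w + b) / ((c : ℂ) * w + d)))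
        (deriv F (((a : ℂ) * z + b) / ((c : ℂ) * z + d)) *
          (((a : ℂ) * d - b * c) / ((c : ℂ) * z + d) ^ 2)) z :=
      HasDerivAt.comp z hFz hγ
    simp only [pow_zero, one_mul, zero_add, iteratedDeriv_one, pow_one]
    rw [h1.deriv]
    ring
  | succ n ih =>
    intro z hz
    set H : ℂ → ℂ := fun w : ℂ ↦ ((c : ℂ) * w + d) ^ n *
      F (((a : ℂ) * w + b) / ((c : ℂ) * w + d)) with hH
    have hHd : DifferentiableOn ℂ H upperHalfPlaneSet := bol_differentiableOn_aux a b c d hdet n hF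
    have hfun : (fun w : ℂ ↦ ((c : ℂ) * w + d) ^ (n + 1) *
        F (((a : ℂ) * w + b) / ((c : ℂ) * w + d))) = fun w ↦ ((c : ℂ) * w + d) * H w := by
      funext w
      simp only [hH]
      ring
    rw [hfun, bol_iteratedDeriv_linear_mul hU hHd (c : ℂ) (d : ℂ) (n + 1) z hz, ih z hz]
    -- compute the derivative of the induction hypothesis
    have hne := bol_denom_ne_zero a b c d hdet hz
    have hγ := bol_hasDerivAt_mobius a b c d hdet hz
    have hmem := bol_mobius_mem a b c d hdet hz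
    have hev : (iteratedDeriv (n + 1) H) =ᶠ[nhds z]
        (fun w ↦ ((a : ℂ) * d - b * c) ^ (n + 1) * (((c : ℂ) * w + d) ^ (n + 2))⁻¹ *
          iteratedDeriv (n + 1) F (((a : ℂ) * w + b) / ((c : ℂ) * w + d))) := by
      filter_upwards [hU.mem_nhds hz] with w hw using ih w hw
    have hj : HasDerivAt (fun w : ℂ ↦ (c : ℂ) * w + d) c z := by
      simpa using ((hasDerivAt_id z).const_mul (c : ℂ)).add_const (d : ℂ)
    have hjp : HasDerivAt (fun w : ℂ ↦ (((c : ℂ) * w + d) ^ (n + 2))⁻¹)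
        (-(((n + 2 : ℕ) : ℂ) * ((c : ℂ) * z + d) ^ (n + 2 - 1) * c) /
          (((c : ℂ) * z + d) ^ (n + 2)) ^ 2) z :=
      (hj.pow (n + 2)).inv (pow_ne_zero _ hne)
    have hFz := bol_hasDerivAt_iteratedDeriv hU hF (n + 1) hmem
    have hcomp : HasDerivAt (fun w : ℂ ↦ iteratedDeriv (n + 1) F
          (((a : ℂ) * w + b) / ((c : ℂ) * w + d)))
        (iteratedDeriv (n + 1 + 1) F (((a : ℂ) * z + b) / ((c : ℂ) * z + d)) *
          (((a : ℂ) * d - b * c) / ((c : ℂ) * z + d) ^ 2)) z :=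
      HasDerivAt.comp (h₂ := iteratedDeriv (n + 1) F) z hFz hγ
    have hprod : HasDerivAt
        (fun w ↦ ((a : ℂ) * d - b * c) ^ (n + 1) * (((c : ℂ) * w + d) ^ (n + 2))⁻¹ *
          iteratedDeriv (n + 1) F (((a : ℂ) * w + b) / ((c : ℂ) * w + d)))
        (((a : ℂ) * d - b * c) ^ (n + 1) *
            (-(((n + 2 : ℕ) : ℂ) * ((c : ℂ) * z + d) ^ (n + 2 - 1) * c) /
              (((c : ℂ) * z + d) ^ (n + 2)) ^ 2) *
            iteratedDeriv (n + 1) F (((a : ℂ) * z + b) / ((c : ℂ) * z + d)) +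
          ((a : ℂ) * d - b * c) ^ (n + 1) * (((c : ℂ) * z + d) ^ (n + 2))⁻¹ *
            (iteratedDeriv (n + 1 + 1) F (((a : ℂ) * z + b) / ((c : ℂ) * z + d)) *
              (((a : ℂ) * d - b * c) / ((c : ℂ) * z + d) ^ 2))) z :=
      (hjp.const_mul (((a : ℂ) * d - b * c) ^ (n + 1))).mul hcomp
    have hderiv : iteratedDeriv (n + 1 + 1) H z =
        (((a : ℂ) * d - b * c) ^ (n + 1) *
            (-(((n + 2 : ℕ) : ℂ) * ((c : ℂ) * z + d) ^ (n + 2 - 1) * c) /
              (((c : ℂ) * z + d) ^ (n + 2)) ^ 2) *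
            iteratedDeriv (n + 1) F (((a : ℂ) * z + b) / ((c : ℂ) * z + d)) +
          ((a : ℂ) * d - b * c) ^ (n + 1) * (((c : ℂ) * z + d) ^ (n + 2))⁻¹ *
            (iteratedDeriv (n + 1 + 1) F (((a : ℂ) * z + b) / ((c : ℂ) * z + d)) *
              (((a : ℂ) * d - b * c) / ((c : ℂ) * z + d) ^ 2))) := by
      rw [iteratedDeriv_succ, hev.deriv_eq]
      exact hprod.deriv
    rw [hderiv]
    have e1 : n + 2 - 1 = n + 1 := by omega
    rw [e1]
    field_simp
    push_cast
    ring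

/-- **Bol's identity** on the upper half plane, for `iteratedDerivWithin`. -/
theorem bol_identity (a b c d : ℝ) (hdet : 0 < a * d - b * c) (n : ℕ) {F : ℂ → ℂ}
    (hF : DifferentiableOn ℂ F upperHalfPlaneSet) {z : ℂ} (hz : z ∈ upperHalfPlaneSet) :
    iteratedDerivWithin (n + 1)
        (fun z : ℂ ↦ ((c : ℂ) * z + d) ^ n * F (((a : ℂ) * z + b) / ((c : ℂ) * z + d)))
        upperHalfPlaneSet z
      = ((a : ℂ) * d - b * c) ^ (n + 1) * (((c : ℂ) * z + d) ^ (n + 2))⁻¹ *
          iteratedDerivWithin (n + 1) F upperHalfPlaneSet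
            (((a : ℂ) * z + b) / ((c : ℂ) * z + d)) := by
  rw [iteratedDerivWithin_of_isOpen isOpen_upperHalfPlaneSet hz,
    iteratedDerivWithin_of_isOpen isOpen_upperHalfPlaneSet (bol_mobius_mem a b c d hdet hz)]
  exact bol_identity_aux a b c d hdet hF n z hz

end Fermat.Agent.S22
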