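import Fermat.Agent.S22.EichlerPrim
import Mathlib.NumberTheory.ModularForms.SlashActions
import Mathlib.Analysis.SpecialFunctions.Pow.Asymptotics
import Mathlib.Analysis.Calculus.MeanValue

/-!
# The vector valued Eichler integral

For a cuspidal periodic `f` and `w : ℕ` we define `Phi h f w X Y z`, which plays the role of
`∫_{i∞}^z f(u) (X - u Y)^w du`: it is a primitive (in `z`) of `f(z) (X - z Y)^w` on the upper half
plane and tends to zero along vertical lines.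
-/

namespace Fermat.Agent.S22.EichlerPrim

open Complex Filter Topology Function
open UpperHalfPlane hiding I
open scoped Real Manifold ModularForm

variable {h : ℝ} {f : ℍ → ℂ}

/-- Auxiliary recursive definition: `PhiAux h f w s X Y z` is the normalised primitive of
`(X - z Y)^w * E h f s z`. -/
noncomputable def PhiAux (h : ℝ) (f : ℍ → ℂ) : ℕ → ℕ → ℂ → ℂ → ℂ → ℂ
  | 0, s, _, _, z => E h f (s + 1) z
  | (w + 1), s, X, Y, z =>
      (X - z * Y) ^ (w + 1) * E h f (s + 1) z + ((w + 1 : ℕ) : ℂ) * Y * PhiAux h f w (s + 1) X Y z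

theorem hasDerivAt_PhiAux (hf : IsCuspidalPeriodic h f) :
    ∀ (w s : ℕ) (X Y : ℂ) {z : ℂ}, 0 < z.im →
      HasDerivAt (fun u => PhiAux h f w s X Y u) ((X - z * Y) ^ w * E h f s z) z := by
  intro w
  induction w with
  | zero =>
    intro s X Y z hz
    simp only [PhiAux, pow_zero, one_mul]
    exact hasDerivAt_E hf s hz
  | succ w ih =>
    intro s X Y z hz
    simp only [PhiAux]
    have h1 : HasDerivAt (fun u : ℂ => X - u * Y) (-Y) z := by
      have := ((hasDerivAt_id z).mul_const Y).const_sub X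
      simpa using this
    have h2 := h1.pow (w + 1)
    have h3 := h2.mul (hasDerivAt_E hf s hz)
    have h4 := (ih (s + 1) X Y hz).const_mul (((w + 1 : ℕ) : ℂ) * Y)
    refine (h3.add h4).congr_deriv ?_
    simp only [Nat.add_sub_cancel, Nat.cast_add, Nat.cast_one, Pi.pow_apply]
    ring

/-- Polynomial times exponential decay of `PhiAux`. -/
theorem exists_norm_PhiAux_le (hf : IsCuspidalPeriodic h f) :
    ∀ (w s : ℕ), ∃ C : ℝ, 0 ≤ C ∧ ∀ (X Y z : ℂ), 1 ≤ z.im →
      ‖PhiAux h f w s X Y z‖ ≤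
        C * (‖X‖ + ‖z‖ * ‖Y‖ + 1) ^ w * Real.exp (-2 * π * z.im / h) := by
  intro w
  induction w with
  | zero =>
    intro s
    obtain ⟨K, hK0, hK⟩ := exists_norm_E_le hf (s + 1)
    refine ⟨K, hK0, fun X Y z hz => ?_⟩
    simpa [PhiAux] using hK z hz
  | succ w ih =>
    intro s
    obtain ⟨K, hK0, hK⟩ := exists_norm_E_le hf (s + 1)
    obtain ⟨C, hC0, hC⟩ := ih (s + 1)
    refine ⟨K + (w + 1) * C, by positivity, fun X Y z hz => ?_⟩
    set P := ‖X‖ + ‖z‖ * ‖Y‖ + 1 with hP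
    set e := Real.exp (-2 * π * z.im / h) with he
    have hP1 : 1 ≤ P := by
      have : 0 ≤ ‖X‖ + ‖z‖ * ‖Y‖ := by positivity
      linarith
    have hP0 : 0 ≤ P := by linarith
    have he0 : 0 ≤ e := (Real.exp_pos _).le
    have hXY : ‖X - z * Y‖ ≤ P := by
      calc ‖X - z * Y‖ ≤ ‖X‖ + ‖z * Y‖ := norm_sub_le _ _
        _ = ‖X‖ + ‖z‖ * ‖Y‖ := by rw [norm_mul]
        _ ≤ P := by linarith
    have hY : ‖Y‖ ≤ P := by
      have hz1 : 1 ≤ ‖z‖ := hz.trans (Complex.im_le_norm z)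
      have : ‖Y‖ ≤ ‖z‖ * ‖Y‖ := le_mul_of_one_le_left (norm_nonneg _) hz1
      have : 0 ≤ ‖X‖ := norm_nonneg _
      linarith
    simp only [PhiAux]
    calc ‖(X - z * Y) ^ (w + 1) * E h f (s + 1) z +
          ((w + 1 : ℕ) : ℂ) * Y * PhiAux h f w (s + 1) X Y z‖
        ≤ ‖(X - z * Y) ^ (w + 1) * E h f (s + 1) z‖ +
          ‖((w + 1 : ℕ) : ℂ) * Y * PhiAux h f w (s + 1) X Y z‖ := norm_add_le _ _
      _ = ‖X - z * Y‖ ^ (w + 1) * ‖E h f (s + 1) z‖ +
          ((w + 1 : ℕ) : ℝ) * ‖Y‖ * ‖PhiAux h f w (s + 1) X Y z‖ := by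
        rw [norm_mul, norm_pow, norm_mul, norm_mul, Complex.norm_natCast]
      _ ≤ P ^ (w + 1) * (K * e) + ((w + 1 : ℕ) : ℝ) * P * (C * P ^ w * e) := by
        gcongr
        · exact hK z hz
        · exact hC X Y z hz
      _ = (K + (w + 1) * C) * P ^ (w + 1) * e := by push_cast; ring

/-- `PhiAux` tends to zero along vertical lines. -/
theorem tendsto_PhiAux_vertical (hf : IsCuspidalPeriodic h f) (w s : ℕ) (X Y : ℂ) (x : ℝ) :
    Tendsto (fun t : ℝ => PhiAux h f w s X Y (x + t * I)) atTop (𝓝 0) := by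
  obtain ⟨C, hC0, hC⟩ := exists_norm_PhiAux_le hf w s
  have hh := hf.pos
  set A := ‖X‖ + |x| * ‖Y‖ + 1 + ‖Y‖ with hA
  have hA0 : 0 ≤ A := by positivity
  have hb : 0 < 2 * π / h := by positivity
  have hlim : Tendsto (fun t : ℝ => C * A ^ w * (t ^ (w : ℝ) * Real.exp (-(2 * π / h) * t)))
      atTop (𝓝 0) := by
    have := (tendsto_rpow_mul_exp_neg_mul_atTop_nhds_zero (w : ℝ) (2 * π / h) hb).const_mul
      (C * A ^ w)
    simpa using this
  rw [tendsto_zero_iff_norm_tendsto_zero]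
  refine tendsto_of_tendsto_of_tendsto_of_le_of_le' tendsto_const_nhds hlim
    (Eventually.of_forall fun t => norm_nonneg _) ?_
  filter_upwards [eventually_ge_atTop (1 : ℝ)] with t ht
  have ht0 : 0 ≤ t := by linarith
  have him : ((x : ℂ) + t * I).im = t := by simp
  have hz : 1 ≤ ((x : ℂ) + t * I).im := by rw [him]; exact ht
  refine (hC X Y _ hz).trans ?_
  rw [him]
  have hnorm : ‖(x : ℂ) + t * I‖ ≤ |x| + t := by
    calc ‖(x : ℂ) + t * I‖ ≤ ‖(x : ℂ)‖ + ‖(t : ℂ) * I‖ := norm_add_le _ _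
      _ = |x| + t := by
        rw [Complex.norm_real, norm_mul, Complex.norm_I, mul_one, Complex.norm_real,
          Real.norm_eq_abs, Real.norm_eq_abs, abs_of_nonneg ht0]
  have hP : ‖X‖ + ‖(x : ℂ) + t * I‖ * ‖Y‖ + 1 ≤ A * t := by
    have h1 : ‖(x : ℂ) + t * I‖ * ‖Y‖ ≤ (|x| + t) * ‖Y‖ :=
      mul_le_mul_of_nonneg_right hnorm (norm_nonneg _)
    have h2 : 0 ≤ ‖X‖ := norm_nonneg _
    have h3 : 0 ≤ |x| * ‖Y‖ := by positivity
    have h4 : 0 ≤ ‖Y‖ := norm_nonneg _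
    rw [hA]
    nlinarith
  have hP0 : 0 ≤ ‖X‖ + ‖(x : ℂ) + t * I‖ * ‖Y‖ + 1 := by positivity
  have hpow : (‖X‖ + ‖(x : ℂ) + t * I‖ * ‖Y‖ + 1) ^ w ≤ (A * t) ^ w :=
    pow_le_pow_left₀ hP0 hP w
  have hexp : Real.exp (-2 * π * t / h) = Real.exp (-(2 * π / h) * t) := by
    congr 1; ring
  rw [hexp, Real.rpow_natCast]
  have he0 : 0 ≤ Real.exp (-(2 * π / h) * t) := (Real.exp_pos _).le
  calc C * (‖X‖ + ‖(x : ℂ) + t * I‖ * ‖Y‖ + 1) ^ w * Real.exp (-(2 * π / h) * t)
      ≤ C * (A * t) ^ w * Real.exp (-(2 * π / h) * t) := by gcongr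
    _ = C * A ^ w * (t ^ w * Real.exp (-(2 * π / h) * t)) := by rw [mul_pow]; ring

/-- The vector valued Eichler integral `"∫_{i∞}^z f(u) (X - u Y)^w du"`. -/
noncomputable def Phi (h : ℝ) (f : ℍ → ℂ) (w : ℕ) (X Y z : ℂ) : ℂ := PhiAux h f w 0 X Y z

theorem hasDerivAt_Phi (hf : IsCuspidalPeriodic h f) (w : ℕ) (X Y : ℂ) (τ : ℍ) :
    HasDerivAt (fun u => Phi h f w X Y u) (f τ * (X - τ * Y) ^ w) τ := by
  have := hasDerivAt_PhiAux hf w 0 X Y (z := (τ : ℂ)) τ.im_pos
  rw [E_zero_apply hf τ, mul_comm] at this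
  exact this

theorem tendsto_Phi_vertical (hf : IsCuspidalPeriodic h f) (w : ℕ) (X Y : ℂ) (x : ℝ) :
    Tendsto (fun t : ℝ => Phi h f w X Y (x + t * I)) atTop (𝓝 0) :=
  tendsto_PhiAux_vertical hf w 0 X Y x

private theorem moebius_alg (F Δ D X Y z : ℂ) (w : ℕ) (hD : D ≠ 0) :
    F * (Δ * (X - z * Y) / D) ^ w * (Δ / D ^ 2) =
      F * Δ ^ (w + 1) * (D ^ (w + 2))⁻¹ * (X - z * Y) ^ w := by
  rw [div_pow, mul_pow]
  field_simp
  ring

/-- Chain rule for the Möbius action: the key computation replacing Bol's identity. -/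
theorem hasDerivAt_Phi_moebius (hf : IsCuspidalPeriodic h f) (w : ℕ) (X Y : ℂ)
    (g : GL (Fin 2) ℝ) (hg : 0 < g.det.val) (τ : ℍ) :
    HasDerivAt (fun u : ℂ => Phi h f w (g 0 0 * X + g 0 1 * Y) (g 1 0 * X + g 1 1 * Y)
        (num g u / denom g u))
      ((f ∣[(w : ℤ) + 2] g) τ * (X - τ * Y) ^ w) τ := by
  have hden : denom g (τ : ℂ) ≠ 0 := denom_ne_zero g τ
  have hcoe : ((g • τ : ℍ) : ℂ) = num g τ / denom g τ := coe_smul_of_det_pos hg τ
  -- derivative of the Möbius transformation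
  have hnum : HasDerivAt (fun u : ℂ => num g u) (g 0 0 : ℂ) (τ : ℂ) := by
    have := ((hasDerivAt_id (τ : ℂ)).const_mul ((g 0 0 : ℝ) : ℂ)).add_const ((g 0 1 : ℝ) : ℂ)
    simpa [num] using this
  have hdenom : HasDerivAt (fun u : ℂ => denom g u) (g 1 0 : ℂ) (τ : ℂ) := by
    have := ((hasDerivAt_id (τ : ℂ)).const_mul ((g 1 0 : ℝ) : ℂ)).add_const ((g 1 1 : ℝ) : ℂ)
    simpa [denom] using this
  have hmoeb := hnum.div hdenom hden
  -- derivative of Phi at the image point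
  have hPhi := hasDerivAt_Phi hf w (g 0 0 * X + g 0 1 * Y) (g 1 0 * X + g 1 1 * Y) (g • τ)
  rw [hcoe] at hPhi
  have hcomp := HasDerivAt.comp (τ : ℂ) hPhi hmoeb
  refine hcomp.congr_deriv ?_
  -- algebra
  have hdet : (g.det.val : ℂ) = (g 0 0 : ℂ) * g 1 1 - (g 0 1 : ℂ) * g 1 0 := by
    rw [Matrix.GeneralLinearGroup.val_det_apply, Matrix.det_fin_two]
    push_cast; ring
  have hkey : (g 0 0 : ℂ) * X + g 0 1 * Y -
      num g τ / denom g τ * ((g 1 0 : ℂ) * X + g 1 1 * Y)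
      = (g.det.val : ℂ) * (X - τ * Y) / denom g τ := by
    rw [hdet]
    field_simp
    simp only [num, denom]
    ring
  have hnumdet : ((g 0 0 : ℂ) * denom g τ - num g τ * (g 1 0 : ℂ)) = (g.det.val : ℂ) := by
    rw [hdet]; simp only [num, denom]; ring
  rw [ModularForm.slash_apply, UpperHalfPlane.σ, if_pos hg, ContinuousAlgEquiv.refl_apply,
    abs_of_pos hg, hkey, hnumdet]
  have hk : ((w : ℤ) + 2 - 1) = ((w + 1 : ℕ) : ℤ) := by push_cast; ring
  have hk2 : (-((w : ℤ) + 2)) = -((w + 2 : ℕ) : ℤ) := by push_cast; ring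
  rw [hk, hk2, zpow_natCast, zpow_neg, zpow_natCast]
  exact moebius_alg _ _ _ X Y τ w hden

/-- The open upper half plane, as a subset of `ℂ`. -/
def upperSet : Set ℂ := {u | 0 < u.im}

theorem isOpen_upperSet : IsOpen upperSet := isOpen_lt continuous_const Complex.continuous_im

theorem convex_upperSet : Convex ℝ upperSet := by
  intro x hx y hy a b ha hb hab
  simp only [upperSet, Set.mem_ofPred_eq, Complex.add_im, Complex.smul_im, smul_eq_mul] at hx hy ⊢
  rcases ha.eq_or_lt with rfl | ha'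
  · have hb1 : b = 1 := by linarith
    subst hb1; simpa using hy
  · have h1 : 0 < a * x.im := mul_pos ha' hx
    have h2 : 0 ≤ b * y.im := mul_nonneg hb hy.le
    linarith

theorem isPreconnected_upperSet : IsPreconnected upperSet := convex_upperSet.isPreconnected

/-- A function on the upper half plane with vanishing derivative is constant. -/
theorem exists_const_of_hasDerivAt_zero {D : ℂ → ℂ}
    (hD : ∀ τ : ℍ, HasDerivAt D 0 (τ : ℂ)) : ∃ c : ℂ, ∀ τ : ℍ, D τ = c := by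
  have hdiff : DifferentiableOn ℂ D upperSet := fun u hu =>
    (hD ⟨u, hu⟩).differentiableAt.differentiableWithinAt
  have hderiv : upperSet.EqOn (deriv D) 0 := fun u hu => (hD ⟨u, hu⟩).deriv
  obtain ⟨c, hc⟩ := isOpen_upperSet.exists_is_const_of_deriv_eq_zero isPreconnected_upperSet
    hdiff hderiv
  exact ⟨c, fun τ => hc τ τ.im_pos⟩

variable {h' : ℝ} {f' : ℍ → ℂ}

/-- If `f ∣[w+2] g = f'` then `z ↦ Phi f (g v) (g z) - Phi f' v z` is constant. -/
theorem exists_const_of_slash_eq (hf : IsCuspidalPeriodic h f) (hf' : IsCuspidalPeriodic h' f')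
    (w : ℕ) (g : GL (Fin 2) ℝ) (hg : 0 < g.det.val) (hslash : f ∣[(w : ℤ) + 2] g = f')
    (X Y : ℂ) :
    ∃ c : ℂ, ∀ τ : ℍ, Phi h f w (g 0 0 * X + g 0 1 * Y) (g 1 0 * X + g 1 1 * Y)
        (num g τ / denom g τ) - Phi h' f' w X Y τ = c := by
  refine exists_const_of_hasDerivAt_zero (D := fun u => Phi h f w (g 0 0 * X + g 0 1 * Y)
    (g 1 0 * X + g 1 1 * Y) (num g u / denom g u) - Phi h' f' w X Y u) fun τ => ?_
  have h1 := hasDerivAt_Phi_moebius hf w X Y g hg τ
  have h2 := hasDerivAt_Phi hf' w X Y τ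
  rw [hslash] at h1
  have h3 := h1.sub h2
  rw [sub_self] at h3
  exact h3

theorem tendsto_Phi_affine (hf : IsCuspidalPeriodic h f) (w : ℕ) (X Y : ℂ) (x r : ℝ)
    (hr : 0 < r) : Tendsto (fun t : ℝ => Phi h f w X Y (x + ((r * t : ℝ) : ℂ) * I)) atTop (𝓝 0) :=
  (tendsto_Phi_vertical hf w X Y x).comp (tendsto_id.const_mul_atTop hr)

/-- For upper triangular `g` with positive determinant, the Möbius image of `t * I` lies on a
vertical line. -/
theorem moebius_upper_triangular (g : GL (Fin 2) ℝ) (hg10 : g 1 0 = 0) (t : ℝ) :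
    num g ((t : ℂ) * I) / denom g ((t : ℂ) * I) =
      ((g 0 1 / g 1 1 : ℝ) : ℂ) + ((g 0 0 / g 1 1 * t : ℝ) : ℂ) * I := by
  have hdet : g.det.val = g 0 0 * g 1 1 := by
    rw [Matrix.GeneralLinearGroup.val_det_apply, Matrix.det_fin_two, hg10, mul_zero, sub_zero]
  have h11 : g 1 1 ≠ 0 := by
    intro h0
    apply g.det.ne_zero
    rw [hdet, h0, mul_zero]
  have h11' : ((g 1 1 : ℝ) : ℂ) ≠ 0 := by exact_mod_cast h11
  simp only [num, denom, hg10, Complex.ofReal_zero, zero_mul, zero_add]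
  push_cast
  field_simp
  ring

/-- Hecke compatibility: for upper triangular matrices `g i` of positive determinant with
`∑ i, f ∣[w+2] g i = f'`, the normalised primitives agree on the nose. -/
theorem sum_Phi_upper_triangular (hf : IsCuspidalPeriodic h f) (hf' : IsCuspidalPeriodic h' f')
    (w : ℕ) {ι : Type*} (s : Finset ι) (g : ι → GL (Fin 2) ℝ)
    (hg : ∀ i ∈ s, 0 < (g i).det.val) (hg10 : ∀ i ∈ s, g i 1 0 = 0)
    (hslash : ∑ i ∈ s, f ∣[(w : ℤ) + 2] g i = f') (X Y : ℂ) (τ : ℍ) :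
    ∑ i ∈ s, Phi h f w (g i 0 0 * X + g i 0 1 * Y) (g i 1 0 * X + g i 1 1 * Y)
        (num (g i) τ / denom (g i) τ) = Phi h' f' w X Y τ := by
  set D : ℂ → ℂ := fun u => ∑ i ∈ s, Phi h f w (g i 0 0 * X + g i 0 1 * Y)
    (g i 1 0 * X + g i 1 1 * Y) (num (g i) u / denom (g i) u) - Phi h' f' w X Y u with hD
  have hderiv : ∀ τ : ℍ, HasDerivAt D 0 (τ : ℂ) := by
    intro τ
    have h1 : HasDerivAt (fun u => ∑ i ∈ s, Phi h f w (g i 0 0 * X + g i 0 1 * Y)
        (g i 1 0 * X + g i 1 1 * Y) (num (g i) u / denom (g i) u))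
        (∑ i ∈ s, (f ∣[(w : ℤ) + 2] g i) τ * (X - τ * Y) ^ w) τ :=
      HasDerivAt.fun_sum fun i hi => hasDerivAt_Phi_moebius hf w X Y (g i) (hg i hi) τ
    have h2 := hasDerivAt_Phi hf' w X Y τ
    have h3 := h1.sub h2
    refine h3.congr_deriv ?_
    rw [← hslash, Finset.sum_apply, Finset.sum_mul, sub_self]
  obtain ⟨c, hc⟩ := exists_const_of_hasDerivAt_zero hderiv
  -- the constant is the limit along the imaginary axis, which is zero
  have hlim : Tendsto (fun t : ℝ => D ((t : ℂ) * I)) atTop (𝓝 0) := by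
    have h2 : Tendsto (fun t : ℝ => Phi h' f' w X Y ((t : ℂ) * I)) atTop (𝓝 0) := by
      have := tendsto_Phi_vertical hf' w X Y 0
      simpa using this
    have h1 : Tendsto (fun t : ℝ => ∑ i ∈ s, Phi h f w (g i 0 0 * X + g i 0 1 * Y)
        (g i 1 0 * X + g i 1 1 * Y) (num (g i) ((t : ℂ) * I) / denom (g i) ((t : ℂ) * I)))
        atTop (𝓝 (∑ _i ∈ s, (0 : ℂ))) := by
      refine tendsto_finsetSum s fun i hi => ?_
      have hdet : (g i).det.val = g i 0 0 * g i 1 1 := by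
        rw [Matrix.GeneralLinearGroup.val_det_apply, Matrix.det_fin_two, hg10 i hi, mul_zero,
          sub_zero]
      have hpos : 0 < g i 0 0 / g i 1 1 := by
        have h0 := hg i hi
        rw [hdet] at h0
        rcases (mul_pos_iff.mp h0) with ⟨ha, hd⟩ | ⟨ha, hd⟩
        · exact div_pos ha hd
        · exact div_pos_of_neg_of_neg ha hd
      have := tendsto_Phi_affine hf w (g i 0 0 * X + g i 0 1 * Y) (g i 1 0 * X + g i 1 1 * Y)
        (g i 0 1 / g i 1 1) (g i 0 0 / g i 1 1) hpos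
      refine this.congr fun t => ?_
      rw [moebius_upper_triangular (g i) (hg10 i hi) t]
    have := h1.sub h2
    simpa [hD] using this
  have hconst : ∀ t : ℝ, 0 < t → D ((t : ℂ) * I) = c := by
    intro t ht
    have him : 0 < ((t : ℂ) * I).im := by simpa using ht
    exact hc ⟨(t : ℂ) * I, him⟩
  have hc0 : c = 0 := by
    have h3 : Tendsto (fun t : ℝ => D ((t : ℂ) * I)) atTop (𝓝 c) := by
      refine tendsto_const_nhds.congr' ?_
      filter_upwards [eventually_gt_atTop (0 : ℝ)] with t ht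
      exact (hconst t ht).symm
    exact tendsto_nhds_unique h3 hlim
  have := hc τ
  rw [hc0, hD] at this
  exact sub_eq_zero.mp this

end Fermat.Agent.S22.EichlerPrim
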