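/-
S22, piece SEP (helper15 variant, file SepWeightZero.lean): the separation lemma in "weight zero product" form.

If `f` is a weight `k ≥ 2` cusp form on `Γ₀(N)` and `F : ℍ → ℂ` is a holomorphic function which is
invariant of weight `2 - k` under `Γ₀(N)`, tends to `0` at `i∞`, and such that every
`SL(2, ℤ)`-translate `F ∣[2 - k] σ` is the sum of a function bounded at `i∞` and a polynomial of
degree `≤ k - 2`, then `F ^ k * f ^ (k - 2)` is a weight zero modular form vanishing at `i∞`, hence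
zero; so `F = 0` or `f = 0`.

Main result: `Fermat.Agent.S22.eq_zero_of_weight_two_sub_invariant`.
-/
import Mathlib

set_option autoImplicit false

open UpperHalfPlane Filter Asymptotics CongruenceSubgroup ModularForm Function
open scoped MatrixGroups ModularForm Manifold Topology

namespace Fermat.Agent.S22


/-- A function on `ℍ` which is `h`-periodic and bounded on the half-strip
`0 ≤ re z ≤ h`, `A ≤ im z` is bounded at `i∞`. -/
theorem isBoundedAtImInfty_of_periodic_of_strip {g : ℍ → ℂ} {h : ℝ} (hh : 0 < h)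
    (hper : ∀ z : ℍ, g (h +ᵥ z) = g z) {A B : ℝ}
    (hstrip : ∀ z : ℍ, A ≤ z.im → 0 ≤ z.re → z.re ≤ h → ‖g z‖ ≤ B) :
    IsBoundedAtImInfty g := by
  rw [isBoundedAtImInfty_iff]
  refine ⟨B, A, fun z hz => ?_⟩
  have hperN : ∀ (n : ℕ) (z : ℍ), g (((n : ℝ) * h) +ᵥ z) = g z := by
    intro n
    induction n with
    | zero => intro z; simp
    | succ n ih =>
      intro z
      have : (((n + 1 : ℕ) : ℝ) * h) +ᵥ z = h +ᵥ (((n : ℝ) * h) +ᵥ z) := by
        rw [vadd_vadd]; congr 1; push_cast; ring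
      rw [this, hper, ih]
  have hperZ : ∀ (n : ℤ) (z : ℍ), g (((n : ℝ) * h) +ᵥ z) = g z := by
    intro n z
    obtain ⟨m, rfl | rfl⟩ := n.eq_nat_or_neg
    · exact_mod_cast hperN m z
    · have := hperN m ((((-(m : ℤ) : ℤ) : ℝ) * h) +ᵥ z)
      rw [vadd_vadd] at this
      have h0 : (m : ℝ) * h + ((-(m : ℤ) : ℤ) : ℝ) * h = 0 := by push_cast; ring
      rw [h0, zero_vadd] at this
      exact this.symm
  let n : ℤ := ⌊z.re / h⌋
  let z' : ℍ := ((-n : ℤ) : ℝ) * h +ᵥ z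
  have hz' : g z' = g z := hperZ (-n) z
  have him : z'.im = z.im := by simp [z', vadd_im]
  have hre : z'.re = z.re - n * h := by simp [z', vadd_re]; ring
  have h1 : (n : ℝ) ≤ z.re / h := Int.floor_le _
  have h2 : z.re / h < n + 1 := Int.lt_floor_add_one _
  rw [← hz']
  apply hstrip z' (by rw [him]; exact hz)
  · rw [hre]
    have := (le_div_iff₀ hh).mp h1
    linarith
  · rw [hre]
    have := (div_lt_iff₀ hh).mp h2
    linarith



/-- The filter "`im z → ∞` inside the strip `0 ≤ re z ≤ h`". -/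
noncomputable def stripFilter (h : ℝ) : Filter ℍ :=
  atImInfty ⊓ 𝓟 {z : ℍ | 0 ≤ z.re ∧ z.re ≤ h}

theorem stripFilter_le (h : ℝ) : stripFilter h ≤ atImInfty := inf_le_left

theorem tendsto_im_stripFilter (h : ℝ) : Tendsto (fun z : ℍ => z.im) (stripFilter h) atTop :=
  (tendsto_comap : Tendsto UpperHalfPlane.im atImInfty atTop).mono_left (stripFilter_le h)

theorem coe_isBigO_im_stripFilter (h : ℝ) :
    (fun z : ℍ => (z : ℂ)) =O[stripFilter h] (fun z : ℍ => z.im) := by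
  rw [isBigO_iff]
  refine ⟨2, ?_⟩
  have h1 : ∀ᶠ z : ℍ in stripFilter h, |h| ≤ z.im :=
    (tendsto_im_stripFilter h).eventually (eventually_ge_atTop |h|)
  have h2 : ∀ᶠ z : ℍ in stripFilter h, 0 ≤ z.re ∧ z.re ≤ h :=
    Eventually.filter_mono inf_le_right (mem_principal_self _)
  filter_upwards [h1, h2] with z hz1 hz2
  have : ‖(z : ℂ)‖ ≤ |z.re| + |z.im| := by
    simpa using Complex.norm_le_abs_re_add_abs_im (z : ℂ)
  have hre : |z.re| ≤ |h| := by
    rw [abs_of_nonneg hz2.1]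
    exact hz2.2.trans (le_abs_self h)
  have him : |z.im| = z.im := abs_of_pos z.im_pos
  rw [Real.norm_eq_abs, him]
  linarith

theorem polynomial_isBigO_stripFilter (h : ℝ) (p : Polynomial ℂ) :
    (fun z : ℍ => p.eval (z : ℂ)) =O[stripFilter h] (fun z : ℍ => z.im ^ p.natDegree) := by
  have hge1 : ∀ᶠ z : ℍ in stripFilter h, 1 ≤ z.im :=
    (tendsto_im_stripFilter h).eventually (eventually_ge_atTop 1)
  have hpow : ∀ i ≤ p.natDegree, (fun z : ℍ => z.im ^ i) =O[stripFilter h]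
      (fun z : ℍ => z.im ^ p.natDegree) := by
    intro i hi
    rw [isBigO_iff]
    refine ⟨1, ?_⟩
    filter_upwards [hge1] with z hz
    rw [one_mul, Real.norm_eq_abs, Real.norm_eq_abs, abs_of_nonneg (by positivity),
      abs_of_nonneg (by positivity)]
    exact pow_le_pow_right₀ hz hi
  have : (fun z : ℍ => p.eval (z : ℂ)) =
      fun z : ℍ => ∑ i ∈ Finset.range (p.natDegree + 1), p.coeff i * (z : ℂ) ^ i := by
    funext z
    rw [Polynomial.eval_eq_sum_range]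
  rw [this]
  refine IsBigO.fun_sum (A := fun i (z : ℍ) => p.coeff i * (z : ℂ) ^ i) fun i hi => ?_
  have hi' : i ≤ p.natDegree := Nat.lt_succ_iff.mp (Finset.mem_range.mp hi)
  refine IsBigO.trans ?_ (hpow i hi')
  exact IsBigO.const_mul_left ((coe_isBigO_im_stripFilter h).pow i) (p.coeff i)


theorem tendsto_pow_mul_exp_neg_mul (n : ℕ) {c : ℝ} (hc : 0 < c) :
    Tendsto (fun y : ℝ => y ^ n * Real.exp (-c * y)) atTop (𝓝 0) := by
  have := tendsto_rpow_mul_exp_neg_mul_atTop_nhds_zero (n : ℝ) c hc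
  refine this.congr fun y => ?_
  rw [Real.rpow_natCast, neg_mul]

theorem strip_isBigO_one {E φ : ℍ → ℂ} {p : Polynomial ℂ} {a b : ℕ} {c : ℝ} (hc : 0 < c)
    (hE : IsBoundedAtImInfty E) (hφ : φ =O[atImInfty] fun τ => Real.exp (-c * τ.im))
    (hb : b = 0 → p.natDegree = 0) (h : ℝ) :
    (fun z : ℍ => (E z + p.eval (z : ℂ)) ^ a * φ z ^ b) =O[stripFilter h] (1 : ℍ → ℝ) := by
  set m := p.natDegree with hm
  have hge1 : ∀ᶠ z : ℍ in stripFilter h, 1 ≤ z.im :=
    (tendsto_im_stripFilter h).eventually (eventually_ge_atTop 1)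
  have h1 : (1 : ℍ → ℝ) =O[stripFilter h] (fun z : ℍ => z.im ^ m) := by
    rw [isBigO_iff]
    refine ⟨1, ?_⟩
    filter_upwards [hge1] with z hz
    simp only [Pi.one_apply, norm_one, one_mul, Real.norm_eq_abs]
    rw [abs_of_nonneg (pow_nonneg z.im_pos.le m)]
    exact one_le_pow₀ hz
  have hE' : E =O[stripFilter h] (fun z : ℍ => z.im ^ m) :=
    (IsBigO.mono hE (stripFilter_le h)).trans h1
  have hp := polynomial_isBigO_stripFilter h p
  have hsum : (fun z : ℍ => E z + p.eval (z : ℂ)) =O[stripFilter h] (fun z : ℍ => z.im ^ m) :=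
    hE'.add hp
  have hφ' : φ =O[stripFilter h] fun τ => Real.exp (-c * τ.im) := hφ.mono (stripFilter_le h)
  have hprod := (hsum.pow a).mul (hφ'.pow b)
  refine hprod.trans ?_
  rcases Nat.eq_zero_or_pos b with hb0 | hbpos
  · have hm0 : m = 0 := hb hb0
    subst hb0
    rw [hm0]
    simp only [pow_zero, one_pow, mul_one]
    exact isBigO_refl _ _
  · have hcb : 0 < c * b := mul_pos hc (by exact_mod_cast hbpos)
    have ht := (tendsto_pow_mul_exp_neg_mul (m * a) hcb).comp (tendsto_im_stripFilter h)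
    have : (fun z : ℍ => (z.im ^ m) ^ a * Real.exp (-c * z.im) ^ b) =
        (fun y : ℝ => y ^ (m * a) * Real.exp (-(c * b) * y)) ∘ (fun z : ℍ => z.im) := by
      funext z
      simp only [Function.comp_apply]
      rw [← pow_mul, ← Real.exp_nat_mul]
      congr 2
      ring
    rw [this]
    exact ht.isBigO_one ℝ



/-- Slash action of `SL(2, ℤ)` on powers. -/
theorem pow_slash_SL2 (k : ℤ) (A : SL(2, ℤ)) (f : ℍ → ℂ) (n : ℕ) :
    (f ^ n) ∣[(n : ℤ) * k] A = (f ∣[k] A) ^ n := by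
  induction n with
  | zero =>
    simp only [pow_zero, Nat.cast_zero, zero_mul]
    exact is_invariant_one A
  | succ n ih =>
    rw [pow_succ, pow_succ, ← ih]
    have : ((n + 1 : ℕ) : ℤ) * k = (n : ℤ) * k + k := by push_cast; ring
    rw [this]
    exact mul_slash_SL2 _ _ A _ _

/-- The weight zero function `F ^ k * f ^ (k - 2)` and its `SL(2, ℤ)`-translates. -/
theorem mul_pow_slash_SL2 {k : ℤ} (hk : 2 ≤ k) (F f : ℍ → ℂ) (σ : SL(2, ℤ)) :
    (F ^ k.toNat * f ^ (k - 2).toNat) ∣[(0 : ℤ)] σ =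
      (F ∣[2 - k] σ) ^ k.toNat * (f ∣[k] σ) ^ (k - 2).toNat := by
  have ha : (k.toNat : ℤ) = k := Int.toNat_of_nonneg (by omega)
  have hb : ((k - 2).toNat : ℤ) = k - 2 := Int.toNat_of_nonneg (by omega)
  have h0 : (0 : ℤ) = (k.toNat : ℤ) * (2 - k) + ((k - 2).toNat : ℤ) * k := by
    rw [ha, hb]; ring
  rw [h0, mul_slash_SL2, pow_slash_SL2, pow_slash_SL2]



theorem Gamma_le_Gamma0 (N : ℕ) : Gamma N ≤ Gamma0 N := by
  intro γ hγ
  rw [Gamma_mem] at hγ
  rw [Gamma0_mem]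
  exact hγ.2.2.1

/-- If `φ` is weight-`k` invariant under `Γ(N)`, then every `SL(2, ℤ)`-translate of `φ`
is `N`-periodic. -/
theorem slash_vadd_of_Gamma_invariant (N : ℕ) (k : ℤ) (φ : ℍ → ℂ)
    (hφ : ∀ γ ∈ Gamma N, φ ∣[k] γ = φ) (σ : SL(2, ℤ)) (z : ℍ) :
    (φ ∣[k] σ) ((N : ℝ) +ᵥ z) = (φ ∣[k] σ) z := by
  obtain ⟨t, ht⟩ : ∃ t : SL(2, ℤ), t = ModularGroup.T ^ (N : ℤ) := ⟨_, rfl⟩
  have htmem : t ∈ Gamma N := by
    have := ModularGroup_T_pow_mem_Gamma (N : ℤ) (N : ℤ) dvd_rfl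
    rw [Int.natAbs_natCast] at this
    rw [ht]; exact this
  have hconj : σ * t * σ⁻¹ ∈ Gamma N := (Gamma_normal N).conj_mem t htmem σ
  have h1 : (φ ∣[k] σ) ∣[k] t = φ ∣[k] σ := by
    rw [← SlashAction.slash_mul]
    have : σ * t = (σ * t * σ⁻¹) * σ := by group
    rw [this, SlashAction.slash_mul, hφ _ hconj]
  have h2 := congrFun h1 z
  rw [SL_slash_apply] at h2
  have hsmul : t • z = (N : ℝ) +ᵥ z := by
    rw [ht]
    exact_mod_cast modular_T_zpow_smul z (N : ℤ)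
  have hc : (t : Matrix (Fin 2) (Fin 2) ℤ) = !![1, (N : ℤ); 0, 1] := by
    rw [ht]; exact ModularGroup.coe_T_zpow (N : ℤ)
  have h10 : t 1 0 = 0 := by
    have := congrFun (congrFun hc 1) 0
    simpa using this
  have h11 : t 1 1 = 1 := by
    have := congrFun (congrFun hc 1) 1
    simpa using this
  have hdenom : denom (t : GL (Fin 2) ℝ) z = 1 := by
    simp [denom, h10, h11]
  rw [hsmul] at h2
  rw [← h2]
  simp [hdenom]


/-- `h`-periodicity on `ℍ` gives periodicity of the extension by `ofComplex`. -/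
theorem periodic_comp_ofComplex_of_vadd {g : ℍ → ℂ} {h : ℝ}
    (hper : ∀ z : ℍ, g (h +ᵥ z) = g z) : Periodic (g ∘ ofComplex) h := by
  intro w
  by_cases hw : 0 < w.im
  · have hw' : 0 < (w + h).im := by simp [hw]
    simp only [comp_apply, ofComplex_apply_of_im_pos hw', ofComplex_apply_of_im_pos hw]
    rw [← hper ⟨w, hw⟩]
    congr 1
    ext
    simp [add_comm]
  · have hw0 : w.im ≤ 0 := not_lt.mp hw
    have hw' : (w + h).im ≤ 0 := by simpa using hw0
    simp [ofComplex_apply_of_im_nonpos hw', ofComplex_apply_of_im_nonpos hw0]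

theorem cuspForm_slash_invariant {N : ℕ} {k : ℤ} (f : CuspForm (Gamma0 N) k)
    {γ : SL(2, ℤ)} (hγ : γ ∈ Gamma0 N) : ⇑f ∣[k] γ = ⇑f :=
  SlashInvariantFormClass.slash_action_eq f _ (Subgroup.mem_map_of_mem _ hγ)

theorem cuspForm_slash_exp_decay {N : ℕ} [NeZero N] {k : ℤ} (f : CuspForm (Gamma0 N) k)
    (σ : SL(2, ℤ)) :
    ∃ c > 0, (⇑f ∣[k] σ) =O[atImInfty] fun τ => Real.exp (-c * τ.im) := by
  have hN : (0 : ℝ) < N := by exact_mod_cast Nat.pos_of_ne_zero (NeZero.ne N)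
  have hzero : IsZeroAtImInfty (⇑f ∣[k] σ) := CuspFormClass.zero_at_infty_slash f σ
  have hper : Periodic ((⇑f ∣[k] σ) ∘ ofComplex) (N : ℝ) :=
    periodic_comp_ofComplex_of_vadd fun z =>
      slash_vadd_of_Gamma_invariant N k ⇑f
        (fun γ hγ => cuspForm_slash_invariant f (Gamma_le_Gamma0 N hγ)) σ z
  have hhol : MDifferentiable 𝓘(ℂ) 𝓘(ℂ) (⇑f ∣[k] σ) := by
    rw [SL_slash]
    exact (CuspFormClass.holo f).slash k _
  have := hzero.exp_decay_atImInfty hN hper hhol hzero.isBoundedAtImInfty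
  refine ⟨2 * Real.pi / N, by positivity, ?_⟩
  refine this.congr_right fun τ => ?_
  congr 1
  ring


/-- From a bound along the strip filter to a bound at `i∞`, using periodicity. -/
theorem isBoundedAtImInfty_of_periodic_of_isBigO_strip {g : ℍ → ℂ} {h : ℝ} (hh : 0 < h)
    (hper : ∀ z : ℍ, g (h +ᵥ z) = g z) (hO : g =O[stripFilter h] (1 : ℍ → ℝ)) :
    IsBoundedAtImInfty g := by
  rw [isBigO_iff] at hO
  obtain ⟨C, hC⟩ := hO
  rw [stripFilter, eventually_inf_principal] at hC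
  obtain ⟨A, hA⟩ := (atImInfty_mem _).mp hC
  refine isBoundedAtImInfty_of_periodic_of_strip hh hper (A := A) (B := C) ?_
  intro z hz h0 h1
  have := hA z hz ⟨h0, h1⟩
  simpa using this

section Main

variable {N : ℕ} [NeZero N] {k : ℤ}

/-- Boundedness at `i∞` of every `SL(2, ℤ)`-translate of `F ^ k * f ^ (k - 2)`. -/
theorem isBoundedAtImInfty_mul_pow_slash (hk : 2 ≤ k) (f : CuspForm (Gamma0 N) k) (F : ℍ → ℂ)
    (hF_inv : ∀ γ ∈ Gamma0 N, F ∣[2 - k] γ = F)
    (σ : SL(2, ℤ)) {E : ℍ → ℂ} {p : Polynomial ℂ} (hE : IsBoundedAtImInfty E)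
    (hp : (p.natDegree : ℤ) ≤ k - 2)
    (hEp : ∀ z : ℍ, (F ∣[2 - k] σ) z = E z + p.eval (z : ℂ)) :
    IsBoundedAtImInfty ((F ^ k.toNat * (⇑f) ^ (k - 2).toNat) ∣[(0 : ℤ)] σ) := by
  have hN : (0 : ℝ) < N := by exact_mod_cast Nat.pos_of_ne_zero (NeZero.ne N)
  obtain ⟨c, hc, hφ⟩ := cuspForm_slash_exp_decay f σ
  -- periodicity
  have hGinv : ∀ γ ∈ Gamma N, (F ^ k.toNat * (⇑f) ^ (k - 2).toNat) ∣[(0 : ℤ)] γ =
      F ^ k.toNat * (⇑f) ^ (k - 2).toNat := by
    intro γ hγ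
    rw [mul_pow_slash_SL2 hk, hF_inv γ (Gamma_le_Gamma0 N hγ),
      cuspForm_slash_invariant f (Gamma_le_Gamma0 N hγ)]
  have hper := slash_vadd_of_Gamma_invariant N 0 _ hGinv σ
  refine isBoundedAtImInfty_of_periodic_of_isBigO_strip hN hper ?_
  have hb : (k - 2).toNat = 0 → p.natDegree = 0 := by
    intro h0
    have : k - 2 ≤ 0 := Int.toNat_eq_zero.mp h0
    omega
  have := strip_isBigO_one (a := k.toNat) (b := (k - 2).toNat) hc hE hφ hb (N : ℝ)
  refine this.congr_left fun z => ?_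
  rw [mul_pow_slash_SL2 hk]
  simp only [Pi.mul_apply, Pi.pow_apply, hEp]

/-- The auxiliary weight-zero modular form `F ^ k * f ^ (k - 2)`. -/
noncomputable def auxForm (hk : 2 ≤ k) (f : CuspForm (Gamma0 N) k) (F : ℍ → ℂ)
    (hF_holo : MDifferentiable 𝓘(ℂ) 𝓘(ℂ) F)
    (hF_inv : ∀ γ ∈ Gamma0 N, F ∣[2 - k] γ = F)
    (hF_cusps : ∀ σ : SL(2, ℤ), ∃ (E : ℍ → ℂ) (p : Polynomial ℂ), IsBoundedAtImInfty E ∧
      (p.natDegree : ℤ) ≤ k - 2 ∧ ∀ z : ℍ, (F ∣[2 - k] σ) z = E z + p.eval (z : ℂ)) :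
    ModularForm (Gamma0 N) 0 where
  toFun := F ^ k.toNat * (⇑f) ^ (k - 2).toNat
  slash_action_eq' := by
    intro γ hγ
    obtain ⟨γ₀, hγ₀, rfl⟩ := Subgroup.mem_map.mp hγ
    have := mul_pow_slash_SL2 hk F (⇑f) γ₀
    rw [hF_inv γ₀ hγ₀, cuspForm_slash_invariant f hγ₀] at this
    exact this
  holo' := (hF_holo.pow _).mul ((CuspFormClass.holo f).pow _)
  bdd_at_cusps' := by
    intro c hc
    rw [Subgroup.IsArithmetic.isCusp_iff_isCusp_SL2Z] at hc
    rw [OnePoint.isBoundedAt_iff_forall_SL2Z hc]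
    intro σ _
    obtain ⟨E, p, hE, hp, hEp⟩ := hF_cusps σ
    exact isBoundedAtImInfty_mul_pow_slash hk f F hF_inv σ hE hp hEp

theorem eq_zero_of_weight_two_sub_invariant (hk : 2 ≤ k) (f : CuspForm (Gamma0 N) k)
    (F : ℍ → ℂ) (hF_holo : MDifferentiable 𝓘(ℂ) 𝓘(ℂ) F)
    (hF_inv : ∀ γ ∈ Gamma0 N, F ∣[2 - k] γ = F)
    (hF_cusps : ∀ σ : SL(2, ℤ), ∃ (E : ℍ → ℂ) (p : Polynomial ℂ), IsBoundedAtImInfty E ∧
      (p.natDegree : ℤ) ≤ k - 2 ∧ ∀ z : ℍ, (F ∣[2 - k] σ) z = E z + p.eval (z : ℂ))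
    (hF_zero : IsZeroAtImInfty F) (hFf : F = 0 → f = 0) : f = 0 := by
  set G := auxForm hk f F hF_holo hF_inv hF_cusps with hG
  have hGcoe : (⇑G : ℍ → ℂ) = F ^ k.toNat * (⇑f) ^ (k - 2).toNat := rfl
  obtain ⟨c, hc⟩ := ModularForm.eq_const_of_weight_zero G
  have ha : k.toNat ≠ 0 := by
    intro h0
    have : k ≤ 0 := Int.toNat_eq_zero.mp h0
    omega
  -- G tends to 0 at i∞
  have hfzero : IsZeroAtImInfty (⇑f) := CuspFormClass.zero_at_infty f
  have hlim : Tendsto (⇑G) atImInfty (𝓝 0) := by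
    rw [hGcoe]
    have h1 : Tendsto (F ^ k.toNat) atImInfty (𝓝 (0 ^ k.toNat)) := Tendsto.pow hF_zero _
    have h2 : Tendsto ((⇑f) ^ (k - 2).toNat) atImInfty (𝓝 (0 ^ (k - 2).toNat)) :=
      Tendsto.pow hfzero _
    have := h1.mul h2
    rwa [zero_pow ha, zero_mul] at this
  have hc0 : c = 0 := by
    rw [hc] at hlim
    exact tendsto_nhds_unique tendsto_const_nhds hlim
  have hG0 : F ^ k.toNat * (⇑f) ^ (k - 2).toNat = 0 := by
    rw [← hGcoe, hc, hc0]
    rfl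
  rw [UpperHalfPlane.mul_eq_zero_iff (hF_holo.pow _) ((CuspFormClass.holo f).pow _)] at hG0
  rcases hG0 with h | h
  · apply hFf
    funext z
    have := congrFun h z
    simpa using pow_eq_zero_iff ha |>.mp this
  · by_cases hb : (k - 2).toNat = 0
    · rw [hb, pow_zero] at h
      exact absurd (congrFun h I) one_ne_zero
    · ext z
      have := congrFun h z
      simpa using pow_eq_zero_iff hb |>.mp this

end Main


end Fermat.Agent.S22
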